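import Fermat.Agent.EC.Inert

/-!
# Inertia subgroups of valuation subrings
-/

set_option autoImplicit false
set_option linter.unusedSectionVars false

namespace Fermat.Agent.EC

open scoped Pointwise

variable {F K : Type*} [Field F] [Field K] [Algebra F K]

theorem mem_iff_of_mem_decomposition (A : ValuationSubring K) {σ : K ≃ₐ[F] K}
    (hσ : σ ∈ A.decompositionSubgroup F) (x : K) : σ x ∈ A ↔ x ∈ A := by
  have h : σ • A = A := hσ
  constructor
  · intro hx
    rw [← h] at hx
    have h2 : σ x ∈ σ • A := hx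
    rw [ValuationSubring.mem_smul_pointwise_iff_exists] at h2
    obtain ⟨y, hy, hxy⟩ := h2
    have : y = x := σ.injective hxy
    rw [← this]; exact hy
  · intro hx
    rw [← h]
    exact ValuationSubring.smul_mem_pointwise_smul σ x A hx

theorem valuation_map_eq [Algebra.IsAlgebraic F K] (A : ValuationSubring K) {σ : K ≃ₐ[F] K}
    (hσ : σ ∈ A.decompositionSubgroup F) (x : K) : A.valuation (σ x) = A.valuation x := by
  -- first: `v (σ a) ≤ v (σ b) ↔ v a ≤ v b`
  have hle : ∀ a b : K, A.valuation a ≤ A.valuation b → A.valuation (σ a) ≤ A.valuation (σ b) := by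
    intro a b hab
    by_cases hb : b = 0
    · subst hb
      rw [map_zero, le_zero_iff, Valuation.zero_iff] at hab
      subst hab
      exact le_rfl
    · have hb' : A.valuation b ≠ 0 := (Valuation.ne_zero_iff _).mpr hb
      have hσb : σ b ≠ 0 := fun h => hb (by simpa using h)
      have hσb' : A.valuation (σ b) ≠ 0 := (Valuation.ne_zero_iff _).mpr hσb
      have h1 : a / b ∈ A := by
        rw [← A.valuation_le_one_iff, map_div₀]
        exact (div_le_one₀ (zero_lt_iff.mpr hb')).mpr hab
      have h2 := (mem_iff_of_mem_decomposition A hσ (a / b)).mpr h1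
      rw [map_div₀ σ, ← A.valuation_le_one_iff, map_div₀] at h2
      exact (div_le_one₀ (zero_lt_iff.mpr hσb')).mp h2
  -- finite orbit
  have hfin : Set.Finite (Set.range fun n : ℕ => (σ ^ n) x) := by
    have hx : IsIntegral F x := Algebra.IsIntegral.isIntegral x
    refine Set.Finite.subset (Polynomial.rootSet_finite (minpoly F x) K) ?_
    rintro _ ⟨n, rfl⟩
    rw [Polynomial.mem_rootSet]
    refine ⟨minpoly.ne_zero hx, ?_⟩
    have : Polynomial.aeval ((σ ^ n : K ≃ₐ[F] K) x) (minpoly F x) =
        (σ ^ n : K ≃ₐ[F] K) (Polynomial.aeval x (minpoly F x)) :=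
      Polynomial.aeval_algHom_apply ((σ ^ n : K ≃ₐ[F] K) : K →ₐ[F] K) x (minpoly F x)
    rw [this, minpoly.aeval, map_zero]
  obtain ⟨m, -, n, -, hmn, he⟩ := (Set.infinite_univ (α := ℕ)).exists_ne_map_eq_of_mapsTo
    (f := fun n : ℕ => (σ ^ n) x) (t := Set.range fun n : ℕ => (σ ^ n) x)
    (fun n _ => Set.mem_range_self n) hfin
  wlog hlt : m < n generalizing m n
  · exact this n m hmn.symm he.symm (lt_of_le_of_ne (not_lt.mp hlt) hmn.symm)
  have hper : (σ ^ (n - m)) x = x := by
    have h1 : (σ ^ m) ((σ ^ (n - m)) x) = (σ ^ m) x := by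
      rw [← AlgEquiv.mul_apply, ← pow_add, Nat.add_sub_cancel' hlt.le]
      exact he.symm
    exact (σ ^ m).injective h1
  have hk : 0 < n - m := Nat.sub_pos_of_lt hlt
  set k := n - m
  have hpow : ∀ j : ℕ, (σ ^ (j + 1)) x = σ ((σ ^ j) x) := by
    intro j
    rw [pow_succ', AlgEquiv.mul_apply]
  rcases le_total (A.valuation (σ x)) (A.valuation x) with h | h
  · refine le_antisymm h ?_
    -- decreasing chain
    have hdec : ∀ j : ℕ, A.valuation ((σ ^ (j + 1)) x) ≤ A.valuation (σ x) := by
      intro j
      induction j with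
      | zero => simp
      | succ j ih =>
        rw [hpow (j + 1)]
        exact hle _ _ (ih.trans h)
    have := hdec (k - 1)
    rw [Nat.sub_add_cancel hk, hper] at this
    exact this
  · refine le_antisymm ?_ h
    have hinc : ∀ j : ℕ, A.valuation (σ x) ≤ A.valuation ((σ ^ (j + 1)) x) := by
      intro j
      induction j with
      | zero => simp
      | succ j ih =>
        rw [hpow (j + 1)]
        exact hle _ _ (h.trans ih)
    have := hinc (k - 1)
    rw [Nat.sub_add_cancel hk, hper] at this
    exact this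

theorem isInert_of_mem [Algebra.IsAlgebraic F K] (A : ValuationSubring K) {σ : K ≃ₐ[F] K}
    (hσ : σ ∈ A.inertiaSubgroupIn F) : IsInert A.valuation σ := by
  obtain ⟨g, hg, rfl⟩ := Subgroup.mem_map.mp hσ
  refine ⟨fun x => valuation_map_eq A g.2 x, ?_⟩
  intro x hx
  have hxA : x ∈ A := (A.valuation_le_one_iff x).mp hx
  have h1 : MulSemiringAction.toRingAut (A.decompositionSubgroup F)
      (IsLocalRing.ResidueField A) g = 1 := hg
  have h2 : g • (IsLocalRing.residue A ⟨x, hxA⟩) = IsLocalRing.residue A ⟨x, hxA⟩ := by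
    have := DFunLike.congr_fun h1 (IsLocalRing.residue A ⟨x, hxA⟩)
    exact this
  rw [← IsLocalRing.ResidueField.residue_smul, ← sub_eq_zero, ← map_sub,
    IsLocalRing.residue_eq_zero_iff] at h2
  have h3 := (A.valuation_lt_one_iff _).mp h2
  exact h3

end Fermat.Agent.EC
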