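import Fermat.Agent.EC.Torsion

/-!
# The number of `n`-torsion points
-/

set_option autoImplicit false

namespace Fermat.Agent.EC

open WeierstrassCurve WeierstrassCurve.Affine Polynomial

variable {F : Type*} [Field F] {W : WeierstrassCurve F}

lemma exists_point_over [IsAlgClosed F] (hΔ : W.Δ ≠ 0) (x : F) :
    ∃ y, W.toAffine.Nonsingular x y := by
  have hdy : (yPoly W x).degree ≠ 0 := by
    rw [degree_eq_natDegree (yPoly_ne_zero _), yPoly_natDegree]
    simp
  obtain ⟨y, hy⟩ := IsAlgClosed.exists_root _ hdy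
  exact ⟨y, (W.toAffine.equation_iff_nonsingular_of_Δ_ne_zero hΔ).mp ((eval_yPoly _ _).1 hy)⟩

variable [DecidableEq F]

/-- `Φ_n` and `ΨSq_n` have no common root. -/
lemma not_common_root [IsAlgClosed F] (hΔ : W.Δ ≠ 0) {n : ℕ} (hn : 1 ≤ n) (x : F)
    (h1 : (W.Φ n).eval x = 0) (h2 : (W.ΨSq n).eval x = 0) : False := by
  obtain ⟨y, hy⟩ := exists_point_over hΔ x
  have e1 : n • (Point.some x y hy : W.toAffine.Point) = 0 := (smul_some_eq_zero_iff hy n).mpr h2
  rw [← psi_mul_psi hy.1, psi_sq hy.1, h2, mul_zero, zero_sub, neg_eq_zero, mul_eq_zero] at h1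
  obtain ⟨m, rfl⟩ := Nat.exists_eq_add_of_le' hn
  rcases h1 with h | h
  · have e2 : (m + 1 + 1) • (Point.some x y hy : W.toAffine.Point) = 0 := by
      rw [(mulFormula hy _).1]
      exact_mod_cast h
    rw [succ_nsmul, e1, zero_add] at e2
    exact Point.some_ne_zero hy e2
  · have e2 : m • (Point.some x y hy : W.toAffine.Point) = 0 := by
      rw [(mulFormula hy _).1]
      push_cast at h
      rw [add_sub_cancel_right] at h
      exact h
    rw [succ_nsmul, e2, zero_add] at e1
    exact Point.some_ne_zero hy e1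

lemma isCoprime_Φ_ΨSq [IsAlgClosed F] (hΔ : W.Δ ≠ 0) {n : ℕ} (hn : 1 ≤ n) :
    IsCoprime (W.Φ n) (W.ΨSq n) := by
  rw [Polynomial.isCoprime_iff_aeval_ne_zero_of_isAlgClosed F F]
  intro x
  by_contra hcon
  push Not at hcon
  obtain ⟨h1, h2⟩ := hcon
  rw [Polynomial.coe_aeval_eq_eval] at h1 h2
  exact not_common_root hΔ hn x h1 h2

/-- the Wronskian of `Φ_n`, `ΨSq_n` -/
lemma wronskian_ne_zero [IsAlgClosed F] [CharZero F] (hΔ : W.Δ ≠ 0) {n : ℕ} (hn : 1 ≤ n) :
    derivative (W.Φ n) * W.ΨSq n - W.Φ n * derivative (W.ΨSq n) ≠ 0 := by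
  intro h
  rw [sub_eq_zero] at h
  have h1 : W.Φ n ∣ derivative (W.Φ n) :=
    (isCoprime_Φ_ΨSq hΔ hn).dvd_of_dvd_mul_right ⟨_, h⟩
  have hdeg : (W.Φ n).natDegree = n ^ 2 := by
    rw [WeierstrassCurve.natDegree_Φ]; simp
  have hpos : 0 < n ^ 2 := by positivity
  have h2 : derivative (W.Φ n) ≠ 0 := by
    intro h0
    have := natDegree_eq_zero_of_derivative_eq_zero h0
    omega
  have h3 := natDegree_le_of_dvd h1 h2
  have h4 := natDegree_derivative_lt (p := W.Φ n) (by omega)
  omega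

theorem ncard_torsion [IsAlgClosed F] [CharZero F] (hΔ : W.Δ ≠ 0) {n : ℕ} (hn : Odd n) :
    Set.ncard {P : W.toAffine.Point | n • P = 0} = n ^ 2 := by
  classical
  have hn1 : 1 ≤ n := hn.pos
  have hnF : (n : F) ≠ 0 := Nat.cast_ne_zero.mpr (by omega)
  obtain ⟨hfin, hle⟩ := finite_torsion (W := W) hn hnF
  refine le_antisymm hle ?_
  set Φ := W.Φ n with hΦ
  set Ψ := W.ΨSq n with hΨ
  have hdeg : Φ.natDegree = n ^ 2 := by
    rw [hΦ, WeierstrassCurve.natDegree_Φ]; simp
  have hdegΨ : Ψ.natDegree < n ^ 2 := by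
    rw [hΨ, WeierstrassCurve.natDegree_ΨSq _ (by exact_mod_cast hnF)]
    simp only [Int.natAbs_natCast]
    have : 0 < n ^ 2 := by positivity
    omega
  set w := derivative Φ * Ψ - Φ * derivative Ψ with hw
  have hw0 : w ≠ 0 := wronskian_ne_zero hΔ hn1
  obtain ⟨c, hc⟩ : ∃ c : F, c ∉ w.roots.toFinset.image fun z => Φ.eval z / Ψ.eval z :=
    Infinite.exists_notMem_finset _
  set f := Φ - C c * Ψ with hf
  have hfdeg : f.natDegree = n ^ 2 := by
    rw [hf, ← hdeg]
    apply natDegree_sub_eq_left_of_natDegree_lt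
    rw [hdeg]
    exact (natDegree_C_mul_le _ _).trans_lt hdegΨ
  have hf0 : f ≠ 0 := by
    intro h
    rw [h, natDegree_zero] at hfdeg
    have : 0 < n ^ 2 := by positivity
    omega
  have hroot : ∀ z, f.eval z = 0 → Ψ.eval z ≠ 0 ∧ (derivative f).eval z ≠ 0 := by
    intro z hz
    rw [hf, eval_sub, eval_mul, eval_C, sub_eq_zero] at hz
    have hΨz : Ψ.eval z ≠ 0 := by
      intro h
      rw [h, mul_zero] at hz
      exact not_common_root hΔ hn1 z hz h
    refine ⟨hΨz, fun hd => ?_⟩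
    rw [hf, derivative_sub, derivative_C_mul, eval_sub, eval_mul, eval_C, sub_eq_zero] at hd
    apply hc
    rw [Finset.mem_image]
    refine ⟨z, ?_, by rw [hz, mul_div_cancel_right₀ _ hΨz]⟩
    rw [Multiset.mem_toFinset, mem_roots hw0, IsRoot, hw, eval_sub, eval_mul, eval_mul, hd, hz]
    ring
  have hcard : f.roots.toFinset.card = n ^ 2 := by
    rw [Multiset.toFinset_card_of_nodup, ← hfdeg]
    · exact IsAlgClosed.card_roots_eq_natDegree
    · refine nodup_roots ?_
      rw [Polynomial.Separable, Polynomial.isCoprime_iff_aeval_ne_zero_of_isAlgClosed F F]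
      intro z
      by_contra hcon
      push Not at hcon
      obtain ⟨h1, h2⟩ := hcon
      rw [Polynomial.coe_aeval_eq_eval] at h1 h2
      exact (hroot z h1).2 h2
  -- the base point
  obtain ⟨yc, hyc⟩ := exists_point_over hΔ c
  set Q : W.toAffine.Point := Point.some c yc hyc with hQ
  have hex : ∀ z : F, f.eval z = 0 → ∃ (y : F) (h : W.toAffine.Nonsingular z y),
      n • (Point.some z y h : W.toAffine.Point) = Q := by
    intro z hz
    obtain ⟨y, hy⟩ := exists_point_over hΔ z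
    have h1 : n • (Point.some z y hy : W.toAffine.Point) ≠ 0 := by
      rw [Ne, smul_some_eq_zero_iff hy n]
      exact (hroot z hz).1
    rcases hP : n • (Point.some z y hy : W.toAffine.Point) with _ | ⟨x', y', h'⟩
    · exact absurd hP h1
    · have h2 := x_smul hy n h' hP
      rw [hf, eval_sub, eval_mul, eval_C, sub_eq_zero] at hz
      have h3 : x' = c := by
        apply mul_right_cancel₀ (hroot z (by rw [hf, eval_sub, eval_mul, eval_C, sub_eq_zero]; exact hz)).1
        rw [h2, hz]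
      subst h3
      rcases (Point.X_eq_iff (h₁ := h') (h₂ := hyc)).mp rfl with h4 | h4
      · exact ⟨y, hy, by rw [hP, h4]⟩
      · refine ⟨_, (nonsingular_neg z y).mpr hy, ?_⟩
        rw [← Point.neg_some hy, smul_neg, hP, h4, neg_neg]
  choose y hy hyQ using hex
  have hne : f.roots.toFinset.Nonempty := by
    rw [← Finset.card_pos, hcard]; positivity
  obtain ⟨z₀, hz₀⟩ := hne
  have hmem : ∀ z, z ∈ f.roots.toFinset ↔ f.eval z = 0 := fun z => by
    rw [Multiset.mem_toFinset, mem_roots hf0]; rfl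
  rw [hmem] at hz₀
  let g : F → W.toAffine.Point := fun z => if h : f.eval z = 0 then
    Point.some z (y z h) (hy z h) - Point.some z₀ (y z₀ hz₀) (hy z₀ hz₀) else 0
  rw [← hcard, ← Set.ncard_coe_finset]
  refine Set.ncard_le_ncard_of_injOn g ?_ ?_ hfin
  · intro z hz
    have hz' : f.eval z = 0 := (hmem z).mp hz
    simp only [g, dif_pos hz', Set.mem_setOf_eq]
    rw [smul_sub, hyQ, hyQ, sub_self]
  · intro z hz z' hz' he
    have h1 : f.eval z = 0 := (hmem z).mp hz
    have h2 : f.eval z' = 0 := (hmem z').mp hz'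
    simp only [g, dif_pos h1, dif_pos h2, sub_left_inj, Point.some.injEq] at he
    exact he.1

end Fermat.Agent.EC
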