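import Fermat.Agent.EC.VarChange
import Fermat.Agent.EC.CardTorsion
import Fermat.Agent.EllFrob.RedFrob

/-!
# Frobenius relation on the torsion of an elliptic curve with a given integral model
-/

set_option autoImplicit false

namespace Fermat.Agent.EC

open WeierstrassCurve WeierstrassCurve.Affine WeierstrassCurve.Affine.Point

namespace VC

variable {F : Type*} [Field F] {W W' : WeierstrassCurve F} {u r s t : F}

lemma map (h : VC W W' u r s t) {K : Type*} [Field K] (f : F →+* K) :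
    VC (W.map f) (W'.map f) (f u) (f r) (f s) (f t) := by
  obtain ⟨hu, h1, h2, h3, h4, h6⟩ := h
  have e2 : f 2 = 2 := map_ofNat f 2
  have e3 : f 3 = 3 := map_ofNat f 3
  refine ⟨fun h0 => hu (f.injective (by rw [h0, _root_.map_zero])), ?_, ?_, ?_, ?_, ?_⟩
  · have := congrArg f h1; simpa [e2, e3] using this
  · have := congrArg f h2; simpa [e2, e3] using this
  · have := congrArg f h3; simpa [e2, e3] using this
  · have := congrArg f h4; simpa [e2, e3] using this
  · have := congrArg f h6; simpa [e2, e3] using this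

end VC

lemma some_eq_some {F : Type*} [Field F] {W : Affine F} {x x' y y' : F} (hx : x = x')
    (hy : y = y') (h : W.Nonsingular x y) (h' : W.Nonsingular x' y') :
    Point.some x y h = Point.some x' y' h' := by
  subst hx hy; rfl

variable {K : Type*} [Field K] [DecidableEq K] [Algebra ℚ K]

/-- the change of variables on points over `K` -/
noncomputable def ptK {E E' : WeierstrassCurve ℚ} {u r s t : ℚ} (h : VC E E' u r s t)
    (hΔ : (E.map (algebraMap ℚ K)).Δ ≠ 0) : (E'⁄K).Point →+ (E⁄K).Point :=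
  (h.map (algebraMap ℚ K)).pt hΔ

lemma ptK_injective {E E' : WeierstrassCurve ℚ} {u r s t : ℚ} (h : VC E E' u r s t)
    (hΔ : (E.map (algebraMap ℚ K)).Δ ≠ 0) : Function.Injective (ptK h hΔ) :=
  (h.map (algebraMap ℚ K)).pt_injective hΔ

lemma ptK_surjective {E E' : WeierstrassCurve ℚ} {u r s t : ℚ} (h : VC E E' u r s t)
    (hΔ : (E.map (algebraMap ℚ K)).Δ ≠ 0) (hΔ' : (E'.map (algebraMap ℚ K)).Δ ≠ 0) :
    Function.Surjective (ptK h hΔ) :=
  (h.map (algebraMap ℚ K)).pt_surjective hΔ hΔ'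

lemma smul_ptK {E E' : WeierstrassCurve ℚ} {u r s t : ℚ} (h : VC E E' u r s t)
    (hΔ : (E.map (algebraMap ℚ K)).Δ ≠ 0) (σ : K ≃ₐ[ℚ] K) (P : (E'⁄K).Point) :
    σ • (ptK h hΔ P) = ptK h hΔ (σ • P) := by
  rcases P with _ | ⟨x, y, e⟩
  · rfl
  · have e1 : ptK h hΔ (.some x y e) = .some _ _ ((Affine.equation_iff_nonsingular_of_Δ_ne_zero
      hΔ).mp (((h.map (algebraMap ℚ K)).equation x y).mpr e.1)) := rfl
    rw [algEquiv_smul_def, algEquiv_smul_def, map_some, e1, map_some]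
    refine Eq.trans ?_ (VC.pt_some (h.map (algebraMap ℚ K)) hΔ _).symm
    exact some_eq_some (by simp) (by simp) _ _

lemma Δ_map_ne_zero (K : Type*) [Field K] [Algebra ℚ K] (E : WeierstrassCurve ℚ) [E.IsElliptic] :
    (E.map (algebraMap ℚ K)).Δ ≠ 0 := by
  rw [WeierstrassCurve.map_Δ]
  exact (map_ne_zero _).mpr E.isUnit_Δ.ne_zero

lemma Δ_ne_zero_of_good {W : WeierstrassCurve ℤ} {ℓ : ℕ} (hgood : W.IsGoodPrimeFor ℓ) :
    W.Δ ≠ 0 := fun h => hgood (by rw [h]; exact dvd_zero _)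

/-- The Frobenius relation on the torsion points of `E`, in terms of `a_ℓ` of an integral model. -/
theorem frobenius_rel_of_model [CharZero K] [IsAlgClosed K] {E : WeierstrassCurve ℚ} [E.IsElliptic]
    {W : WeierstrassCurve ℤ} (hW : W.IsIntegralModelOf E) {ℓ : ℕ} [Fact ℓ.Prime]
    (hgood : W.IsGoodPrimeFor ℓ) {A : ValuationSubring K}
    (hA : A.LiesOverPrime ℓ) {σ : K ≃ₐ[ℚ] K} (hσ : A.IsFrobeniusAt σ ℓ) {n : ℕ} (hn : Odd n)
    (hnℓ : ¬ ℓ ∣ n) {P : (E⁄K).Point} (hP : n • P = 0) :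
    σ • σ • P - W.apOfModel ℓ • σ • P + (ℓ : ℤ) • P = 0 := by
  obtain ⟨C, hC⟩ := hW
  have h : VC E (W.map (Int.castRingHom ℚ)) C.u C.r C.s C.t := hC ▸ VC.of_variableChange C E
  have hΔ := Δ_map_ne_zero K E
  have hΔ' : ((W.map (Int.castRingHom ℚ)).map (algebraMap ℚ K)).Δ ≠ 0 := by
    rw [WeierstrassCurve.map_Δ, WeierstrassCurve.map_Δ]
    refine (map_ne_zero _).mpr ?_
    rw [eq_intCast]
    exact_mod_cast Δ_ne_zero_of_good hgood
  obtain ⟨P', rfl⟩ := ptK_surjective h hΔ hΔ' P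
  have hP' : n • P' = 0 := by
    apply ptK_injective h hΔ
    rw [map_nsmul, hP, _root_.map_zero]
  have key := EllFrob.frobenius_rel W hgood hA hσ hn hnℓ hP'
  have h1 := congrArg (ptK h hΔ) key
  rw [_root_.map_zero, map_add, map_sub, map_zsmul, map_zsmul] at h1
  rw [smul_ptK h hΔ, smul_ptK h hΔ]
  exact h1

/-- the number of `n`-torsion points -/
theorem card_torsionBy [CharZero K] [IsAlgClosed K] (E : WeierstrassCurve ℚ) [E.IsElliptic]
    {n : ℕ} (hn : Odd n) : Nat.card (Submodule.torsionBy ℤ (E⁄K).Point n) = n ^ 2 := by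
  rw [← ncard_torsion (W := E⁄K) (Δ_map_ne_zero K E) hn, ← Nat.card_coe_set_eq]
  refine Nat.card_congr (Equiv.subtypeEquivRight fun P => ?_)
  rw [Submodule.mem_torsionBy_iff, natCast_zsmul]
  rfl

end Fermat.Agent.EC
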