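import Fermat.Agent.EC.InertiaSub
import Fermat.Prelude.Def_FLTPrelim_FreyPackage

/-!
# The Frey curve: local models
-/

set_option autoImplicit false
set_option linter.unusedSectionVars false

namespace Fermat.Agent.EC

open WeierstrassCurve WeierstrassCurve.Affine WeierstrassCurve.Affine.Point

section IntVal

variable {K : Type*} [Field K] {Γ₀ : Type*} [LinearOrderedCommGroupWithZero Γ₀]
  (v : Valuation K Γ₀)

lemma val_int_le (n : ℤ) : v (n : K) ≤ 1 := by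
  have : (n : K) ∈ v.integer := intCast_mem _ n
  exact this

lemma val_nat_le (n : ℕ) : v (n : K) ≤ 1 := by
  exact_mod_cast val_int_le v n

lemma val_int_lt {q : ℕ} (hq : v (q : K) < 1) {n : ℤ} (hn : (q : ℤ) ∣ n) : v (n : K) < 1 := by
  obtain ⟨m, rfl⟩ := hn
  push_cast
  rw [map_mul]
  exact mul_lt_one_of_lt_of_le hq (val_int_le v m)

lemma val_int_eq_one {q : ℕ} (hq : v (q : K) < 1) {n : ℤ} (hn : IsCoprime (q : ℤ) n) :
    v (n : K) = 1 := by
  refine le_antisymm (val_int_le v n) ?_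
  by_contra hlt
  push Not at hlt
  obtain ⟨a, b, hab⟩ := hn
  have h1 : v (1 : K) < 1 := by
    have e : (1 : K) = (a : K) * (q : K) + (b : K) * (n : K) := by
      exact_mod_cast congrArg (Int.cast (R := K)) hab.symm
    rw [e]
    refine v.map_add_lt ?_ ?_
    · rw [map_mul]
      exact lt_of_le_of_lt (mul_le_of_le_one_left' (val_int_le v a)) hq
    · rw [map_mul]
      exact lt_of_le_of_lt (mul_le_of_le_one_left' (val_int_le v b)) hlt
  rw [map_one] at h1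
  exact lt_irrefl _ h1

lemma val_int_eq_one_of_not_dvd {q : ℕ} (hqp : q.Prime) (hq : v (q : K) < 1) {n : ℤ}
    (hn : ¬ (q : ℤ) ∣ n) : v (n : K) = 1 :=
  val_int_eq_one v hq (((Nat.prime_iff_prime_int.mp hqp).irreducible.coprime_iff_not_dvd).mpr hn)

lemma val_int_lt_iff {q : ℕ} (hqp : q.Prime) (hq : v (q : K) < 1) {n : ℤ} :
    v (n : K) < 1 ↔ (q : ℤ) ∣ n := by
  constructor
  · intro h
    by_contra hn
    rw [val_int_eq_one_of_not_dvd v hqp hq hn] at h
    exact lt_irrefl _ h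
  · exact val_int_lt v hq

end IntVal

/-- Existence of tangent directions at the node. -/
lemma exists_MultT {K : Type*} [Field K] [IsAlgClosed K] {Γ₀ : Type*}
    [LinearOrderedCommGroupWithZero Γ₀] {v : Valuation K Γ₀} {W : WeierstrassCurve K} {r t : K}
    (M : IntT v W r t) (hm : v (tA4 W r t) < 1) (hm0 : tA4 W r t ≠ 0)
    (hu : v (W.a₁ ^ 2 + 4 * tA2 W r) = 1) : ∃ tp tm, MultT v W r t tp tm := by
  have hdeg : (Polynomial.X ^ 2 + Polynomial.C W.a₁ * Polynomial.X -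
      Polynomial.C (tA2 W r)).degree ≠ 0 := by
    have : (Polynomial.X ^ 2 + Polynomial.C W.a₁ * Polynomial.X -
      Polynomial.C (tA2 W r)).degree = 2 := by compute_degree!
    rw [this]; decide
  obtain ⟨tp, htp⟩ := IsAlgClosed.exists_root _ hdeg
  simp only [Polynomial.IsRoot.def, Polynomial.eval_sub, Polynomial.eval_add,
    Polynomial.eval_pow, Polynomial.eval_mul, Polynomial.eval_X, Polynomial.eval_C] at htp
  refine ⟨tp, -W.a₁ - tp, M, hm, hm0, by ring, by linear_combination (-1) * htp, ?_⟩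
  have e : (tp - (-W.a₁ - tp)) ^ 2 = W.a₁ ^ 2 + 4 * tA2 W r := by
    linear_combination 4 * htp
  have h2 := congrArg v e
  rw [hu, map_pow] at h2
  exact (pow_eq_one_iff.mp h2).resolve_right two_ne_zero

end Fermat.Agent.EC

namespace Fermat.Agent.EC

open WeierstrassCurve WeierstrassCurve.Affine WeierstrassCurve.Affine.Point

variable (P : FreyPackage)

lemma frey_a_pow_mod : (4 : ℤ) ∣ P.a ^ P.p + 1 := by
  have h4 : ((P.a ^ P.p + 1 : ℤ) : ZMod 4) = 0 := by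
    push_cast
    rw [P.ha4]
    obtain ⟨k, hk⟩ := P.hp_odd
    rw [hk, pow_succ, pow_mul]
    have : (3 : ZMod 4) ^ 2 = 1 := by decide
    rw [this, one_pow]
    decide
  exact (ZMod.intCast_zmod_eq_zero_iff_dvd _ 4).mp h4

lemma frey_two_dvd_b : (2 : ℤ) ∣ P.b := (ZMod.intCast_zmod_eq_zero_iff_dvd P.b 2).1 P.hb2

lemma frey_b_pow : (32 : ℤ) ∣ P.b ^ P.p := by
  have h1 : (2 : ℤ) ^ P.p ∣ P.b ^ P.p := pow_dvd_pow_of_dvd (frey_two_dvd_b P) _
  have h2 : (2 : ℤ) ^ 5 ∣ 2 ^ P.p := pow_dvd_pow 2 P.hp5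
  exact h2.trans h1

lemma frey_a₂ : P.freyCurve.a₂ = ((P.freyCurveInt.a₂ : ℤ) : ℚ) := by
  have h : (4 : ℤ) ∣ P.b ^ P.p - 1 - P.a ^ P.p := by
    have h1 : (4 : ℤ) ∣ P.b ^ P.p := (by norm_num : (4 : ℤ) ∣ 32).trans (frey_b_pow P)
    have h2 := frey_a_pow_mod P
    have e : P.b ^ P.p - 1 - P.a ^ P.p = P.b ^ P.p - (P.a ^ P.p + 1) := by ring
    rw [e]
    exact dvd_sub h1 h2
  change ((P.b : ℚ) ^ P.p - 1 - P.a ^ P.p) / 4 = (((P.b ^ P.p - 1 - P.a ^ P.p) / 4 : ℤ) : ℚ)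
  rw [Int.cast_div h (by norm_num)]
  push_cast
  rfl

lemma frey_a₄ : P.freyCurve.a₄ = ((P.freyCurveInt.a₄ : ℤ) : ℚ) := by
  have h : (16 : ℤ) ∣ -(P.a ^ P.p) * (P.b ^ P.p) :=
    ((by norm_num : (16 : ℤ) ∣ 32).trans (frey_b_pow P)).mul_left _
  change -((P.a : ℚ) ^ P.p) * (P.b ^ P.p) / 16 = ((-(P.a ^ P.p) * (P.b ^ P.p) / 16 : ℤ) : ℚ)
  rw [Int.cast_div h (by norm_num)]
  push_cast
  rfl

lemma freyCurve_eq_map : P.freyCurve = P.freyCurveInt.map (Int.castRingHom ℚ) := by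
  ext
  · simp [FreyPackage.freyCurve, FreyPackage.freyCurveInt]
  · rw [frey_a₂]; rfl
  · simp [FreyPackage.freyCurve, FreyPackage.freyCurveInt]
  · rw [frey_a₄]; rfl
  · simp [FreyPackage.freyCurve, FreyPackage.freyCurveInt]

lemma frey_FLT : (P.a : ℚ) ^ P.p + (P.b : ℚ) ^ P.p = (P.c : ℚ) ^ P.p := by
  exact_mod_cast congrArg (Int.cast (R := ℚ)) P.hFLT

lemma frey_Δ : P.freyCurve.Δ = ((P.a : ℚ) ^ P.p * (P.b : ℚ) ^ P.p * (P.c : ℚ) ^ P.p) ^ 2 / 2 ^ 8 := by
  rw [← frey_FLT]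
  simp only [WeierstrassCurve.Δ, WeierstrassCurve.b₂, WeierstrassCurve.b₄, WeierstrassCurve.b₆,
      WeierstrassCurve.b₈, FreyPackage.freyCurve]
  ring

variable {K : Type*} [Field K] [Algebra ℚ K] {Γ₀ : Type*} [LinearOrderedCommGroupWithZero Γ₀]
  (v : Valuation K Γ₀)

lemma frey_isInt : IsInt v (P.freyCurve⁄K) where
  a₁ := by
    rw [baseChange_a₁, show P.freyCurve.a₁ = 1 from rfl, map_one, map_one]
  a₂ := by
    rw [baseChange_a₂, frey_a₂, map_intCast]
    exact val_int_le v _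
  a₃ := by
    rw [baseChange_a₃, show P.freyCurve.a₃ = 0 from rfl, _root_.map_zero, _root_.map_zero]
    exact zero_le
  a₄ := by
    rw [baseChange_a₄, frey_a₄, map_intCast]
    exact val_int_le v _
  a₆ := by
    rw [baseChange_a₆, show P.freyCurve.a₆ = 0 from rfl, _root_.map_zero, _root_.map_zero]
    exact zero_le

lemma frey_Δ_ne : P.freyCurve.Δ ≠ 0 := by
  rw [frey_Δ]
  have ha : (P.a : ℚ) ≠ 0 := by exact_mod_cast P.ha0
  have hb : (P.b : ℚ) ≠ 0 := by exact_mod_cast P.hb0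
  have hc : (P.c : ℚ) ≠ 0 := by exact_mod_cast P.hc0
  positivity

lemma frey_Δ_ne' : (P.freyCurve⁄K).Δ ≠ 0 := by
  rw [show (P.freyCurve⁄K).Δ = algebraMap ℚ K P.freyCurve.Δ from WeierstrassCurve.map_Δ _ _]
  rw [Ne, map_eq_zero]
  exact frey_Δ_ne P

/-- the model with `T = (0, 0)` -/
lemma frey_T0 : IntT v (P.freyCurve⁄K) (algebraMap ℚ K 0) (algebraMap ℚ K 0) where
  eqn := by
    rw [_root_.map_zero, equation_zero]
    rw [show (toAffine (P.freyCurve⁄K)).a₆ = algebraMap ℚ K P.freyCurve.a₆ from rfl,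
      show P.freyCurve.a₆ = 0 from rfl, _root_.map_zero]
  two := by
    rw [_root_.map_zero, mul_zero, mul_zero, add_zero, zero_add, baseChange_a₃,
      show P.freyCurve.a₃ = 0 from rfl, _root_.map_zero]
  va1 := (frey_isInt P v).a₁
  vA2 := by
    rw [tA2, _root_.map_zero, mul_zero, add_zero]
    exact (frey_isInt P v).a₂
  vA4 := by
    rw [tA4, _root_.map_zero, mul_zero, mul_zero, zero_pow two_ne_zero, mul_zero, zero_add, sub_zero,
      zero_add]
    exact (frey_isInt P v).a₄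
  vr := by rw [_root_.map_zero, _root_.map_zero]; exact zero_le

lemma frey_T0_A4 : tA4 (P.freyCurve⁄K) (algebraMap ℚ K 0) (algebraMap ℚ K 0) =
    algebraMap ℚ K P.freyCurve.a₄ := by
  rw [tA4_baseChange]
  congr 1
  simp [tA4]

lemma frey_T0_A2 : tA2 (P.freyCurve⁄K) (algebraMap ℚ K 0) = algebraMap ℚ K P.freyCurve.a₂ := by
  rw [tA2_baseChange]
  congr 1
  simp [tA2]

lemma frey_a₄_ne : P.freyCurve.a₄ ≠ 0 := by
  have ha : (P.a : ℚ) ≠ 0 := by exact_mod_cast P.ha0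
  have hb : (P.b : ℚ) ≠ 0 := by exact_mod_cast P.hb0
  change -((P.a : ℚ) ^ P.p) * (P.b ^ P.p) / 16 ≠ 0
  exact div_ne_zero (mul_ne_zero (neg_ne_zero.mpr (pow_ne_zero P.p ha)) (pow_ne_zero P.p hb))
    (by norm_num)

lemma frey_T0_A4_ne : tA4 (P.freyCurve⁄K) (algebraMap ℚ K 0) (algebraMap ℚ K 0) ≠ 0 := by
  rw [frey_T0_A4, Ne, map_eq_zero]
  exact frey_a₄_ne P

lemma frey_T0_disc : (P.freyCurve⁄K).a₁ ^ 2 + 4 * tA2 (P.freyCurve⁄K) (algebraMap ℚ K 0) =
    ((P.b ^ P.p - P.a ^ P.p : ℤ) : K) := by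
  rw [frey_T0_A2, baseChange_a₁]
  have : P.freyCurve.a₁ ^ 2 + 4 * P.freyCurve.a₂ = ((P.b ^ P.p - P.a ^ P.p : ℤ) : ℚ) := by
    change (1 : ℚ) ^ 2 + 4 * (((P.b : ℚ) ^ P.p - 1 - P.a ^ P.p) / 4) = _
    push_cast
    ring
  have h := congrArg (algebraMap ℚ K) this
  rw [map_intCast] at h
  rw [← h, map_add, map_mul, map_pow, map_ofNat]

/-- `T = (0,0)`: multiplicative at primes dividing `a b` -/
lemma frey_MultT0 [IsAlgClosed K] {q : ℕ} (hq : q.Prime) (hv : v (q : K) < 1)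
    (hqab : (q : ℤ) ∣ P.a * P.b)
    (hm : v (tA4 (P.freyCurve⁄K) (algebraMap ℚ K 0) (algebraMap ℚ K 0)) < 1) :
    ∃ tp tm, MultT v (P.freyCurve⁄K) (algebraMap ℚ K 0) (algebraMap ℚ K 0) tp tm := by
  refine exists_MultT (frey_T0 P v) hm (frey_T0_A4_ne P) ?_
  rw [frey_T0_disc]
  apply val_int_eq_one_of_not_dvd v hq hv
  intro hd
  have hqi := Nat.prime_iff_prime_int.mp hq
  have hcop : IsCoprime P.a P.b := by
    have := P.hgcdab
    exact (gcd_isUnit_iff P.a P.b).mp (by rw [this]; exact isUnit_one)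
  have ha : (q : ℤ) ∣ P.a ∧ (q : ℤ) ∣ P.b := by
    rcases hqi.dvd_or_dvd hqab with h | h
    · refine ⟨h, ?_⟩
      have h1 : (q : ℤ) ∣ P.a ^ P.p := dvd_pow h P.hp0
      exact hqi.dvd_of_dvd_pow ((dvd_sub_left h1).mp hd)
    · refine ⟨?_, h⟩
      have h1 : (q : ℤ) ∣ P.b ^ P.p := dvd_pow h P.hp0
      exact hqi.dvd_of_dvd_pow ((dvd_sub_right h1).mp hd)
  exact hqi.not_isUnit (hcop.isUnit_of_dvd' ha.1 ha.2)

lemma frey_TC_A4 : tA4 P.freyCurve (P.a ^ P.p / 4) (- P.a ^ P.p / 8) =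
    (P.a : ℚ) ^ P.p * P.c ^ P.p / 16 := by
  rw [← frey_FLT]
  simp only [FreyPackage.freyCurve, tA4]
  ring

lemma frey_TC_disc : P.freyCurve.a₁ ^ 2 + 4 * tA2 P.freyCurve (P.a ^ P.p / 4) =
    ((P.b ^ P.p + 2 * P.a ^ P.p : ℤ) : ℚ) := by
  simp only [FreyPackage.freyCurve, tA2]
  push_cast
  ring

/-- the model with `T = (a ^ p / 4, - a ^ p / 8)` -/
lemma frey_TC (h2 : v (2 : K) = 1) :
    IntT v (P.freyCurve⁄K) (algebraMap ℚ K (P.a ^ P.p / 4)) (algebraMap ℚ K (- P.a ^ P.p / 8)) where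
  eqn := by
    rw [equation_iff]
    have h : (- P.a ^ P.p / 8 : ℚ) ^ 2 + P.freyCurve.a₁ * (P.a ^ P.p / 4) * (- P.a ^ P.p / 8)
      + P.freyCurve.a₃ * (- P.a ^ P.p / 8) = (P.a ^ P.p / 4) ^ 3 + P.freyCurve.a₂ *
        (P.a ^ P.p / 4) ^ 2 + P.freyCurve.a₄ * (P.a ^ P.p / 4) + P.freyCurve.a₆ := by
      simp only [FreyPackage.freyCurve]
      ring
    have := congrArg (algebraMap ℚ K) h
    simp only [map_add, map_mul, map_pow] at this
    exact this
  two := by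
    have h : 2 * (- P.a ^ P.p / 8 : ℚ) + P.freyCurve.a₁ * (P.a ^ P.p / 4) + P.freyCurve.a₃ = 0 := by
      simp only [FreyPackage.freyCurve]
      ring
    have := congrArg (algebraMap ℚ K) h
    rw [map_add, map_add, map_mul, map_mul, map_ofNat, _root_.map_zero] at this
    exact this
  va1 := (frey_isInt P v).a₁
  vA2 := by
    rw [tA2]
    refine v.map_add_le (frey_isInt P v).a₂ ?_
    rw [map_mul, map_div₀, map_div₀, map_pow, map_intCast, map_pow]
    have h4 : v (algebraMap ℚ K 4) = 1 := by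
      rw [map_ofNat, show (4 : K) = 2 * 2 by norm_num, map_mul, h2, one_mul]
    rw [h4, div_one]
    have h3 : v (3 : K) ≤ 1 := by exact_mod_cast val_nat_le v 3
    exact mul_le_one' h3 (pow_le_one' (val_int_le v _) _)
  vA4 := by
    rw [tA4_baseChange, frey_TC_A4, map_div₀, map_div₀, map_mul, map_mul, map_pow, map_pow,
      map_pow, map_pow, map_intCast (algebraMap ℚ K), map_intCast (algebraMap ℚ K)]
    have h16 : v (algebraMap ℚ K 16) = 1 := by
      rw [map_ofNat, show (16 : K) = 2 * 2 * 2 * 2 by norm_num, map_mul, map_mul, map_mul, h2,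
        one_mul, one_mul, one_mul]
    rw [h16, div_one]
    exact mul_le_one' (pow_le_one' (val_int_le v _) _) (pow_le_one' (val_int_le v _) _)
  vr := by
    rw [map_div₀, map_div₀, map_pow, map_intCast, map_pow]
    have h4 : v (algebraMap ℚ K 4) = 1 := by
      rw [map_ofNat, show (4 : K) = 2 * 2 by norm_num, map_mul, h2, one_mul]
    rw [h4, div_one]
    exact pow_le_one' (val_int_le v _) _

lemma frey_MultTC [IsAlgClosed K] {q : ℕ} (hq : q.Prime) (hv : v (q : K) < 1)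
    (hqc : (q : ℤ) ∣ P.c) (h2 : v (2 : K) = 1)
    (hm : v (tA4 (P.freyCurve⁄K) (algebraMap ℚ K (P.a ^ P.p / 4))
      (algebraMap ℚ K (- P.a ^ P.p / 8))) < 1) :
    ∃ tp tm, MultT v (P.freyCurve⁄K) (algebraMap ℚ K (P.a ^ P.p / 4))
      (algebraMap ℚ K (- P.a ^ P.p / 8)) tp tm := by
  refine exists_MultT (frey_TC P v h2) hm ?_ ?_
  · rw [tA4_baseChange, frey_TC_A4, Ne, map_eq_zero]
    have ha : (P.a : ℚ) ≠ 0 := by exact_mod_cast P.ha0
    have hc : (P.c : ℚ) ≠ 0 := by exact_mod_cast P.hc0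
    exact div_ne_zero (mul_ne_zero (pow_ne_zero P.p ha) (pow_ne_zero P.p hc)) (by norm_num)
  · have h := congrArg (algebraMap ℚ K) (frey_TC_disc P)
    rw [map_intCast, map_add, map_mul, map_pow, map_ofNat, ← tA2_baseChange] at h
    rw [baseChange_a₁, h]
    apply val_int_eq_one_of_not_dvd v hq hv
    intro hd
    have hqi := Nat.prime_iff_prime_int.mp hq
    have hcop : IsCoprime P.a P.c := by
      have := P.hgcdac
      exact (gcd_isUnit_iff P.a P.c).mp (by rw [this]; exact isUnit_one)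
    have h1 : (q : ℤ) ∣ P.a ^ P.p + P.b ^ P.p := by
      rw [P.hFLT]; exact dvd_pow hqc P.hp0
    have h3 : (q : ℤ) ∣ P.a ^ P.p := by
      have e : P.a ^ P.p = (P.b ^ P.p + 2 * P.a ^ P.p) - (P.a ^ P.p + P.b ^ P.p) := by ring
      rw [e]
      exact dvd_sub hd h1
    exact hqi.not_isUnit (hcop.isUnit_of_dvd' (hqi.dvd_of_dvd_pow h3) hqc)

/-- **Inertia at odd primes `q ≠ p` acts trivially on the `p`-torsion of the Frey curve.** -/
theorem frey_unramified [IsAlgClosed K] [DecidableEq K] {q : ℕ} (hq : q.Prime) (hq2 : q ≠ 2)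
    (hqp : q ≠ P.p) (hv : v (q : K) < 1) {τ : K ≃ₐ[ℚ] K} (hτ : IsInert v τ)
    {Q : (P.freyCurve⁄K).Point} (hQ : P.p • Q = 0) : τ • Q = Q := by
  have hqi := Nat.prime_iff_prime_int.mp hq
  have hvp : v (P.p : K) = 1 := by
    have : ¬ (q : ℤ) ∣ (P.p : ℤ) := by
      intro h
      rw [Int.natCast_dvd_natCast, Nat.prime_dvd_prime_iff_eq hq P.pp] at h
      exact hqp h
    exact_mod_cast val_int_eq_one_of_not_dvd v hq hv this
  have h2 : v (2 : K) = 1 := by
    have : ¬ (q : ℤ) ∣ ((2 : ℕ) : ℤ) := by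
      intro h
      rw [Int.natCast_dvd_natCast, Nat.prime_dvd_prime_iff_eq hq Nat.prime_two] at h
      exact hq2 h
    exact_mod_cast val_int_eq_one_of_not_dvd v hq hv this
  have h16 : v (algebraMap ℚ K 16) = 1 := by
    rw [map_ofNat, show (16 : K) = 2 * 2 * 2 * 2 by norm_num, map_mul, map_mul, map_mul, h2,
      one_mul, one_mul, one_mul]
  have hp2 : P.p ≠ 2 := by have := P.hp5; omega
  by_cases habc : (q : ℤ) ∣ P.a * P.b * P.c
  · rcases hqi.dvd_or_dvd habc with hab | hc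
    · have hA4 : v (tA4 (P.freyCurve⁄K) (algebraMap ℚ K 0) (algebraMap ℚ K 0)) =
          v (algebraMap ℚ K ((P.a * P.b : ℤ) : ℚ)) ^ P.p := by
        rw [frey_T0_A4]
        have e : P.freyCurve.a₄ = -(((P.a * P.b : ℤ) : ℚ)) ^ P.p / 16 := by
          simp only [FreyPackage.freyCurve]
          push_cast
          ring
        rw [e, map_div₀, map_div₀, h16, div_one, map_neg, Valuation.map_neg, map_pow, map_pow]
      have hlt : v (algebraMap ℚ K ((P.a * P.b : ℤ) : ℚ)) < 1 := by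
        rw [map_intCast]
        exact val_int_lt v hv hab
      have hm : v (tA4 (P.freyCurve⁄K) (algebraMap ℚ K 0) (algebraMap ℚ K 0)) < 1 := by
        rw [hA4]
        exact pow_lt_one₀ zero_le hlt P.hp0
      obtain ⟨tp, tm, M⟩ := frey_MultT0 P v hq hv hab hm
      exact hτ.fix_mult M (frey_isInt P v) (frey_Δ_ne' P) P.pp hp2 hvp hA4 hQ
    · have hva : v (algebraMap ℚ K P.a) = 1 := by
        rw [map_intCast]
        apply val_int_eq_one_of_not_dvd v hq hv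
        intro hd
        have hcop : IsCoprime P.a P.c := by
          have := P.hgcdac
          exact (gcd_isUnit_iff P.a P.c).mp (by rw [this]; exact isUnit_one)
        exact hqi.not_isUnit (hcop.isUnit_of_dvd' hd hc)
      have hA4 : v (tA4 (P.freyCurve⁄K) (algebraMap ℚ K (P.a ^ P.p / 4))
          (algebraMap ℚ K (- P.a ^ P.p / 8))) = v (algebraMap ℚ K P.c) ^ P.p := by
        rw [tA4_baseChange, frey_TC_A4, map_div₀, map_div₀, h16, div_one, map_mul, map_mul,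
          map_pow, map_pow, map_pow, map_pow, hva, one_pow, one_mul]
      have hlt : v (algebraMap ℚ K P.c) < 1 := by
        rw [map_intCast]
        exact val_int_lt v hv hc
      have hm : v (tA4 (P.freyCurve⁄K) (algebraMap ℚ K (P.a ^ P.p / 4))
          (algebraMap ℚ K (- P.a ^ P.p / 8))) < 1 := by
        rw [hA4]
        exact pow_lt_one₀ zero_le hlt P.hp0
      obtain ⟨tp, tm, M⟩ := frey_MultTC P v hq hv hc h2 hm
      exact hτ.fix_mult M (frey_isInt P v) (frey_Δ_ne' P) P.pp hp2 hvp hA4 hQ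
  · refine hτ.fix_good (frey_isInt P v) ?_ P.hp_odd hvp hQ
    have h1 : v ((P.a * P.b * P.c : ℤ) : K) = 1 := val_int_eq_one_of_not_dvd v hq hv habc
    rw [show (P.freyCurve⁄K).Δ = algebraMap ℚ K P.freyCurve.Δ from WeierstrassCurve.map_Δ _ _,
      frey_Δ]
    have e : ((P.a : ℚ) ^ P.p * (P.b : ℚ) ^ P.p * (P.c : ℚ) ^ P.p) ^ 2 / 2 ^ 8 =
      ((P.a * P.b * P.c : ℤ) : ℚ) ^ (P.p * 2) / 2 ^ 8 := by
      push_cast
      ring
    rw [e, map_div₀, map_div₀, map_pow, map_pow, map_pow, map_pow, map_intCast, h1, map_ofNat, h2]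
    simp

end Fermat.Agent.EC
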