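import Fermat.Agent.EC.EDS
import Mathlib.AlgebraicGeometry.EllipticCurve.Affine.Point
import Mathlib.AlgebraicGeometry.EllipticCurve.DivisionPolynomial.Degree

/-!
# Multiplication formula for the `x`-coordinate via division polynomials
-/

set_option autoImplicit false

namespace Fermat.Agent.EC

open WeierstrassCurve WeierstrassCurve.Affine Polynomial

variable {F : Type*} [Field F] (W : WeierstrassCurve F)

/-- The value of the `n`-th division polynomial at a point `(x, y)`. -/
noncomputable def psi (x y : F) (n : ℤ) : F :=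
  normEDS (2 * y + W.a₁ * x + W.a₃)
    (3 * x ^ 4 + W.b₂ * x ^ 3 + 3 * W.b₄ * x ^ 2 + 3 * W.b₆ * x + W.b₈)
    (2 * x ^ 6 + W.b₂ * x ^ 5 + 5 * W.b₄ * x ^ 4 + 10 * W.b₆ * x ^ 3 + 10 * W.b₈ * x ^ 2 +
      (W.b₂ * W.b₈ - W.b₄ * W.b₆) * x + (W.b₄ * W.b₈ - W.b₆ ^ 2)) n

lemma psi_zero (x y : F) : psi W x y 0 = 0 := by simp [psi]
lemma psi_one (x y : F) : psi W x y 1 = 1 := by simp [psi]
lemma psi_two (x y : F) : psi W x y 2 = 2 * y + W.a₁ * x + W.a₃ := by simp [psi]
lemma psi_three (x y : F) : psi W x y 3 =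
    3 * x ^ 4 + W.b₂ * x ^ 3 + 3 * W.b₄ * x ^ 2 + 3 * W.b₆ * x + W.b₈ := by simp [psi]
lemma psi_neg (x y : F) (n : ℤ) : psi W x y (-n) = - psi W x y n := by simp [psi]

variable {W}

lemma psi_two_sq {x y : F} (h : W.toAffine.Equation x y) :
    psi W x y 2 ^ 2 = 4 * x ^ 3 + W.b₂ * x ^ 2 + 2 * W.b₄ * x + W.b₆ := by
  rw [psi_two]
  rw [Affine.equation_iff] at h
  simp only [WeierstrassCurve.b₂, WeierstrassCurve.b₄, WeierstrassCurve.b₆]
  linear_combination 4 * h

lemma psi_aux {x y : F} (h : W.toAffine.Equation x y) :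
    2 * x ^ 6 + W.b₂ * x ^ 5 + 5 * W.b₄ * x ^ 4 + 10 * W.b₆ * x ^ 3 + 10 * W.b₈ * x ^ 2 +
      (W.b₂ * W.b₈ - W.b₄ * W.b₆) * x + (W.b₄ * W.b₈ - W.b₆ ^ 2) =
    (3 * x ^ 4 + W.b₂ * x ^ 3 + 3 * W.b₄ * x ^ 2 + 3 * W.b₆ * x + W.b₈) *
      (6 * x ^ 2 + W.b₂ * x + W.b₄) - (2 * y + W.a₁ * x + W.a₃) ^ 4 := by
  have h2 := psi_two_sq h
  rw [psi_two] at h2
  have hb := W.b_relation
  rw [show (2 * y + W.a₁ * x + W.a₃) ^ 4 = ((2 * y + W.a₁ * x + W.a₃) ^ 2) ^ 2 by ring, h2]
  linear_combination (x ^ 2) * hb

lemma psi_somos {x y : F} (h : W.toAffine.Equation x y) (n : ℕ) :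
    psi W x y ((n : ℤ) + 2) * psi W x y ((n : ℤ) - 2) =
    psi W x y 2 ^ 2 * psi W x y ((n : ℤ) + 1) * psi W x y ((n : ℤ) - 1) -
      psi W x y 3 * psi W x y (n : ℤ) ^ 2 := by
  rw [psi_two, psi_three]
  exact normEDS_somos (psi_aux h) n

lemma psi_inv {x y : F} (h : W.toAffine.Equation x y) (n : ℕ) :
    psi W x y ((n : ℤ) + 2) * psi W x y ((n : ℤ) - 1) ^ 2 +
      psi W x y ((n : ℤ) - 2) * psi W x y ((n : ℤ) + 1) ^ 2 +
      psi W x y 2 ^ 2 * psi W x y (n : ℤ) ^ 3 =
    (6 * x ^ 2 + W.b₂ * x + W.b₄) * psi W x y ((n : ℤ) + 1) * psi W x y (n : ℤ) *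
      psi W x y ((n : ℤ) - 1) := by
  rw [psi_two]
  exact normEDS_inv (psi_aux h) n

/-- Nonsingularity: `ψ₂` and `ψ₃` do not vanish simultaneously. -/
lemma psi_three_ne_zero {x y : F} (h : W.toAffine.Nonsingular x y) (h2 : psi W x y 2 = 0) :
    psi W x y 3 ≠ 0 := by
  intro h3
  rw [Affine.nonsingular_iff] at h
  obtain ⟨he, hne⟩ := h
  rw [Affine.equation_iff] at he
  rw [psi_two] at h2
  rw [psi_three] at h3
  simp only [WeierstrassCurve.b₂, WeierstrassCurve.b₄, WeierstrassCurve.b₆,
    WeierstrassCurve.b₈] at h3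
  rcases hne with hne | hne
  · apply hne
    have : (W.a₁ * y - (3 * x ^ 2 + 2 * W.a₂ * x + W.a₄)) ^ 2 = 0 := by
      linear_combination ((3 * x + W.a₂) * (2 * y + W.a₁ * x + W.a₃) -
        W.a₁ * ((3 * x ^ 2 + 2 * W.a₂ * x + W.a₄) - W.a₁ * y)) * h2 - h3 -
        (12 * x + W.a₁ ^ 2 + 4 * W.a₂) * he
    have := pow_eq_zero_iff (two_ne_zero) |>.mp this
    linear_combination this
  · apply hne
    linear_combination h2


/-- The sum formula for `x(P + Q) + x(P - Q)`. -/
lemma addX_add_addX_neg [DecidableEq F] {x₁ y₁ x₂ y₂ : F} (h₁ : W.toAffine.Equation x₁ y₁)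
    (h₂ : W.toAffine.Equation x₂ y₂) (hx : x₁ ≠ x₂) :
    (W.toAffine.addX x₁ x₂ (W.toAffine.slope x₁ x₂ y₁ y₂) +
      W.toAffine.addX x₁ x₂ (W.toAffine.slope x₁ x₂ y₁ (W.toAffine.negY x₂ y₂))) *
      (x₁ - x₂) ^ 2 =
    2 * x₁ * x₂ * (x₁ + x₂) + W.b₂ * x₁ * x₂ + W.b₄ * (x₁ + x₂) + W.b₆ := by
  rw [Affine.equation_iff] at h₁ h₂
  have hx' : x₁ - x₂ ≠ 0 := sub_ne_zero.mpr hx
  rw [slope_of_X_ne hx, slope_of_X_ne hx]
  simp only [addX, negY, WeierstrassCurve.b₂, WeierstrassCurve.b₄, WeierstrassCurve.b₆]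
  field_simp
  linear_combination 2 * h₁ + 2 * h₂

variable [DecidableEq F]

/-- Statement of the multiplication formula at `n`. -/
def MulFormula {x y : F} (h : W.toAffine.Nonsingular x y) (n : ℕ) : Prop :=
  ((n • (Point.some x y h : W.toAffine.Point) = 0) ↔ psi W x y n = 0) ∧
    ∀ (x' y' : F) (h' : W.toAffine.Nonsingular x' y'),
      n • (Point.some x y h : W.toAffine.Point) = Point.some x' y' h' →
      x' * psi W x y n ^ 2 = x * psi W x y n ^ 2 - psi W x y (n + 1) * psi W x y (n - 1)

lemma mulFormula_zero {x y : F} (h : W.toAffine.Nonsingular x y) : MulFormula h 0 := by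
  refine ⟨by simp [psi_zero], fun x' y' h' he => ?_⟩
  rw [zero_smul] at he
  exact absurd he.symm (Point.some_ne_zero h')

lemma mulFormula_one {x y : F} (h : W.toAffine.Nonsingular x y) : MulFormula h 1 := by
  refine ⟨by simp [psi_one, Point.some_ne_zero], fun x' y' h' he => ?_⟩
  rw [one_smul] at he
  simp only [Point.some.injEq] at he
  obtain ⟨rfl, rfl⟩ := he
  simp [psi_zero]

lemma some_add_some_eq_zero_iff {x y : F} (h : W.toAffine.Nonsingular x y) :
    (Point.some x y h : W.toAffine.Point) + Point.some x y h = 0 ↔ psi W x y 2 = 0 := by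
  rw [psi_two, add_eq_zero_iff_eq_neg, Point.neg_some, Point.some.injEq]
  simp only [negY, true_and]
  constructor
  · intro h1; linear_combination h1
  · intro h1; linear_combination h1

lemma double_x {x y x' y' : F} (h : W.toAffine.Nonsingular x y) (h' : W.toAffine.Nonsingular x' y')
    (he : (Point.some x y h : W.toAffine.Point) + Point.some x y h = Point.some x' y' h') :
    x' * psi W x y 2 ^ 2 = x * psi W x y 2 ^ 2 - psi W x y 3 := by
  have hne : (Point.some x y h : W.toAffine.Point) + Point.some x y h ≠ 0 := by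
    rw [he]; exact Point.some_ne_zero h'
  rw [Ne, some_add_some_eq_zero_iff] at hne
  have hy : y ≠ W.toAffine.negY x y := by
    intro h1
    apply hne
    rw [psi_two]
    simp only [negY] at h1
    linear_combination h1
  rw [Point.add_self_of_Y_ne hy, Point.some.injEq] at he
  obtain ⟨hx, -⟩ := he
  rw [← hx, slope_of_Y_ne rfl hy]
  have h0 : y - W.toAffine.negY x y ≠ 0 := sub_ne_zero.mpr hy
  have h1 : y - W.toAffine.negY x y = psi W x y 2 := by
    rw [psi_two]; simp only [negY]; ring
  rw [psi_three]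
  rw [h1]
  have heq := h.1
  rw [Affine.equation_iff] at heq
  simp only [addX]
  rw [h1] at h0
  field_simp
  rw [psi_two]
  simp only [WeierstrassCurve.b₂, WeierstrassCurve.b₄, WeierstrassCurve.b₆, WeierstrassCurve.b₈]
  linear_combination (-1) * (12 * x + W.a₁ ^ 2 + 4 * W.a₂) * heq

lemma mulFormula_step {x y : F} (h : W.toAffine.Nonsingular x y) (n : ℕ)
    (ih : ∀ k ≤ n + 1, MulFormula h k) : MulFormula h (n + 2) := by
  -- write `m = n + 1`
  set P : W.toAffine.Point := Point.some x y h with hP
  have hPdef : P = Point.some x y h := hP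
  have hP0 : P ≠ 0 := Point.some_ne_zero h
  obtain ⟨hm0, hmx⟩ := ih (n + 1) le_rfl
  obtain ⟨hk0, hkx⟩ := ih n (by omega)
  have S := psi_somos h.1 (n + 1)
  have I := psi_inv h.1 (n + 1)
  have e3 : ((n + 1 : ℕ) : ℤ) + 2 = (n : ℤ) + 3 := by push_cast; ring
  have e1 : ((n + 1 : ℕ) : ℤ) - 2 = (n : ℤ) - 1 := by push_cast; ring
  have e2 : ((n + 1 : ℕ) : ℤ) + 1 = (n : ℤ) + 2 := by push_cast; ring
  have e4 : ((n + 1 : ℕ) : ℤ) - 1 = (n : ℤ) := by push_cast; ring
  have e5 : ((n + 1 : ℕ) : ℤ) = (n : ℤ) + 1 := by push_cast; ring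
  rw [e3, e1, e2, e4, e5] at S I
  have hadd2 : (n + 2) • P = (n + 1) • P + P := by rw [← succ_nsmul]
  have hadd1 : (n + 1) • P = n • P + P := by rw [← succ_nsmul]
  unfold MulFormula
  rw [← hP]
  have e6 : ((n + 2 : ℕ) : ℤ) + 1 = (n : ℤ) + 3 := by push_cast; ring
  have e7 : ((n + 2 : ℕ) : ℤ) - 1 = (n : ℤ) + 1 := by push_cast; ring
  have e8 : ((n + 2 : ℕ) : ℤ) = (n : ℤ) + 2 := by push_cast; ring
  rw [e6, e7, e8]
  rw [e5, ← hP] at hm0
  rw [← hP] at hk0
  simp only [e5, ← hP] at hmx
  rw [show (n : ℤ) + 1 + 1 = n + 2 by ring, show (n : ℤ) + 1 - 1 = n by ring] at hmx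
  simp only [← hP] at hkx
  -- the point `(n - 1) P`
  have ha0 : ((n : ℤ) - 1) • P = 0 ↔ psi W x y ((n : ℤ) - 1) = 0 := by
    rcases Nat.eq_zero_or_pos n with rfl | hn
    · simp only [Nat.cast_zero, zero_sub, neg_smul, one_smul, neg_eq_zero, psi_neg, psi_one,
        one_ne_zero, iff_false]
      exact hP0
    · have := (ih (n - 1) (by omega)).1
      rw [← hP, ← natCast_zsmul] at this
      rw [Nat.cast_sub hn] at this
      simpa using this
  set a := psi W x y ((n : ℤ) - 1) with ha
  set p := psi W x y (n : ℤ) with hp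
  set q := psi W x y ((n : ℤ) + 1) with hq
  set r := psi W x y ((n : ℤ) + 2) with hr
  set s := psi W x y ((n : ℤ) + 3) with hs
  set b := psi W x y 2 with hb
  set c := psi W x y 3 with hc
  set J := 6 * x ^ 2 + W.b₂ * x + W.b₄ with hJ
  by_cases hmz : (n + 1) • P = 0
  · -- case `(n+1) P = 0`
    have hq0 : q = 0 := hm0.1 hmz
    have hn0 : n • P = -P := by
      rw [hadd1] at hmz
      exact eq_neg_of_add_eq_zero_left hmz
    have hp0 : p ≠ 0 := fun h0 => by
      have := hk0.2 h0
      rw [hn0, neg_eq_zero] at this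
      exact hP0 this
    have hnpos : n ≠ 0 := by
      rintro rfl
      rw [zero_add, one_smul] at hmz
      exact hP0 hmz
    have h2P : (n + 2) • P = P := by rw [hadd2, hmz, zero_add]
    have hr0 : r ≠ 0 := by
      intro hr0
      have S' := psi_somos h.1 n
      have I' := psi_inv h.1 n
      rw [← hr, ← hq, ← ha, ← hp, hr0, hq0] at S' I'
      have hc0 : c = 0 := by
        have : c * p ^ 2 = 0 := by linear_combination S'
        rcases mul_eq_zero.mp this with h1 | h1
        · exact h1
        · exact absurd (pow_eq_zero_iff (two_ne_zero) |>.mp h1) hp0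
      have hb0 : b = 0 := by
        have : b ^ 2 * p ^ 3 = 0 := by linear_combination I'
        rcases mul_eq_zero.mp this with h1 | h1
        · exact (pow_eq_zero_iff (two_ne_zero)).mp h1
        · exact absurd (pow_eq_zero_iff (three_ne_zero) |>.mp h1) hp0
      exact psi_three_ne_zero h hb0 hc0
    refine ⟨?_, fun x' y' h' he => ?_⟩
    · rw [h2P]
      exact ⟨fun h0 => absurd h0 hP0, fun h0 => absurd h0 hr0⟩
    · rw [h2P, hPdef, Point.some.injEq] at he
      obtain ⟨rfl, -⟩ := he
      rw [hq0]; ring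
  · have hq0 : q ≠ 0 := fun h0 => hmz (hm0.2 h0)
    by_cases hkz : n • P = 0
    · -- case `n P = 0`
      have hp0 : p = 0 := hk0.1 hkz
      have hmP : (n + 1) • P = P := by rw [hadd1, hkz, zero_add]
      have h2P : (n + 2) • P = P + P := by rw [hadd2, hmP]
      rcases Nat.eq_zero_or_pos n with rfl | hn
      · refine ⟨?_, fun x' y' h' he => ?_⟩
        · rw [h2P, hPdef, some_add_some_eq_zero_iff, hr]
          norm_num
        · rw [h2P] at he
          have hd := double_x h h' he
          rw [hr, hs, hq]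
          norm_num
          rw [psi_one, mul_one]
          exact hd
      · have haz : ((n : ℤ) - 1) • P = -P := by
          rw [sub_smul, natCast_zsmul, hkz, one_smul, zero_sub]
        have ha' : a ≠ 0 := fun h0 => by
          have := ha0.2 h0
          rw [haz, neg_eq_zero] at this
          exact hP0 this
        rw [hp0] at S I
        have I2 : a * r ^ 2 = - b ^ 2 * q ^ 3 := by linear_combination I
        have S2 : s * a = - c * q ^ 2 := by linear_combination S
        refine ⟨?_, fun x' y' h' he => ?_⟩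
        · rw [h2P, hPdef, some_add_some_eq_zero_iff, ← hb]
          constructor
          · intro hb0
            rw [hb0] at I2
            have : a * r ^ 2 = 0 := by rw [I2]; ring
            rcases mul_eq_zero.mp this with h1 | h1
            · exact absurd h1 ha'
            · exact (pow_eq_zero_iff (two_ne_zero)).mp h1
          · intro hr0
            rw [hr0] at I2
            have : b ^ 2 * q ^ 3 = 0 := by linear_combination I2
            rcases mul_eq_zero.mp this with h1 | h1
            · exact (pow_eq_zero_iff (two_ne_zero)).mp h1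
            · exact absurd (pow_eq_zero_iff (three_ne_zero) |>.mp h1) hq0
        · rw [h2P] at he
          have hd := double_x h h' he
          rw [← hb, ← hc] at hd
          apply mul_left_cancel₀ ha'
          linear_combination (x' - x) * I2 + q * S2 - q ^ 3 * hd
    · -- generic case
      have hp0 : p ≠ 0 := fun h0 => hkz (hk0.2 h0)
      obtain ⟨xn, yn, hn, hne⟩ : ∃ xn yn, ∃ hn : W.toAffine.Nonsingular xn yn,
          (n + 1) • P = Point.some xn yn hn := by
        rcases hh : (n + 1) • P with _ | ⟨xn, yn, hn⟩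
        · exact absurd hh hmz
        · exact ⟨xn, yn, hn, rfl⟩
      have hxn := hmx xn yn hn hne
      obtain ⟨xk, yk, hk, hke⟩ : ∃ xn yn, ∃ hn : W.toAffine.Nonsingular xn yn,
          n • P = Point.some xn yn hn := by
        rcases hh : n • P with _ | ⟨xn, yn, hn⟩
        · exact absurd hh hkz
        · exact ⟨xn, yn, hn, rfl⟩
      have hxk := hkx xk yk hk hke
      by_cases hxx : xn = x
      · have hy : (n + 1) • P = -P := by
          have : (n + 1) • P = P ∨ (n + 1) • P = -P := by
            rw [hne, hPdef]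
            rw [Point.neg_some]
            rw [Point.some.injEq, Point.some.injEq]
            rcases Y_eq_of_X_eq hn.1 h.1 hxx with h1 | h1
            · left; exact ⟨hxx, h1⟩
            · right; exact ⟨hxx, h1⟩
          rcases this with h1 | h1
          · exfalso
            apply hkz
            rw [hadd1] at h1
            exact add_eq_right.mp h1
          · exact h1
        have h2P : (n + 2) • P = 0 := by rw [hadd2, hy, neg_add_cancel]
        have hr0 : r = 0 := by
          have : r * p = 0 := by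
            rw [hxx] at hxn
            linear_combination hxn
          rcases mul_eq_zero.mp this with h1 | h1
          · exact h1
          · exact absurd h1 hp0
        refine ⟨⟨fun _ => hr0, fun _ => h2P⟩, fun x' y' h' he => ?_⟩
        rw [h2P] at he
        exact absurd he.symm (Point.some_ne_zero h')
      · have hr0 : r ≠ 0 := by
          intro hr0
          apply hxx
          rw [hr0] at hxn
          have : (xn - x) * q ^ 2 = 0 := by linear_combination hxn
          rcases mul_eq_zero.mp this with h1 | h1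
          · linear_combination h1
          · exact absurd (pow_eq_zero_iff (two_ne_zero) |>.mp h1) hq0
        have hsum := addX_add_addX_neg hn.1 h.1 hxx
        have hA : (n + 2) • P = Point.some _ _ (nonsingular_add hn h fun hxy => hxx hxy.1) := by
          rw [hadd2, hne, hPdef, Point.add_of_X_ne hxx]
        have hB : n • P = Point.some _ _ (nonsingular_add hn ((nonsingular_neg ..).mpr h)
            fun hxy => hxx hxy.1) := by
          have : n • P = (n + 1) • P + (-P) := by rw [hadd1]; abel
          rw [this, hne, hPdef, Point.neg_some, Point.add_of_X_ne hxx]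
        refine ⟨⟨fun h0 => ?_, fun h0 => absurd h0 hr0⟩, fun x' y' h' he => ?_⟩
        · rw [hA] at h0
          exact absurd h0 (Point.some_ne_zero _)
        · rw [hA, Point.some.injEq] at he
          rw [hke, Point.some.injEq] at hB
          rw [he.1, ← hB.1] at hsum
          -- hsum : (x' + xk) * (xn - x)^2 = ...
          have hb2 := psi_two_sq h.1
          rw [← hb] at hb2
          have hp2 : p ^ 2 ≠ 0 := pow_ne_zero _ hp0
          apply mul_left_cancel₀ hp2
          have key : (x' + xk) * r ^ 2 * p ^ 2 =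
              q ^ 4 * b ^ 2 - r * p * q ^ 2 * J + 2 * x * r ^ 2 * p ^ 2 := by
            have e : r * p = (x - xn) * q ^ 2 := by linear_combination hxn
            have e' : (x' + xk) * r ^ 2 * p ^ 2 = (x' + xk) * (xn - x) ^ 2 * q ^ 4 := by
              linear_combination (x' + xk) * (r * p + (x - xn) * q ^ 2) * e
            rw [e', hsum, hb2]
            have e'' : r * p * q ^ 2 * J = (x - xn) * q ^ 4 * J := by
              linear_combination q ^ 2 * J * e
            have e3' : 2 * x * r ^ 2 * p ^ 2 = 2 * x * (x - xn) ^ 2 * q ^ 4 := by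
              linear_combination 2 * x * (r * p + (x - xn) * q ^ 2) * e
            rw [e'', e3', hJ]
            ring
          linear_combination key - r ^ 2 * hxk + q * I

/-- **Multiplication formula** for the `x`-coordinate in terms of division polynomials. -/
theorem mulFormula {x y : F} (h : W.toAffine.Nonsingular x y) (n : ℕ) : MulFormula h n := by
  induction n using Nat.strong_induction_on with
  | _ n ih =>
  match n, ih with
  | 0, _ => exact mulFormula_zero h
  | 1, _ => exact mulFormula_one h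
  | n + 2, ih => exact mulFormula_step h n fun k hk => ih k (by omega)

end Fermat.Agent.EC
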