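import Mathlib.NumberTheory.EllipticDivisibilitySequence
import Mathlib.Algebra.MvPolynomial.CommRing
import Mathlib.Tactic.LinearCombination
import Mathlib.Algebra.MvPolynomial.Nilpotent
import Mathlib.Tactic

/-!
# Somos-4 relation and the invariant for normalised EDS
-/

set_option autoImplicit false

namespace Fermat.Agent.EC

section EDS

variable {R : Type*} [CommRing R]

/-- `normEDS 2 3 2 n = n`. -/
lemma normEDS_two_three_two_nat (n : ℕ) : normEDS (2 : ℤ) 3 2 n = n := by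
  induction n using normEDSRec' with
  | zero => simp
  | one => simp
  | two => simp
  | three => simp
  | four => simp
  | even m ih =>
    have h1 := normEDS_even (2 : ℤ) 3 2 ((m : ℤ) + 3)
    have e1 := ih (m + 1) (by omega)
    have e2 := ih (m + 2) (by omega)
    have e3 := ih (m + 3) (by omega)
    have e4 := ih (m + 4) (by omega)
    have e5 := ih (m + 5) (by omega)
    push_cast at e1 e2 e3 e4 e5 ⊢
    rw [show (m : ℤ) + 3 - 1 = m + 2 by ring, show (m : ℤ) + 3 + 2 = m + 5 by ring,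
      show (m : ℤ) + 3 - 2 = m + 1 by ring, show (m : ℤ) + 3 + 1 = m + 4 by ring,
      e1, e2, e3, e4, e5] at h1
    have : normEDS (2 : ℤ) 3 2 (2 * ((m : ℤ) + 3)) * 2 = (2 * ((m : ℤ) + 3)) * 2 := by
      rw [h1]; ring
    exact mul_right_cancel₀ two_ne_zero this
  | odd m ih =>
    have h1 := normEDS_odd (2 : ℤ) 3 2 ((m : ℤ) + 2)
    have e1 := ih (m + 1) (by omega)
    have e2 := ih (m + 2) (by omega)
    have e3 := ih (m + 3) (by omega)
    have e4 := ih (m + 4) (by omega)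
    push_cast at e1 e2 e3 e4 ⊢
    rw [show (m : ℤ) + 2 - 1 = m + 1 by ring, show (m : ℤ) + 2 + 2 = m + 4 by ring,
      show (m : ℤ) + 2 + 1 = m + 3 by ring,
      e1, e2, e3, e4] at h1
    rw [h1]; ring

/-- The universal ring. -/
abbrev U3 : Type := MvPolynomial (Fin 3) ℤ

/-- The universal sequence, with parameters `b, c, J` where `d = c * J - b ^ 4`. -/
noncomputable def uW (n : ℤ) : U3 :=
  normEDS (MvPolynomial.X 0) (MvPolynomial.X 1)
    (MvPolynomial.X 1 * MvPolynomial.X 2 - MvPolynomial.X 0 ^ 4) n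

lemma uW_ne_zero {n : ℕ} (hn : n ≠ 0) : uW n ≠ 0 := by
  intro h
  have h2 : MvPolynomial.aeval (R := ℤ) (![2, 3, 6] : Fin 3 → ℤ) (uW n) = (n : ℤ) := by
    rw [uW]
    have := map_normEDS (f := (MvPolynomial.aeval (R := ℤ) (![2, 3, 6] : Fin 3 → ℤ)).toRingHom)
      (MvPolynomial.X 0) (MvPolynomial.X 1)
      (MvPolynomial.X 1 * MvPolynomial.X 2 - MvPolynomial.X 0 ^ 4) (n : ℤ)
    simp only [AlgHom.toRingHom_eq_coe, RingHom.coe_coe, MvPolynomial.aeval_X, map_sub, map_mul,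
      map_pow] at this
    rw [this]
    have := normEDS_two_three_two_nat n
    simpa using this
  rw [h, map_zero] at h2
  exact hn (by exact_mod_cast h2.symm)


section universal

local notation "b" => (MvPolynomial.X 0 : U3)
local notation "c" => (MvPolynomial.X 1 : U3)
local notation "J" => (MvPolynomial.X 2 : U3)
local notation "d" => (c * J - b ^ 4 : U3)

lemma uW_even (m : ℤ) : uW (2 * m) * b =
    uW (m - 1) ^ 2 * uW m * uW (m + 2) - uW (m - 2) * uW m * uW (m + 1) ^ 2 :=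
  normEDS_even _ _ _ m

lemma uW_odd (m : ℤ) : uW (2 * m + 1) =
    uW (m + 2) * uW m ^ 3 - uW (m - 1) * uW (m + 1) ^ 3 :=
  normEDS_odd _ _ _ m

lemma uW_ne_zero' {n : ℤ} (hn : 0 < n) : uW n ≠ 0 := by
  lift n to ℕ using hn.le
  exact uW_ne_zero (by omega)

/-- the Somos 4 relation over the universal ring. -/
lemma uW_somos_nat (n : ℕ) : uW ((n : ℤ) + 2) * uW ((n : ℤ) - 2) =
    b ^ 2 * uW ((n : ℤ) + 1) * uW ((n : ℤ) - 1) - c * uW (n : ℤ) ^ 2 := by
  induction n using Nat.strong_induction_on with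
  | _ n ih =>
  rcases Nat.lt_or_ge n 4 with hn | hn
  · interval_cases n
    · simp [uW]
      ring
    · simp only [uW, Nat.cast_one]
      norm_num
    · simp only [uW, Nat.cast_ofNat]
      norm_num
      ring
    · simp only [uW, Nat.cast_ofNat]
      norm_num
      have := normEDS_odd b c d 2
      norm_num at this
      rw [this]; ring
  · rcases Nat.even_or_odd' n with ⟨m, rfl | rfl⟩
    · have i1 := ih (m - 1) (by omega)
      have i2 := ih m (by omega)
      have i3 := ih (m + 1) (by omega)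
      have hA := uW_even ((m : ℤ) + 1)
      have hB := uW_even ((m : ℤ) - 1)
      have hC := uW_odd (m : ℤ)
      have hD := uW_odd ((m : ℤ) - 1)
      have hE := uW_even (m : ℤ)
      have hm : 2 ≤ m := by omega
      push_cast [Nat.cast_sub (show 1 ≤ m by omega)] at i1 i2 i3 ⊢
      rw [show (m : ℤ) - 1 + 2 = m + 1 by ring, show (m : ℤ) - 1 - 2 = m - 3 by ring,
        show (m : ℤ) - 1 + 1 = m by ring, show (m : ℤ) - 1 - 1 = m - 2 by ring] at i1
      rw [show (m : ℤ) + 1 + 2 = m + 3 by ring, show (m : ℤ) + 1 - 2 = m - 1 by ring,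
        show (m : ℤ) + 1 + 1 = m + 2 by ring, show (m : ℤ) + 1 - 1 = m by ring] at i3
      rw [show 2 * ((m : ℤ) + 1) = 2 * m + 2 by ring, show (m : ℤ) + 1 - 1 = m by ring,
        show (m : ℤ) + 1 + 2 = m + 3 by ring, show (m : ℤ) + 1 - 2 = m - 1 by ring,
        show (m : ℤ) + 1 + 1 = m + 2 by ring] at hA
      rw [show 2 * ((m : ℤ) - 1) = 2 * m - 2 by ring, show (m : ℤ) - 1 - 1 = m - 2 by ring,
        show (m : ℤ) - 1 + 2 = m + 1 by ring, show (m : ℤ) - 1 - 2 = m - 3 by ring,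
        show (m : ℤ) - 1 + 1 = m by ring] at hB
      rw [show 2 * ((m : ℤ) - 1) + 1 = 2 * m - 1 by ring, show (m : ℤ) - 1 - 1 = m - 2 by ring,
        show (m : ℤ) - 1 + 2 = m + 1 by ring, show (m : ℤ) - 1 + 1 = m by ring] at hD
      have hb : (b : U3) ^ 2 ≠ 0 := pow_ne_zero _ (MvPolynomial.X_ne_zero _)
      apply mul_left_cancel₀ hb
      set p := uW ((m : ℤ) - 1)
      set q := uW (m : ℤ)
      set r := uW ((m : ℤ) + 1)
      set s := uW ((m : ℤ) + 2)
      set o := uW ((m : ℤ) - 2)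
      set t := uW ((m : ℤ) + 3)
      set n' := uW ((m : ℤ) - 3)
      set w2 := uW (2 * (m : ℤ) + 2)
      set w1 := uW (2 * (m : ℤ) + 1)
      set w0 := uW (2 * (m : ℤ))
      set v1 := uW (2 * (m : ℤ) - 1)
      set v2 := uW (2 * (m : ℤ) - 2)
      have e1 : b ^ 2 * (w2 * v2) = (w2 * b) * (v2 * b) := by ring
      have e2 : b ^ 2 * (b ^ 2 * w1 * v1 - c * w0 ^ 2) =
        b ^ 4 * w1 * v1 - c * (w0 * b) ^ 2 := by ring
      rw [e1, e2, hA, hB, hC, hD, hE]
      linear_combination (q ^ 2 * (r ^ 2 * o ^ 2 - r * n' * q ^ 2)) * i3 -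
        ((b ^ 2 * s * q - c * r ^ 2) * q ^ 2 - p ^ 2 * s ^ 2) * q ^ 2 * i1 +
        (b ^ 2 * q ^ 3 * r ^ 2 * o + b ^ 2 * p ^ 2 * q ^ 3 * s -
          p ^ 2 * r ^ 2 * (s * o + c * q ^ 2 + b ^ 2 * p * r)) * i2
    · have i2 := ih m (by omega)
      have i3 := ih (m + 1) (by omega)
      have hA := uW_even ((m : ℤ) + 1)
      have hC := uW_odd (m : ℤ)
      have hD := uW_odd ((m : ℤ) - 1)
      have hF := uW_odd ((m : ℤ) + 1)
      have hE := uW_even (m : ℤ)
      have hm : 2 ≤ m := by omega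
      push_cast at i2 i3 ⊢
      rw [show (m : ℤ) + 1 + 2 = m + 3 by ring, show (m : ℤ) + 1 - 2 = m - 1 by ring,
        show (m : ℤ) + 1 + 1 = m + 2 by ring, show (m : ℤ) + 1 - 1 = m by ring] at i3
      rw [show 2 * ((m : ℤ) + 1) = 2 * m + 2 by ring, show (m : ℤ) + 1 - 1 = m by ring,
        show (m : ℤ) + 1 + 2 = m + 3 by ring, show (m : ℤ) + 1 - 2 = m - 1 by ring,
        show (m : ℤ) + 1 + 1 = m + 2 by ring] at hA
      rw [show 2 * ((m : ℤ) - 1) + 1 = 2 * m - 1 by ring, show (m : ℤ) - 1 - 1 = m - 2 by ring,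
        show (m : ℤ) - 1 + 2 = m + 1 by ring, show (m : ℤ) - 1 + 1 = m by ring] at hD
      rw [show 2 * ((m : ℤ) + 1) + 1 = 2 * m + 3 by ring, show (m : ℤ) + 1 - 1 = m by ring,
        show (m : ℤ) + 1 + 2 = m + 3 by ring, show (m : ℤ) + 1 + 1 = m + 2 by ring] at hF
      rw [show 2 * (m : ℤ) + 1 + 2 = 2 * m + 3 by ring, show 2 * (m : ℤ) + 1 - 2 = 2 * m - 1 by ring,
        show 2 * (m : ℤ) + 1 + 1 = 2 * m + 2 by ring, show 2 * (m : ℤ) + 1 - 1 = 2 * m by ring]
      have hp : uW ((m : ℤ) - 1) ≠ 0 := uW_ne_zero' (by omega)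
      apply mul_left_cancel₀ hp
      set p := uW ((m : ℤ) - 1)
      set q := uW (m : ℤ)
      set r := uW ((m : ℤ) + 1)
      set s := uW ((m : ℤ) + 2)
      set o := uW ((m : ℤ) - 2)
      set t := uW ((m : ℤ) + 3)
      set w3 := uW (2 * (m : ℤ) + 3)
      set w2 := uW (2 * (m : ℤ) + 2)
      set w1 := uW (2 * (m : ℤ) + 1)
      set w0 := uW (2 * (m : ℤ))
      set v1 := uW (2 * (m : ℤ) - 1)
      have e2 : p * (b ^ 2 * w2 * w0 - c * w1 ^ 2) =
        p * ((w2 * b) * (w0 * b) - c * w1 ^ 2) := by ring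
      rw [e2, hA, hC, hD, hE, hF]
      linear_combination (r ^ 3 * (r * p ^ 3 - o * q ^ 3) - r * q ^ 3 * (s * p ^ 2 - o * r ^ 2)) * i3 +
        (s * q ^ 3 - p * r ^ 3) * p * q * s * i2

/-- the invariant, over the universal ring. -/
lemma uW_inv_nat (n : ℕ) :
    uW ((n : ℤ) + 2) * uW ((n : ℤ) - 1) ^ 2 + uW ((n : ℤ) - 2) * uW ((n : ℤ) + 1) ^ 2 +
      b ^ 2 * uW (n : ℤ) ^ 3 = J * uW ((n : ℤ) + 1) * uW (n : ℤ) * uW ((n : ℤ) - 1) := by
  rcases Nat.lt_or_ge n 2 with hn | hn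
  · interval_cases n
    · simp [uW]
    · simp only [uW, Nat.cast_one]
      norm_num
  induction n, hn using Nat.le_induction with
  | base =>
    simp only [uW, Nat.cast_ofNat]
    norm_num
    ring
  | succ n hn ih =>
    have i1 := uW_somos_nat n
    have i2 := uW_somos_nat (n + 1)
    push_cast at i2 ⊢
    rw [show (n : ℤ) + 1 + 2 = n + 3 by ring, show (n : ℤ) + 1 - 2 = n - 1 by ring,
        show (n : ℤ) + 1 + 1 = n + 2 by ring, show (n : ℤ) + 1 - 1 = n by ring] at i2 ⊢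
    have hp : uW ((n : ℤ) - 1) ≠ 0 := uW_ne_zero' (by omega)
    apply mul_left_cancel₀ hp
    set p := uW ((n : ℤ) - 1)
    set q := uW (n : ℤ)
    set r := uW ((n : ℤ) + 1)
    set s := uW ((n : ℤ) + 2)
    set o := uW ((n : ℤ) - 2)
    set t := uW ((n : ℤ) + 3)
    linear_combination s * ih + q ^ 2 * i2 - r ^ 2 * i1

end universal

/-- **Somos 4 relation** for a normalised EDS. -/
theorem normEDS_somos {b c d J : R} (hd : d = c * J - b ^ 4) (n : ℕ) :
    normEDS b c d ((n : ℤ) + 2) * normEDS b c d ((n : ℤ) - 2) =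
    b ^ 2 * normEDS b c d ((n : ℤ) + 1) * normEDS b c d ((n : ℤ) - 1) -
      c * normEDS b c d (n : ℤ) ^ 2 := by
  subst hd
  have := congrArg (MvPolynomial.aeval (R := ℤ) (![b, c, J] : Fin 3 → R)) (uW_somos_nat n)
  have h := map_normEDS (f := (MvPolynomial.aeval (R := ℤ) (![b, c, J] : Fin 3 → R)).toRingHom)
      (MvPolynomial.X 0) (MvPolynomial.X 1)
      (MvPolynomial.X 1 * MvPolynomial.X 2 - MvPolynomial.X 0 ^ 4)
  simp only [AlgHom.toRingHom_eq_coe, RingHom.coe_coe, MvPolynomial.aeval_X, map_mul, map_sub,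
    map_pow] at h
  simp only [uW, map_mul, map_sub, map_pow, h, MvPolynomial.aeval_X] at this
  exact this

/-- **The invariant** for a normalised EDS. -/
theorem normEDS_inv {b c d J : R} (hd : d = c * J - b ^ 4) (n : ℕ) :
    normEDS b c d ((n : ℤ) + 2) * normEDS b c d ((n : ℤ) - 1) ^ 2 +
      normEDS b c d ((n : ℤ) - 2) * normEDS b c d ((n : ℤ) + 1) ^ 2 +
      b ^ 2 * normEDS b c d (n : ℤ) ^ 3 =
    J * normEDS b c d ((n : ℤ) + 1) * normEDS b c d (n : ℤ) *
      normEDS b c d ((n : ℤ) - 1) := by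
  subst hd
  have := congrArg (MvPolynomial.aeval (R := ℤ) (![b, c, J] : Fin 3 → R)) (uW_inv_nat n)
  have h := map_normEDS (f := (MvPolynomial.aeval (R := ℤ) (![b, c, J] : Fin 3 → R)).toRingHom)
      (MvPolynomial.X 0) (MvPolynomial.X 1)
      (MvPolynomial.X 1 * MvPolynomial.X 2 - MvPolynomial.X 0 ^ 4)
  simp only [AlgHom.toRingHom_eq_coe, RingHom.coe_coe, MvPolynomial.aeval_X, map_mul, map_sub,
    map_pow] at h
  simp only [uW, map_mul, map_add, map_pow, h, MvPolynomial.aeval_X] at this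
  exact this

end EDS

end Fermat.Agent.EC
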