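import Mathlib.GroupTheory.OrderOfElement
import Mathlib.GroupTheory.SpecificGroups.Cyclic
import Mathlib.GroupTheory.PGroup
import Mathlib.GroupTheory.GroupAction.Basic
import Mathlib.Tactic

/-!
# Group theory for `V` of order `p²` and a line `N` of order `p`
-/

set_option autoImplicit false

namespace Fermat.Agent.EC

section

variable {G : Type*} [AddCommGroup G] {p : ℕ}

/-- A subgroup of prime order is contained in or disjoint from any other subgroup. -/
lemma line_dichotomy (hp : p.Prime) {N : AddSubgroup G} (hN : Nat.card N = p) (H : AddSubgroup G) :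
    (∀ x ∈ N, x ∈ H → x = 0) ∨ N ≤ H := by
  by_contra hcon
  push Not at hcon
  obtain ⟨⟨x, hxN, hxH, hx0⟩, h2⟩ := hcon
  apply h2
  have : Fact p.Prime := ⟨hp⟩
  have : Fact (Nat.card N).Prime := ⟨by rw [hN]; exact hp⟩
  have h3 : AddSubgroup.zmultiples (⟨x, hxN⟩ : N) = ⊤ :=
    (AddSubgroup.eq_bot_or_eq_top_of_prime_card _).resolve_left (by
      rw [AddSubgroup.zmultiples_eq_bot]
      intro h
      exact hx0 (congrArg Subtype.val h))
  intro y hy
  have h4 : (⟨y, hy⟩ : N) ∈ AddSubgroup.zmultiples (⟨x, hxN⟩ : N) := by rw [h3]; trivial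
  obtain ⟨k, hk⟩ := AddSubgroup.mem_zmultiples_iff.mp h4
  have h5 : k • x = y := congrArg Subtype.val hk
  rw [← h5]
  exact H.zsmul_mem hxH k

/-- A subgroup between `N` (order `p`) and `V` (order `p²`) is one of them. -/
lemma between (hp : p.Prime) {N V H : AddSubgroup G} (hN : Nat.card N = p)
    (hV : Nat.card V = p ^ 2) (h1 : N ≤ H) (h2 : H ≤ V) : H = N ∨ H = V := by
  have hfinV : Finite V := Nat.finite_of_card_ne_zero (by rw [hV]; exact pow_ne_zero 2 hp.ne_zero)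
  have hfinH : Finite H := Finite.of_injective _ (AddSubgroup.inclusion_injective h2)
  have d1 : Nat.card N ∣ Nat.card H := AddSubgroup.card_dvd_of_le h1
  have d2 : Nat.card H ∣ Nat.card V := AddSubgroup.card_dvd_of_le h2
  rw [hV] at d2
  obtain ⟨k, hk, hk2⟩ := (Nat.dvd_prime_pow hp).mp d2
  rw [hN, hk2] at d1
  interval_cases k
  · simp at d1
    exact absurd d1 hp.one_lt.ne'
  · left
    refine (AddSubgroup.eq_of_le_of_card_ge h1 ?_).symm
    rw [hk2, hN, pow_one]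
  · right
    refine AddSubgroup.eq_of_le_of_card_ge h2 ?_
    rw [hk2, hV]

lemma sup_eq_of_not_mem (hp : p.Prime) {N V : AddSubgroup G} (hN : Nat.card N = p)
    (hV : Nat.card V = p ^ 2) (hNV : N ≤ V) {y : G} (hy : y ∈ V) (hyN : y ∉ N) :
    N ⊔ AddSubgroup.zmultiples y = V := by
  rcases between hp hN hV (le_sup_left : N ≤ N ⊔ AddSubgroup.zmultiples y)
    (sup_le hNV (by rw [AddSubgroup.zmultiples_le]; exact hy)) with h | h
  · exfalso
    apply hyN
    rw [← h]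
    exact AddSubgroup.mem_sup_right (AddSubgroup.mem_zmultiples y)
  · exact h

/-- cardinalities -/
lemma card_line (hp : p.Prime) {N V : AddSubgroup G} (hNV : N ≤ V) (hpV : ∀ x ∈ V, p • x = 0)
    (hfin : Finite V) (hV : Nat.card V ≤ p ^ 2) (hN0 : N ≠ ⊥) (hN1 : N ≠ V) :
    Nat.card N = p ∧ Nat.card V = p ^ 2 := by
  have := hfin
  have : Finite N := Finite.of_injective _ (AddSubgroup.inclusion_injective hNV)
  have : Fact p.Prime := ⟨hp⟩
  -- `N` has an element of order `p`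
  obtain ⟨x, hxN, hx0⟩ : ∃ y, y ∈ N ∧ y ≠ 0 := by
    obtain ⟨x, hx⟩ := AddSubgroup.ne_bot_iff_exists_ne_zero.mp hN0
    exact ⟨x.1, x.2, fun h => hx (Subtype.ext h)⟩
  have hord : addOrderOf x = p := by
    have := addOrderOf_dvd_of_nsmul_eq_zero (hpV x (hNV hxN))
    rcases (Nat.dvd_prime hp).mp this with h | h
    · rw [AddMonoid.addOrderOf_eq_one_iff] at h; exact absurd h hx0
    · exact h
  have d1 : p ∣ Nat.card N := by
    have h1 : AddSubgroup.zmultiples x ≤ N := by rw [AddSubgroup.zmultiples_le]; exact hxN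
    have := AddSubgroup.card_dvd_of_le h1
    rwa [Nat.card_zmultiples, hord] at this
  -- index
  have hmul := AddSubgroup.card_dvd_of_le hNV
  obtain ⟨k, hk⟩ := hmul
  have hVpos : 0 < Nat.card V := Nat.card_pos
  have hNpos : 0 < Nat.card N := Nat.card_pos
  have hcardlt : Nat.card N < Nat.card V := by
    refine lt_of_le_of_ne (Nat.le_of_dvd hVpos ⟨k, hk⟩) ?_
    intro h
    exact hN1 (AddSubgroup.eq_of_le_of_card_ge hNV h.ge)
  have hk1 : 1 < k := by
    by_contra hle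
    push Not at hle
    interval_cases k
    · omega
    · omega
  -- `k ≥ p`: `V` is a `p`-group
  have hpg : ∃ m, Nat.card V = p ^ m := by
    have h3 : ∀ q : ℕ, q.Prime → q ∣ Nat.card V → q = p := by
      intro q hq hqV
      have : Fact q.Prime := ⟨hq⟩
      obtain ⟨y, hy⟩ := exists_prime_addOrderOf_dvd_card' (G := V) q hqV
      have h4 : p • y = 0 := Subtype.ext (hpV y.1 y.2)
      have h5 := addOrderOf_dvd_of_nsmul_eq_zero h4
      rw [hy] at h5
      exact (Nat.prime_dvd_prime_iff_eq hq hp).mp h5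
    exact ⟨_, Nat.eq_prime_pow_of_unique_prime_dvd hVpos.ne' (fun {d} hd hdv => h3 d hd hdv)⟩
  obtain ⟨m, hm⟩ := hpg
  have hkp : p ∣ k := by
    have : k ∣ p ^ m := by rw [← hm, hk]; exact Dvd.intro_left _ rfl
    obtain ⟨j, hj, hj2⟩ := (Nat.dvd_prime_pow hp).mp this
    rw [hj2]
    rcases Nat.eq_zero_or_pos j with h0 | h0
    · rw [h0, pow_zero] at hj2; omega
    · exact dvd_pow_self p h0.ne'
  obtain ⟨a, ha⟩ := d1
  obtain ⟨b, hb⟩ := hkp
  have ha1 : 0 < a := by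
    rcases Nat.eq_zero_or_pos a with h | h
    · rw [h, mul_zero] at ha; omega
    · exact h
  have hb1 : 0 < b := by
    rcases Nat.eq_zero_or_pos b with h | h
    · rw [h, mul_zero] at hb; omega
    · exact h
  have hp0 := hp.pos
  have hab : p ^ 2 * (a * b) ≤ p ^ 2 := by
    calc p ^ 2 * (a * b) = (p * a) * (p * b) := by ring
      _ = Nat.card V := by rw [hk, ha, hb]
      _ ≤ p ^ 2 := hV
  have hab1 : a * b ≤ 1 := by
    by_contra hgt
    push Not at hgt
    have := Nat.mul_lt_mul_of_pos_left hgt (pow_pos hp0 2)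
    omega
  have ha' : a = 1 := by nlinarith
  have hb' : b = 1 := by nlinarith
  subst ha' hb'
  refine ⟨by rw [ha, mul_one], ?_⟩
  rw [hk, ha, hb]; ring

end

section action

variable {G : Type*} [AddCommGroup G] {p : ℕ}

/-- If `N ∩ E₁ = 0`, inertia acts trivially on `N`. -/
lemma fix_line (hp : p.Prime) {N V E0 E1 : AddSubgroup G} (hN : Nat.card N = p) (hNV : N ≤ V)
    {τ : G →+ G} (hτN : ∀ x ∈ N, τ x ∈ N) (H1 : ∀ x ∈ V, τ x - x ∈ E0)
    (H2 : ∀ x ∈ V, x ∈ E0 → τ x - x ∈ E1) (hNE : ∀ x ∈ N, x ∈ E1 → x = 0) :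
    ∀ x ∈ N, τ x = x := by
  intro x hx
  by_contra hne
  have hy : τ x - x ∈ N := N.sub_mem (hτN x hx) hx
  have hy0 : τ x - x ≠ 0 := sub_ne_zero.mpr hne
  rcases line_dichotomy hp hN E0 with h | h
  · exact hy0 (h _ hy (H1 x (hNV hx)))
  · exact hy0 (hNE _ hy (H2 x (hNV hx) (h hx)))

/-- If `E₁ ∩ V = N`, inertia acts trivially on `V / N`. -/
lemma cofix_line (hp : p.Prime) {N V E0 E1 : AddSubgroup G} (hN : Nat.card N = p)
    (hV : Nat.card V = p ^ 2) (hNV : N ≤ V) (hE : E1 ≤ E0)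
    {τ : G →+ G} (hτV : ∀ x ∈ V, τ x ∈ V) (H1 : ∀ x ∈ V, τ x - x ∈ E0)
    (H2 : ∀ x ∈ V, x ∈ E0 → τ x - x ∈ E1) (hNE : N ≤ E1) (hE1 : ∀ x ∈ V, x ∈ E1 → x ∈ N) :
    ∀ x ∈ V, τ x - x ∈ N := by
  intro x hx
  by_contra hne
  have hy : τ x - x ∈ V := V.sub_mem (hτV x hx) hx
  have hsup := sup_eq_of_not_mem hp hN hV hNV hy hne
  have hVE : V ≤ E0 := by
    rw [← hsup]
    exact sup_le (hNE.trans hE) (by rw [AddSubgroup.zmultiples_le]; exact H1 x hx)
  exact hne (hE1 _ hy (H2 x hx (hVE hx)))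

/-- If `E₁ ∩ V = 0`, inertia acts trivially on `N` and `V / N`. -/
lemma cofix_line' (hp : p.Prime) {N V E0 E1 : AddSubgroup G} (hN : Nat.card N = p)
    (hV : Nat.card V = p ^ 2) (hNV : N ≤ V)
    {τ : G →+ G} (hτN : ∀ x ∈ N, τ x ∈ N) (hτV : ∀ x ∈ V, τ x ∈ V)
    (H1 : ∀ x ∈ V, τ x - x ∈ E0)
    (H2 : ∀ x ∈ V, x ∈ E0 → τ x - x ∈ E1) (hE1 : ∀ x ∈ V, x ∈ E1 → x = 0) :
    ∀ x ∈ V, τ x - x ∈ N := by
  have hfix := fix_line hp hN hNV hτN H1 H2 (fun x hx h => hE1 x (hNV hx) h)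
  intro x hx
  by_contra hne
  have hy : τ x - x ∈ V := V.sub_mem (hτV x hx) hx
  have hyfix : τ (τ x - x) = τ x - x :=
    sub_eq_zero.mp (hE1 _ (V.sub_mem (hτV _ hy) hy) (H2 _ hy (H1 x hx)))
  have hsup := sup_eq_of_not_mem hp hN hV hNV hy hne
  have hx' : x ∈ N ⊔ AddSubgroup.zmultiples (τ x - x) := by rw [hsup]; exact hx
  obtain ⟨n, hn, z, hz, hnz⟩ := AddSubgroup.mem_sup.mp hx'
  obtain ⟨k, rfl⟩ := AddSubgroup.mem_zmultiples_iff.mp hz
  have h1 : τ x = x := by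
    conv_lhs => rw [← hnz]
    rw [map_add, hfix n hn, map_zsmul, hyfix]
    exact hnz
  apply hne
  rw [h1, sub_self]
  exact zero_mem _

end action

end Fermat.Agent.EC
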