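import Fermat.Agent.EC.StableLine
import Fermat.Agent.EC.GroupAux

/-!
# Local structure of the `p`-torsion of the Frey curve at all places
-/

set_option autoImplicit false
set_option linter.unusedSectionVars false

namespace Fermat.Agent.EC

open WeierstrassCurve WeierstrassCurve.Affine WeierstrassCurve.Affine.Point

section general

variable {F K : Type*} [Field F] [Field K] [Algebra F K] [DecidableEq K] {Γ₀ : Type*}
  [LinearOrderedCommGroupWithZero Γ₀] {v : Valuation K Γ₀} {W : Affine F} {r t : F}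

lemma mem_E1_iff (M : IntT v (W⁄K) (algebraMap F K r) (algebraMap F K t)) {Q : (W⁄K).Point}
    (hQ : Q ≠ 0) : Q ∈ M.E1 ↔ 1 < v (xc Q) := by
  rcases Q with _ | ⟨x, y, h⟩
  · exact absurd rfl hQ
  · rw [M.mem_E1_some' h, xc_some]

/-- Good reduction: `τ Q - Q` is in the formal group. -/
lemma IsInert.sub_mem_E1_good {τ : K ≃ₐ[F] K} (hτ : IsInert v τ) (hI : IsInt v (W⁄K))
    (hΔ : v (W⁄K).Δ = 1) (M : IntT v (W⁄K) (algebraMap F K r) (algebraMap F K t))
    (Q : (W⁄K).Point) : τ • Q - Q ∈ M.E1 := by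
  rcases Q with _ | ⟨x, y, h⟩
  · change τ • (0 : (W⁄K).Point) - 0 ∈ _
    rw [smul_zero, sub_zero]; exact zero_mem _
  by_cases hx : 1 < v x
  · refine sub_mem ?_ ((M.mem_E1_some' h).2 hx)
    rw [smul_some, M.mem_E1_some', hτ.map_eq]
    exact hx
  · push Not at hx
    have hy := hI.y_integral h.1 hx
    rcases hI.sub_reduces hΔ h (nonsingular_map τ h) hx (hτ.sub_lt x hx) (hτ.sub_lt y hy) with
      h0 | ⟨x', y', h', he, hx'⟩
    · rw [smul_some, h0]; exact zero_mem _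
    · rw [smul_some, he, M.mem_E1_some']
      exact hx'

end general

variable (P : FreyPackage) {K : Type*} [Field K] [Algebra ℚ K] [DecidableEq K]
  {Γ₀ : Type*} [LinearOrderedCommGroupWithZero Γ₀] (v : Valuation K Γ₀)

lemma frey_two_hm (hv : v ((2 : ℕ) : K) < 1) :
    v (tA4 (P.freyCurve⁄K) (algebraMap ℚ K 0) (algebraMap ℚ K 0)) < 1 := by
  rw [frey_T0_A4, frey_a₄, map_intCast]
  apply val_int_lt v hv
  obtain ⟨k, hk⟩ := frey_b_pow P
  change (2 : ℤ) ∣ -(P.a ^ P.p) * (P.b ^ P.p) / 16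
  have : -(P.a ^ P.p) * (P.b ^ P.p) = 16 * (2 * (-(P.a ^ P.p) * k)) := by rw [hk]; ring
  rw [this, Int.mul_ediv_cancel_left _ (by norm_num)]
  exact Dvd.intro _ rfl

/-- The local structure of the torsion of the Frey curve. -/
theorem frey_local [IsAlgClosed K] {q : ℕ} (hq : q.Prime) (hv : v (q : K) < 1) :
    ∃ E0 E1 : AddSubgroup (P.freyCurve⁄K).Point, E1 ≤ E0 ∧
      (∀ Q, Q ≠ 0 → (Q ∈ E1 ↔ 1 < v (xc Q))) ∧
      ∀ τ : K ≃ₐ[ℚ] K, IsInert v τ →
        (∀ Q : (P.freyCurve⁄K).Point, P.p • Q = 0 → τ • Q - Q ∈ E0) ∧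
        (∀ Q : (P.freyCurve⁄K).Point, P.p • Q = 0 → Q ∈ E0 → τ • Q - Q ∈ E1) := by
  have hqi := Nat.prime_iff_prime_int.mp hq
  have hp2 : P.p ≠ 2 := by have := P.hp5; omega
  have key : ∀ (r t : ℚ) (tp tm : K)
      (M : MultT v (P.freyCurve⁄K) (algebraMap ℚ K r) (algebraMap ℚ K t) tp tm),
      ∃ E0 E1 : AddSubgroup (P.freyCurve⁄K).Point, E1 ≤ E0 ∧
      (∀ Q, Q ≠ 0 → (Q ∈ E1 ↔ 1 < v (xc Q))) ∧
      ∀ τ : K ≃ₐ[ℚ] K, IsInert v τ →
        (∀ Q : (P.freyCurve⁄K).Point, P.p • Q = 0 → τ • Q - Q ∈ E0) ∧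
        (∀ Q : (P.freyCurve⁄K).Point, P.p • Q = 0 → Q ∈ E0 → τ • Q - Q ∈ E1) := by
    intro r t tp tm M
    refine ⟨M.toIntT.E0 M.hm, M.toIntT.E1, M.toIntT.E1_le_E0 M.hm,
      fun Q hQ => mem_E1_iff M.toIntT hQ, fun τ hτ => ⟨fun Q hQ => ?_, fun Q _ hQ0 => ?_⟩⟩
    · exact hτ.sub_mem_E0 M P.pp hp2 hQ
    · exact hτ.sub_mem_E1 M.toIntT M.hm hQ0
  by_cases hq2 : q = 2
  · subst hq2
    obtain ⟨tp, tm, M⟩ := frey_MultT0 P v hq hv (dvd_mul_of_dvd_right (frey_two_dvd_b P) _)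
      (frey_two_hm P v hv)
    exact key 0 0 tp tm M
  have h2 : v (2 : K) = 1 := by
    have : ¬ (q : ℤ) ∣ ((2 : ℕ) : ℤ) := by
      intro h
      rw [Int.natCast_dvd_natCast, Nat.prime_dvd_prime_iff_eq hq Nat.prime_two] at h
      exact hq2 h
    exact_mod_cast val_int_eq_one_of_not_dvd v hq hv this
  have h16 : v (algebraMap ℚ K 16) = 1 := by
    rw [map_ofNat, show (16 : K) = 2 * 2 * 2 * 2 by norm_num, map_mul, map_mul, map_mul, h2,
      one_mul, one_mul, one_mul]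
  by_cases habc : (q : ℤ) ∣ P.a * P.b * P.c
  · rcases hqi.dvd_or_dvd habc with hab | hc
    · have hm : v (tA4 (P.freyCurve⁄K) (algebraMap ℚ K 0) (algebraMap ℚ K 0)) < 1 := by
        rw [frey_T0_A4]
        have e : P.freyCurve.a₄ = -(((P.a * P.b : ℤ) : ℚ)) ^ P.p / 16 := by
          simp only [FreyPackage.freyCurve]
          push_cast
          ring
        rw [e, map_div₀, map_div₀, h16, div_one, map_neg, Valuation.map_neg, map_pow, map_pow]
        refine pow_lt_one₀ zero_le ?_ P.hp0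
        rw [map_intCast]
        exact val_int_lt v hv hab
      obtain ⟨tp, tm, M⟩ := frey_MultT0 P v hq hv hab hm
      exact key 0 0 tp tm M
    · have hm : v (tA4 (P.freyCurve⁄K) (algebraMap ℚ K (P.a ^ P.p / 4))
          (algebraMap ℚ K (- P.a ^ P.p / 8))) < 1 := by
        rw [tA4_baseChange, frey_TC_A4, map_div₀, map_div₀, h16, div_one, map_mul, map_mul,
          map_pow, map_pow, map_pow, map_pow]
        refine lt_of_le_of_lt (mul_le_of_le_one_left' ?_) ?_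
        · rw [map_intCast]; exact pow_le_one' (val_int_le v _) _
        · refine pow_lt_one₀ zero_le ?_ P.hp0
          rw [map_intCast]
          exact val_int_lt v hv hc
      obtain ⟨tp, tm, M⟩ := frey_MultTC P v hq hv hc h2 hm
      exact key _ _ tp tm M
  · have hΔ : v (P.freyCurve⁄K).Δ = 1 := by
      have h1 : v ((P.a * P.b * P.c : ℤ) : K) = 1 := val_int_eq_one_of_not_dvd v hq hv habc
      rw [show (P.freyCurve⁄K).Δ = algebraMap ℚ K P.freyCurve.Δ from WeierstrassCurve.map_Δ _ _,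
        frey_Δ]
      have e : ((P.a : ℚ) ^ P.p * (P.b : ℚ) ^ P.p * (P.c : ℚ) ^ P.p) ^ 2 / 2 ^ 8 =
        ((P.a * P.b * P.c : ℤ) : ℚ) ^ (P.p * 2) / 2 ^ 8 := by
        push_cast
        ring
      rw [e, map_div₀, map_div₀, map_pow, map_pow, map_pow, map_pow, map_intCast, h1, map_ofNat,
        h2]
      simp
    refine ⟨⊤, (frey_T0 P v).E1, le_top, fun Q hQ => mem_E1_iff (frey_T0 P v) hQ,
      fun τ hτ => ⟨fun _ _ => trivial, fun Q _ _ => ?_⟩⟩
    exact hτ.sub_mem_E1_good (frey_isInt P v) hΔ (frey_T0 P v) Q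

end Fermat.Agent.EC
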