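import Fermat.Agent.EC.Frey
import Fermat.Agent.EC.InertiaSub
import Fermat.Agent.EC.FreyLocal
import Fermat.Agent.Flat.RamConc

/-!
# The `p`-torsion of the Frey curve is ramified at `2`
-/

set_option autoImplicit false
set_option linter.unusedSectionVars false

namespace Fermat.Agent.EC

open WeierstrassCurve WeierstrassCurve.Affine WeierstrassCurve.Affine.Point Polynomial

section general

variable {K : Type*} [Field K] {Γ₀ : Type*} [LinearOrderedCommGroupWithZero Γ₀]
  {v : Valuation K Γ₀} {W : WeierstrassCurve K}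

lemma val_mul_lt {a b : K} (ha : v a < 1) (hb : v b ≤ 1) : v (a * b) < 1 := by
  rw [map_mul]
  exact mul_lt_one_of_lt_of_le ha hb

lemma val_mul_lt' {a b : K} (ha : v a ≤ 1) (hb : v b < 1) : v (a * b) < 1 := by
  rw [mul_comm]
  exact val_mul_lt hb ha

lemma IsInt.eval_preΨ'_le (h : IsInt v W) (n : ℕ) : v ((W.preΨ' n).eval 0) ≤ 1 := by
  rw [← coeff_zero_eq_eval_zero]
  exact h.coeff_preΨ' n 0

/-- the division polynomials vanish at the node -/
lemma IsInt.eval_preΨ'_lt (h : IsInt v W) (h6 : v W.b₆ < 1) (h8 : v W.b₈ < 1) (h4 : v W.b₄ ≤ 1)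
    (n : ℕ) (hn : 3 ≤ n) : v ((W.preΨ' n).eval 0) < 1 := by
  have hΨ2 : v ((W.Ψ₂Sq ^ 2).eval 0) ≤ 1 := by
    have : (W.Ψ₂Sq).eval 0 = W.b₆ := by simp [Ψ₂Sq]
    rw [eval_pow, this, map_pow]
    exact pow_le_one' h6.le 2
  have hif : ∀ (c : Prop) [Decidable c], v ((if c then W.Ψ₂Sq ^ 2 else 1 : K[X]).eval 0) ≤ 1 := by
    intro c _
    split_ifs
    · exact hΨ2
    · rw [eval_one, map_one]
  have hif' : ∀ (c : Prop) [Decidable c], v ((if c then 1 else W.Ψ₂Sq ^ 2 : K[X]).eval 0) ≤ 1 := by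
    intro c _
    split_ifs
    · rw [eval_one, map_one]
    · exact hΨ2
  have hle := h.eval_preΨ'_le
  induction n using Nat.strong_induction_on with
  | _ n ih =>
  rcases Nat.lt_or_ge n 5 with h5 | h5
  · interval_cases n
    · rw [preΨ'_three]
      have : (W.Ψ₃).eval 0 = W.b₈ := by simp [Ψ₃]
      rw [this]
      exact h8
    · rw [preΨ'_four]
      have : (W.preΨ₄).eval 0 = W.b₄ * W.b₈ - W.b₆ * W.b₆ := by simp [preΨ₄]; ring
      rw [this]
      exact v.map_sub_lt (val_mul_lt' h4 h8) (val_mul_lt h6 h6.le)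
  · rcases Nat.even_or_odd' n with ⟨k, rfl | rfl⟩
    · obtain ⟨m, rfl⟩ : ∃ m, k = m + 3 := ⟨k - 3, by omega⟩
      rw [preΨ'_even]
      have h3 := ih (m + 3) (by omega) (by omega)
      simp only [eval_sub, eval_mul, eval_pow]
      refine v.map_sub_lt (val_mul_lt (val_mul_lt' ?_ h3) (hle _)) (val_mul_lt (val_mul_lt' (hle _) h3) ?_)
      · rw [map_pow]; exact pow_le_one' (hle _) 2
      · rw [map_pow]; exact pow_le_one' (hle _) 2
    · obtain ⟨m, rfl⟩ : ∃ m, k = m + 2 := ⟨k - 2, by omega⟩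
      rw [preΨ'_odd]
      have h3 := ih (m + 3) (by omega) (by omega)
      have h4' := ih (m + 4) (by omega) (by omega)
      simp only [eval_sub, eval_mul, eval_pow]
      refine v.map_sub_lt (val_mul_lt (val_mul_lt h4' ?_) (hif _)) (val_mul_lt (val_mul_lt' (hle _) ?_)
        (hif' _))
      · rw [map_pow]; exact pow_le_one' (hle _) 3
      · rw [map_pow]; exact pow_lt_one₀ zero_le h3 (by norm_num)

/-- a polynomial with unit leading coefficient and non-unit constant term has a root in the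
maximal ideal -/
lemma exists_small_root [IsAlgClosed K] {f : K[X]} (hlead : v f.leadingCoeff = 1)
    (h0 : v (f.eval 0) < 1) : ∃ x, f.eval x = 0 ∧ v x < 1 := by
  have hs := IsAlgClosed.splits f
  have hf0 : f ≠ 0 := by
    rintro rfl
    rw [leadingCoeff_zero, _root_.map_zero] at hlead
    exact zero_ne_one hlead
  by_contra hcon
  push Not at hcon
  have h1 : f.eval 0 = f.leadingCoeff * (f.roots.map fun a => (0 - a)).prod := by
    conv_lhs => rw [hs.eq_prod_roots]
    rw [eval_mul, eval_C, eval_multiset_prod, Multiset.map_map]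
    congr 2
    refine Multiset.map_congr rfl fun a _ => ?_
    simp
  have h2 : ∀ s : Multiset K, (∀ a ∈ s, 1 ≤ v a) → 1 ≤ v ((s.map fun a => (0 - a)).prod) := by
    intro s
    induction s using Multiset.induction_on with
    | empty => intro _; simp
    | cons a s ih =>
      intro h
      rw [Multiset.map_cons, Multiset.prod_cons, map_mul, zero_sub, Valuation.map_neg]
      exact one_le_mul (h a (Multiset.mem_cons_self _ _))
        (by simpa using ih fun b hb => h b (Multiset.mem_cons_of_mem hb))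
  have h3 := h2 f.roots (fun a ha => hcon a (by
    rw [mem_roots hf0] at ha
    exact ha))
  rw [h1, map_mul, hlead, one_mul] at h0
  exact absurd h0 (not_lt.mpr h3)

end general

section frey

local notation "Ω" => AlgebraicClosure ℚ

variable (P : FreyPackage) {A : ValuationSubring Ω}

theorem val_two_lt (hA : A.LiesOverPrime 2) : A.valuation ((2 : ℕ) : Ω) < 1 :=
  (ValuationSubring.mem_nonunits_iff A).1 hA

theorem frey_val_A4 (hA : A.LiesOverPrime 2) :
    ∃ β : ℕ, 1 ≤ β ∧ A.valuation (tA4 (P.freyCurve⁄Ω) (algebraMap ℚ Ω 0) (algebraMap ℚ Ω 0)) *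
      A.valuation ((2 : ℕ) : Ω) ^ 4 = A.valuation ((2 : ℕ) : Ω) ^ (P.p * β) := by
  have hv := val_two_lt hA
  obtain ⟨β, b', hb', hb⟩ : ∃ (β : ℕ) (b' : ℤ), P.b = 2 ^ β * b' ∧ ¬ (2 : ℤ) ∣ b' := by
    obtain ⟨b', h1, h2⟩ := (Int.finiteMultiplicity_iff.2 ⟨by decide, P.hb0⟩ :
      FiniteMultiplicity (2 : ℤ) P.b).exists_eq_pow_mul_and_not_dvd
    exact ⟨_, b', h1, h2⟩
  have hβ : 1 ≤ β := by
    by_contra h
    have : β = 0 := by omega
    rw [this, pow_zero, one_mul] at hb'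
    exact hb (hb' ▸ frey_two_dvd_b P)
  refine ⟨β, hβ, ?_⟩
  have ha : ¬ ((2 : ℕ) : ℤ) ∣ P.a := by
    intro h
    have h1 := P.ha4
    obtain ⟨k, hk⟩ := h
    rw [hk] at h1
    have h2 := congrArg (ZMod.castHom (show 2 ∣ 4 by norm_num) (ZMod 2)) h1
    push_cast at h2
    rw [map_mul] at h2
    have h3 : (ZMod.castHom (show 2 ∣ 4 by norm_num) (ZMod 2)) (2 : ZMod 4) = 0 := by decide
    have h4 : (ZMod.castHom (show 2 ∣ 4 by norm_num) (ZMod 2)) (3 : ZMod 4) = 1 := by decide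
    rw [h3, h4, zero_mul] at h2
    exact zero_ne_one h2
  have h1 : A.valuation (P.a : Ω) = 1 := val_int_eq_one_of_not_dvd A.valuation Nat.prime_two hv ha
  have h2 : A.valuation (b' : Ω) = 1 :=
    val_int_eq_one_of_not_dvd A.valuation Nat.prime_two hv (by exact_mod_cast hb)
  rw [frey_T0_A4, ← map_pow, ← map_mul]
  have e : algebraMap ℚ Ω P.freyCurve.a₄ * ((2 : ℕ) : Ω) ^ 4 =
      -((P.a : Ω) ^ P.p * (((2 : ℕ) : Ω) ^ (P.p * β) * (b' : Ω) ^ P.p)) := by
    have e1 : P.freyCurve.a₄ * (2 : ℚ) ^ 4 = -((P.a : ℚ) ^ P.p * ((2 : ℚ) ^ (P.p * β) *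
        (b' : ℚ) ^ P.p)) := by
      have e2 : (P.b : ℚ) = 2 ^ β * b' := by rw [hb']; push_cast; ring
      simp only [FreyPackage.freyCurve]
      rw [e2, mul_pow, ← pow_mul, mul_comm β]
      ring
    have e3 := congrArg (algebraMap ℚ Ω) e1
    simp only [map_mul, map_neg, map_pow, map_ofNat, map_intCast] at e3
    exact_mod_cast e3
  rw [e, Valuation.map_neg, map_mul, map_mul, map_pow, map_pow, map_pow, h1, h2, one_pow,
    one_mul, mul_one]

/-- **The `p`-torsion of the Frey curve is ramified at `2`.** -/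
theorem frey_ramified_two [DecidableEq Ω] (hA : A.LiesOverPrime 2) :
    ∃ σ ∈ A.inertiaSubgroupIn ℚ, ∃ Q : (P.freyCurve⁄Ω).Point, P.p • Q = 0 ∧ σ • Q ≠ Q := by
  by_contra hcon
  push Not at hcon
  set v := A.valuation with hvdef
  have hv : v ((2 : ℕ) : Ω) < 1 := val_two_lt hA
  have hp2 : P.p ≠ 2 := by have := P.hp5; omega
  have hodd : Odd P.p := P.hp_odd
  have hI := frey_isInt (K := Ω) P v
  obtain ⟨tp, tm, M⟩ := frey_MultT0 P v Nat.prime_two hv
    (dvd_mul_of_dvd_right (frey_two_dvd_b P) _) (frey_two_hm P v hv)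
  have hm := M.hm
  have ha4 : v (P.freyCurve⁄Ω).a₄ < 1 := by
    rw [baseChange_a₄, ← frey_T0_A4]
    exact hm
  have ha3 : (P.freyCurve⁄Ω).a₃ = 0 := by
    rw [baseChange_a₃, show P.freyCurve.a₃ = 0 from rfl, _root_.map_zero]
  have ha6 : (P.freyCurve⁄Ω).a₆ = 0 := by
    rw [baseChange_a₆, show P.freyCurve.a₆ = 0 from rfl, _root_.map_zero]
  have h6 : v (P.freyCurve⁄Ω).b₆ < 1 := by
    have : (P.freyCurve⁄Ω).b₆ = 0 := by rw [WeierstrassCurve.b₆, ha3, ha6]; ring
    rw [this, _root_.map_zero]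
    exact zero_lt_one
  have h8 : v (P.freyCurve⁄Ω).b₈ < 1 := by
    have : (P.freyCurve⁄Ω).b₈ = -((P.freyCurve⁄Ω).a₄ * (P.freyCurve⁄Ω).a₄) := by
      rw [WeierstrassCurve.b₈, ha3, ha6]; ring
    rw [this, Valuation.map_neg]
    exact val_mul_lt ha4 ha4.le
  have h4 : v (P.freyCurve⁄Ω).b₄ ≤ 1 := by
    have : (P.freyCurve⁄Ω).b₄ = ((2 : ℕ) : Ω) * (P.freyCurve⁄Ω).a₄ := by
      rw [WeierstrassCurve.b₄, ha3]; push_cast; ring
    rw [this]
    exact (val_mul_lt hv ha4.le).le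
  have hvp : v (P.p : Ω) = 1 := by
    have : ¬ ((2 : ℕ) : ℤ) ∣ ((P.p : ℕ) : ℤ) := by
      intro h
      rw [Int.natCast_dvd_natCast, Nat.prime_dvd_prime_iff_eq Nat.prime_two P.pp] at h
      exact hp2 h.symm
    exact_mod_cast val_int_eq_one_of_not_dvd v Nat.prime_two hv this
  have hp0 : (P.p : Ω) ≠ 0 := Nat.cast_ne_zero.2 P.pp.ne_zero
  -- a torsion point reducing to the node
  have hlead : v ((P.freyCurve⁄Ω).preΨ' P.p).leadingCoeff = 1 := by
    rw [leadingCoeff, WeierstrassCurve.natDegree_preΨ' _ hp0, WeierstrassCurve.coeff_preΨ',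
      if_neg (Nat.not_even_iff_odd.mpr hodd)]
    exact hvp
  obtain ⟨x, hx0, hx1⟩ := exists_small_root hlead
    (hI.eval_preΨ'_lt h6 h8 h4 P.p (by have := P.hp5; omega))
  obtain ⟨y, h⟩ := exists_point (P.freyCurve⁄Ω) (frey_Δ_ne' P) x
  have hP : P.p • (Point.some x y h : (P.freyCurve⁄Ω).Point) = 0 :=
    (smul_some_eq_zero_iff_of_odd h hodd).2 hx0
  have hxr : v (x - algebraMap ℚ Ω 0) = v x := by rw [_root_.map_zero, sub_zero]
  have hP0 : (Point.some x y h : (P.freyCurve⁄Ω).Point) ∉ M.toIntT.E0 M.hm := by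
    rw [M.toIntT.mem_E0_some, hxr]
    exact not_le.mpr hx1
  -- it is rational over the fixed field of inertia
  have hxK : x ∈ Flat.K0 A := by
    rw [Flat.K0, IntermediateField.mem_fixedField_iff]
    intro σ hσ
    have h3 := hcon σ hσ _ hP
    rw [smul_some, Point.some.injEq] at h3
    exact h3.1
  have hxne : x ≠ 0 := by
    rintro rfl
    rcases M.multiples P.pp hp2 hP hP0 1 with h0 | h0 | h0
    · rw [one_nsmul] at h0
      exact absurd h0 (Point.some_ne_zero _)
    all_goals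
      rw [one_nsmul] at h0
      obtain ⟨x', y', h', he, a1, a2, a3⟩ := h0
      rw [Point.some.injEq] at he
      rw [← he.1, hxr, _root_.map_zero] at a1
      exact absurd a1 (not_lt.mpr zero_le)
  obtain ⟨a, ha⟩ := FlatRam.exists_zpow_K0 (p := 2) hA hxK hxne
  rw [← hvdef] at ha
  obtain ⟨β, hβ, hβ'⟩ := frey_val_A4 P hA
  rw [← hvdef] at hβ'
  have hv0 : v ((2 : ℕ) : Ω) ≠ 0 := (Valuation.ne_zero_iff _).2 (Nat.cast_ne_zero.2 two_ne_zero)
  have hpos : 0 < v ((2 : ℕ) : Ω) := zero_lt_iff.2 hv0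
  set u := v ((2 : ℕ) : Ω) with hu
  set m := v (tA4 (P.freyCurve⁄Ω) (algebraMap ℚ Ω 0) (algebraMap ℚ Ω 0)) with hmdef
  have hmu : m = u ^ ((P.p : ℤ) * β - 4) := by
    have h5 : u ^ ((P.p : ℤ) * β - 4) * u ^ (4 : ℕ) = u ^ (P.p * β) := by
      rw [← zpow_natCast u 4, ← zpow_add₀ hv0, ← zpow_natCast u (P.p * β)]
      congr 1
      push_cast
      ring
    exact mul_right_cancel₀ (pow_ne_zero 4 hv0) (hβ'.trans h5.symm)
  -- the class in the component group
  have key : m < v x ∧ ∃ k : ℤ, v x ^ P.p = (m ^ 2) ^ k := by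
    rcases M.multiples P.pp hp2 hP hP0 1 with h0 | h0 | h0
    · rw [one_nsmul] at h0
      exact absurd h0 (Point.some_ne_zero _)
    · rw [one_nsmul] at h0
      have h5 := M.class_prime P.pp hp2 hP h0
      rw [hxr] at h5
      obtain ⟨x', y', h', he, a1, a2, a3⟩ := h0
      rw [Point.some.injEq] at he
      rw [← he.1, hxr] at a1
      exact ⟨a1, h5⟩
    · rw [one_nsmul] at h0
      have h5 := M.swap.class_prime P.pp hp2 hP h0
      rw [hxr] at h5
      obtain ⟨x', y', h', he, a1, a2, a3⟩ := h0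
      rw [Point.some.injEq] at he
      rw [← he.1, hxr] at a1
      exact ⟨a1, h5⟩
  obtain ⟨h5, k, hk⟩ := key
  have hinj : ∀ i j : ℤ, u ^ i = u ^ j → i = j := fun i j hij =>
    (zpow_right_injective₀ hpos hv.ne) hij
  have hanti : ∀ i j : ℤ, u ^ i < u ^ j → j < i := by
    intro i j hij
    by_contra hle
    push Not at hle
    exact absurd hij (not_lt.mpr (zpow_le_zpow_right_of_le_one₀ hpos hv.le hle))
  have h6' : (P.p : ℤ) * a = 2 * k * (P.p * β - 4) := by
    apply hinj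
    have e1 : v x ^ P.p = u ^ ((P.p : ℤ) * a) := by
      rw [ha, mul_comm (P.p : ℤ) a, zpow_mul, zpow_natCast]
    have e2 : (m ^ 2) ^ k = u ^ (2 * k * (P.p * β - 4) : ℤ) := by
      rw [hmu, ← zpow_natCast, ← zpow_mul, ← zpow_mul]
      congr 1
      push_cast
      ring
    rw [← e1, ← e2]
    exact hk
  rw [ha, hmu] at h5
  have h7 : a < P.p * β - 4 := hanti _ _ h5
  have h8' : 0 < a := by
    have : u ^ a < u ^ (0 : ℤ) := by
      rw [zpow_zero, ← ha]
      exact hx1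
    exact hanti _ _ this
  have hpk : (P.p : ℤ) ∣ 8 * k := by
    refine ⟨2 * k * β - a, ?_⟩
    linear_combination h6'
  have hpk' : (P.p : ℤ) ∣ k := by
    have hc : IsCoprime (P.p : ℤ) 8 := by
      have : Nat.Coprime P.p 8 := by
        have h9 : Nat.Coprime P.p (2 ^ 3) := Nat.Coprime.pow_right 3
          ((Nat.coprime_primes P.pp Nat.prime_two).2 hp2)
        exact h9
      exact_mod_cast Nat.isCoprime_iff_coprime.2 this
    exact hc.dvd_of_dvd_mul_left hpk
  obtain ⟨k', rfl⟩ := hpk'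
  have hpz : (P.p : ℤ) ≠ 0 := by exact_mod_cast P.pp.ne_zero
  have h9 : a = 2 * k' * (P.p * β - 4) := by
    apply mul_left_cancel₀ hpz
    linear_combination h6'
  have h10 : (0 : ℤ) < P.p * β - 4 := lt_trans h8' h7
  rcases le_or_gt k' 0 with hk' | hk'
  · have : 2 * k' * (P.p * β - 4) ≤ 0 := by nlinarith
    omega
  · have : (P.p : ℤ) * β - 4 ≤ 2 * k' * (P.p * β - 4) := by nlinarith
    omega

end frey

end Fermat.Agent.EC
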