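import Fermat.Agent.EC.IntTorsion

/-!
# A Gauss lemma bound for the roots of integral polynomials
-/

set_option autoImplicit false
set_option linter.unusedSectionVars false

namespace Fermat.Agent.EC

open WeierstrassCurve WeierstrassCurve.Affine Polynomial

variable {K : Type*} [Field K] {Γ₀ : Type*} [LinearOrderedCommGroupWithZero Γ₀]
  {v : Valuation K Γ₀}

lemma gauss_step {g : K[X]} {x : K} (hx : 1 ≤ v x) {β c : Γ₀}
    (h : ∀ j, v (((X - C x) * g).coeff j) * c ≤ β) : ∀ j, v (g.coeff j) * (v x * c) ≤ β := by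
  intro j
  induction j with
  | zero =>
    have h0 := h 0
    rw [mul_coeff_zero] at h0
    simp only [coeff_sub, coeff_X_zero, coeff_C_zero, zero_sub, neg_mul, Valuation.map_neg,
      map_mul] at h0
    rwa [← mul_assoc, mul_comm (v (g.coeff 0))]
  | succ j ih =>
    have h1 := h (j + 1)
    rw [sub_mul, coeff_sub, coeff_X_mul, coeff_C_mul] at h1
    have e : x * g.coeff (j + 1) = g.coeff j - (g.coeff j - x * g.coeff (j + 1)) := by ring
    have h2 : v (x * g.coeff (j + 1)) ≤ max (v (g.coeff j))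
        (v (g.coeff j - x * g.coeff (j + 1))) := by
      conv_lhs => rw [e]
      exact v.map_sub _ _
    rw [map_mul] at h2
    have h3 : v (g.coeff (j + 1)) * (v x * c) = (v x * v (g.coeff (j + 1))) * c := by
      rw [← mul_assoc, mul_comm (v (g.coeff (j + 1)))]
    rw [h3]
    rcases le_max_iff.mp h2 with h4 | h4
    · calc (v x * v (g.coeff (j + 1))) * c ≤ v (g.coeff j) * c := by gcongr
        _ ≤ v (g.coeff j) * (v x * c) := by
          gcongr
          exact le_mul_of_one_le_left' hx
        _ ≤ β := ih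
    · calc (v x * v (g.coeff (j + 1))) * c ≤ v (g.coeff j - x * g.coeff (j + 1)) * c := by gcongr
        _ ≤ β := h1

lemma gauss_finset {S : Finset K} (hS : ∀ x ∈ S, 1 ≤ v x) {g : K[X]} {β : Γ₀}
    (h : ∀ j, v (((∏ x ∈ S, (X - C x)) * g).coeff j) ≤ β) :
    ∀ j, v (g.coeff j) * ∏ x ∈ S, v x ≤ β := by
  classical
  induction S using Finset.induction_on generalizing g with
  | empty => simpa using h
  | insert a S ha ih =>
    intro j
    rw [Finset.prod_insert ha]
    have h1 : ∀ j, v (((X - C a) * g).coeff j) * ∏ x ∈ S, v x ≤ β := by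
      apply ih (fun x hx => hS x (Finset.mem_insert_of_mem hx))
      intro j
      have e : (∏ x ∈ S, (X - C x)) * ((X - C a) * g) = (∏ x ∈ insert a S, (X - C x)) * g := by
        rw [Finset.prod_insert ha]; ring
      rw [e]
      exact h j
    exact gauss_step (hS a (Finset.mem_insert_self a S)) h1 j

/-- For an integral polynomial `f` with a set `S` of roots of absolute value `≥ 1`:
`|lead f| ∏_{x ∈ S} |x| ≤ 1`. -/
lemma gauss_bound {f : K[X]} (hf : ∀ j, v (f.coeff j) ≤ 1) {S : Finset K}
    (hS : ∀ x ∈ S, 1 ≤ v x) (hroot : ∀ x ∈ S, f.eval x = 0) :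
    v f.leadingCoeff * ∏ x ∈ S, v x ≤ 1 := by
  classical
  have hdvd : (∏ x ∈ S, (X - C x)) ∣ f := by
    apply Finset.prod_dvd_of_coprime
    · intro x _ y _ hxy
      exact pairwise_coprime_X_sub_C (fun _ _ h => h) hxy
    · intro x hx
      rw [dvd_iff_isRoot]
      exact hroot x hx
  obtain ⟨g, hg⟩ := hdvd
  have h1 : f.leadingCoeff = g.leadingCoeff := by
    rw [hg, leadingCoeff_mul, (monic_prod_of_monic _ _ fun x _ => monic_X_sub_C x).leadingCoeff,
      one_mul]
  rw [h1]
  exact gauss_finset hS (by rw [← hg]; exact hf) _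

variable [DecidableEq K] {W : WeierstrassCurve K}

/-- the `x`-coordinate of a point (junk at the origin) -/
def xc (P : W.toAffine.Point) : K :=
  match P with
  | 0 => 0
  | .some x _ _ => x

@[simp] lemma xc_some {x y : K} (h : W.toAffine.Nonsingular x y) :
    xc (Point.some x y h : W.toAffine.Point) = x := rfl

/-- Product of the `x`-coordinates of torsion points in the formal group. -/
theorem IsInt.prod_xc_le (hI : IsInt v W) {n : ℕ} (hn : Odd n) (hn0 : (n : K) ≠ 0)
    {S : Finset K} (hS : ∀ x ∈ S, 1 ≤ v x)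
    (hroot : ∀ x ∈ S, ∃ P : W.toAffine.Point, P ≠ 0 ∧ n • P = 0 ∧ xc P = x) :
    v (n : K) * ∏ x ∈ S, v x ≤ 1 := by
  have h1 := gauss_bound (f := W.preΨ' n) (hI.coeff_preΨ' n) hS (by
    intro x hx
    obtain ⟨P, hP0, hnP, hxc⟩ := hroot x hx
    rcases P with _ | ⟨x', y', h'⟩
    · exact absurd rfl hP0
    · rw [xc_some] at hxc
      subst hxc
      exact (smul_some_eq_zero_iff_of_odd h' hn).mp hnP)
  rw [WeierstrassCurve.leadingCoeff_preΨ' W hn0, if_neg (Nat.not_even_iff_odd.mpr hn)] at h1
  exact h1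

end Fermat.Agent.EC
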