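import Fermat.Agent.EC.Torsion
import Mathlib.RingTheory.Valuation.Integers
import Mathlib.RingTheory.Valuation.ValuationSubring

/-!
# Integrality of torsion points
-/

set_option autoImplicit false
set_option linter.unusedSectionVars false

namespace Fermat.Agent.EC

open WeierstrassCurve WeierstrassCurve.Affine Polynomial

variable {K : Type*} [Field K] {Γ₀ : Type*} [LinearOrderedCommGroupWithZero Γ₀]

/-- A Weierstrass curve with integral coefficients. -/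
structure IsInt (v : Valuation K Γ₀) (W : WeierstrassCurve K) : Prop where
  a₁ : v W.a₁ ≤ 1
  a₂ : v W.a₂ ≤ 1
  a₃ : v W.a₃ ≤ 1
  a₄ : v W.a₄ ≤ 1
  a₆ : v W.a₆ ≤ 1

variable {v : Valuation K Γ₀} {W : WeierstrassCurve K}

/-- the integral model -/
noncomputable def IsInt.model (h : IsInt v W) : WeierstrassCurve v.integer :=
  ⟨⟨W.a₁, h.a₁⟩, ⟨W.a₂, h.a₂⟩, ⟨W.a₃, h.a₃⟩, ⟨W.a₄, h.a₄⟩, ⟨W.a₆, h.a₆⟩⟩

lemma IsInt.map_model (h : IsInt v W) : h.model.map v.integer.subtype = W := rfl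

lemma IsInt.coeff_preΨ' (h : IsInt v W) (n i : ℕ) : v ((W.preΨ' n).coeff i) ≤ 1 := by
  have e : W.preΨ' n = (h.model.preΨ' n).map v.integer.subtype := by
    conv_lhs => rw [← h.map_model, WeierstrassCurve.map_preΨ']
  rw [e, coeff_map]
  exact ((h.model.preΨ' n).coeff i).2

lemma val_le_one_of_root {f : K[X]} (hf : ∀ i, v (f.coeff i) ≤ 1) {d : ℕ} (hd : f.natDegree ≤ d)
    (hlead : v (f.coeff d) = 1) {x : K} (hx : f.eval x = 0) : v x ≤ 1 := by
  by_contra hgt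
  push Not at hgt
  rw [eval_eq_sum_range' (Nat.lt_succ_of_le hd), Finset.sum_range_succ] at hx
  have h1 : v (∑ i ∈ Finset.range d, f.coeff i * x ^ i) < v (f.coeff d * x ^ d) := by
    rw [map_mul, hlead, one_mul, map_pow]
    refine v.map_sum_lt (pow_ne_zero _ (zero_lt_one.trans hgt).ne') fun i hi => ?_
    rw [map_mul, map_pow]
    refine lt_of_le_of_lt (mul_le_of_le_one_left' (hf i)) ?_
    exact pow_lt_pow_right₀ hgt (Finset.mem_range.mp hi)
  have h2 := Valuation.map_add_eq_of_lt_right v h1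
  rw [hx, map_zero] at h2
  rw [← h2] at h1
  exact absurd h1 (not_lt.mpr zero_le)

variable [DecidableEq K]

/-- Torsion points of order prime to the residue characteristic are integral. -/
theorem IsInt.torsion_integral (h : IsInt v W) {n : ℕ} (hn : Odd n) (hvn : v (n : K) = 1)
    {x y : K} (hP : W.toAffine.Nonsingular x y)
    (hn0 : n • (Point.some x y hP : W.toAffine.Point) = 0) : v x ≤ 1 := by
  rw [smul_some_eq_zero_iff_of_odd hP hn] at hn0
  refine val_le_one_of_root (h.coeff_preΨ' n) (W.natDegree_preΨ'_le n) ?_ hn0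
  rw [WeierstrassCurve.coeff_preΨ', if_neg (Nat.not_even_iff_odd.mpr hn)]
  exact hvn

omit [DecidableEq K] in
lemma IsInt.y_integral (h : IsInt v W) {x y : K} (hE : W.toAffine.Equation x y) (hx : v x ≤ 1) :
    v y ≤ 1 := by
  rw [equation_iff] at hE
  by_contra hgt
  push Not at hgt
  have h1 : v (y ^ 2 + W.a₁ * x * y + W.a₃ * y) = v y ^ 2 := by
    have e : y ^ 2 + W.a₁ * x * y + W.a₃ * y = y ^ 2 + (W.a₁ * x + W.a₃) * y := by ring
    rw [e, Valuation.map_add_eq_of_lt_left, map_pow]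
    rw [map_mul, map_pow, sq]
    refine lt_of_le_of_lt (mul_le_of_le_one_left' (v.map_add_le ?_ h.a₃)) ?_
    · rw [map_mul]; exact mul_le_one' h.a₁ hx
    · exact lt_mul_of_one_lt_left (zero_lt_one.trans hgt) hgt
  have h2 : v (x ^ 3 + W.a₂ * x ^ 2 + W.a₄ * x + W.a₆) ≤ 1 := by
    refine v.map_add_le (v.map_add_le (v.map_add_le ?_ ?_) ?_) h.a₆
    · rw [map_pow]; exact pow_le_one' hx 3
    · rw [map_mul, map_pow]; exact mul_le_one' h.a₂ (pow_le_one' hx 2)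
    · rw [map_mul]; exact mul_le_one' h.a₄ hx
  rw [← hE, h1] at h2
  exact absurd h2 (not_le.mpr (one_lt_pow₀ hgt two_ne_zero))

omit [DecidableEq K] in
lemma IsInt.one_le_of_Δ (h : IsInt v W) (hΔ : v W.Δ = 1) {x y : K}
    (hE : W.toAffine.Equation x y) (hx : v x ≤ 1)
    (h3 : v (2 * y + W.a₁ * x + W.a₃) < 1)
    (h4 : v (3 * x ^ 2 + 2 * W.a₂ * x + W.a₄ - W.a₁ * y) < 1) : False := by
  have hn : ∀ n : ℕ, v (n : K) ≤ 1 := fun n => by
    have : (n : K) ∈ v.integer := natCast_mem _ n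
    exact this
  have hn' : ∀ n : ℕ, v (OfNat.ofNat (n + 2) : K) ≤ 1 := fun n => by
    have := hn (n + 2)
    exact_mod_cast this
  rw [equation_iff] at hE
  set A3 := 2 * y + W.a₁ * x + W.a₃ with hA3
  set A4 := 3 * x ^ 2 + 2 * W.a₂ * x + W.a₄ - W.a₁ * y with hA4
  set A2 := W.a₂ + 3 * x with hA2
  set B2 := W.a₁ ^ 2 + 4 * A2 with hB2
  set B4 := 2 * A4 + W.a₁ * A3 with hB4
  set B8 := (- W.a₁ * A4 + A2 * A3) * A3 - A4 ^ 2 with hB8
  have vA2 : v A2 ≤ 1 := by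
    refine v.map_add_le h.a₂ ?_
    rw [map_mul]; exact mul_le_one' (hn' 1) hx
  have vB2 : v B2 ≤ 1 := by
    refine v.map_add_le ?_ ?_
    · rw [map_pow]; exact pow_le_one' h.a₁ 2
    · rw [map_mul]; exact mul_le_one' (hn' 2) vA2
  have vB4 : v B4 < 1 := by
    refine v.map_add_lt ?_ ?_
    · rw [map_mul]; exact lt_of_le_of_lt (mul_le_of_le_one_left' (hn' 0)) h4
    · rw [map_mul]; exact lt_of_le_of_lt (mul_le_of_le_one_left' h.a₁) h3
  have vB8 : v B8 < 1 := by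
    refine v.map_sub_lt ?_ ?_
    · rw [map_mul]
      refine lt_of_le_of_lt (mul_le_of_le_one_left' (v.map_add_le ?_ ?_)) h3
      · rw [map_mul, Valuation.map_neg]; exact mul_le_one' h.a₁ h4.le
      · rw [map_mul]; exact mul_le_one' vA2 h3.le
    · rw [map_pow]; exact pow_lt_one₀ zero_le h4 two_ne_zero
  have key : W.Δ = -B2 ^ 2 * B8 + (- 8 * B4 ^ 2) * B4 + (- 27 * A3 ^ 3 + 9 * B2 * B4 * A3) * A3 := by
    simp only [WeierstrassCurve.Δ, WeierstrassCurve.b₂, WeierstrassCurve.b₄, WeierstrassCurve.b₆,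
      WeierstrassCurve.b₈]
    rw [hB8, hB4, hB2, hA2, hA4, hA3]
    linear_combination (-(-(W.a₁ ^ 2 + 4 * (W.a₂ + 3 * x)) ^ 3
      - 216 * (2 * y + W.a₁ * x + W.a₃) ^ 2
      - 432 * (x ^ 3 + W.a₂ * x ^ 2 + W.a₄ * x + W.a₆ - (y ^ 2 + W.a₁ * x * y + W.a₃ * y))
      + 36 * (W.a₁ ^ 2 + 4 * (W.a₂ + 3 * x)) * (2 * (3 * x ^ 2 + 2 * W.a₂ * x + W.a₄ - W.a₁ * y)
        + W.a₁ * (2 * y + W.a₁ * x + W.a₃)))) * hE
  have : v W.Δ < 1 := by
    rw [key]
    refine v.map_add_lt (v.map_add_lt ?_ ?_) ?_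
    · rw [map_mul, Valuation.map_neg, map_pow]
      exact lt_of_le_of_lt (mul_le_of_le_one_left' (pow_le_one' vB2 2)) vB8
    · rw [map_mul]
      refine lt_of_le_of_lt (mul_le_of_le_one_left' ?_) vB4
      rw [map_mul, Valuation.map_neg, map_pow]
      exact mul_le_one' (hn' 6) (pow_le_one' vB4.le 2)
    · rw [map_mul]
      refine lt_of_le_of_lt (mul_le_of_le_one_left' (v.map_add_le ?_ ?_)) h3
      · rw [map_mul, Valuation.map_neg, map_pow]
        exact mul_le_one' (hn' 25) (pow_le_one' h3.le 3)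
      · rw [map_mul, map_mul, map_mul]
        exact mul_le_one' (mul_le_one' (mul_le_one' (hn' 7) vB2) vB4.le) h3.le
  rw [hΔ] at this
  exact lt_irrefl _ this

omit [DecidableEq K] in
lemma IsInt.one_lt_addX (h : IsInt v W) {x₁ x₂ ℓ : K} (hx₁ : v x₁ ≤ 1) (hx₂ : v x₂ ≤ 1)
    (hℓ : 1 < v ℓ) : 1 < v (W.toAffine.addX x₁ x₂ ℓ) := by
  rw [addX]
  have e : ℓ ^ 2 + W.a₁ * ℓ - W.a₂ - x₁ - x₂ = ℓ ^ 2 + (W.a₁ * ℓ - W.a₂ - x₁ - x₂) := by ring
  rw [e, Valuation.map_add_eq_of_lt_left, map_pow]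
  · exact one_lt_pow₀ hℓ two_ne_zero
  · have h1 : v (W.a₁ * ℓ - W.a₂ - x₁ - x₂) ≤ v ℓ := by
      refine v.map_sub_le (v.map_sub_le (v.map_sub_le ?_ (h.a₂.trans hℓ.le)) (hx₁.trans hℓ.le))
        (hx₂.trans hℓ.le)
      rw [map_mul]
      exact mul_le_of_le_one_left' h.a₁
    refine h1.trans_lt ?_
    rw [map_pow, sq]
    exact lt_mul_of_one_lt_left (zero_lt_one.trans hℓ) hℓ

omit [DecidableEq K] in
lemma one_lt_div {a b : K} (ha : v a = 1) (hb : v b < 1) (hb0 : b ≠ 0) : 1 < v (a / b) := by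
  rw [map_div₀, ha, one_div]
  exact (one_lt_inv₀ (v.pos_iff.mpr hb0)).mpr hb

/-- Congruent integral points on a curve with good reduction: the difference reduces to zero. -/
lemma IsInt.sub_reduces (h : IsInt v W) (hΔ : v W.Δ = 1) {x₁ y₁ x₂ y₂ : K}
    (h₁ : W.toAffine.Nonsingular x₁ y₁) (h₂ : W.toAffine.Nonsingular x₂ y₂) (hx₁ : v x₁ ≤ 1)
    (hx : v (x₂ - x₁) < 1) (hy : v (y₂ - y₁) < 1) :
    (Point.some x₂ y₂ h₂ : W.toAffine.Point) - Point.some x₁ y₁ h₁ = 0 ∨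
    ∃ x y h', (Point.some x₂ y₂ h₂ : W.toAffine.Point) - Point.some x₁ y₁ h₁ = Point.some x y h' ∧
      1 < v x := by
  have hn : ∀ n : ℕ, v (n : K) ≤ 1 := fun n => by
    have : (n : K) ∈ v.integer := natCast_mem _ n
    exact this
  have hn' : ∀ n : ℕ, v (OfNat.ofNat (n + 2) : K) ≤ 1 := fun n => by
    have := hn (n + 2)
    exact_mod_cast this
  have hy₁ := h.y_integral h₁.1 hx₁
  have hx₂ : v x₂ ≤ 1 := by
    have e : x₂ = (x₂ - x₁) + x₁ := by ring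
    rw [e]; exact v.map_add_le hx.le hx₁
  have hy₂ : v y₂ ≤ 1 := by
    have e : y₂ = (y₂ - y₁) + y₁ := by ring
    rw [e]; exact v.map_add_le hy.le hy₁
  rw [sub_eq_add_neg, Point.neg_some]
  have hn1 := (nonsingular_neg (W' := W.toAffine) x₁ y₁).mpr h₁
  by_cases hxy : x₂ = x₁ ∧ y₂ = W.toAffine.negY x₁ (W.toAffine.negY x₁ y₁)
  · left
    exact Point.add_of_Y_eq hxy.1 hxy.2
  right
  refine ⟨_, _, _, Point.add_some hxy, ?_⟩
  refine h.one_lt_addX hx₂ hx₁ ?_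
  have hE₁ := h₁.1
  have hE₂ := h₂.1
  rw [equation_iff] at hE₁ hE₂
  rw [negY_negY] at hxy
  set A3 := 2 * y₁ + W.a₁ * x₁ + W.a₃ with hA3
  set A4 := 3 * x₁ ^ 2 + 2 * W.a₂ * x₁ + W.a₄ - W.a₁ * y₁ with hA4
  have vA3 : v A3 ≤ 1 := by
    refine v.map_add_le (v.map_add_le ?_ ?_) h.a₃
    · rw [map_mul]; exact mul_le_one' (hn' 0) hy₁
    · rw [map_mul]; exact mul_le_one' h.a₁ hx₁
  have vA4 : v A4 ≤ 1 := by
    refine v.map_sub_le (v.map_add_le (v.map_add_le ?_ ?_) h.a₄) ?_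
    · rw [map_mul, map_pow]; exact mul_le_one' (hn' 1) (pow_le_one' hx₁ 2)
    · rw [map_mul, map_mul]; exact mul_le_one' (mul_le_one' (hn' 0) h.a₂) hx₁
    · rw [map_mul]; exact mul_le_one' h.a₁ hy₁
  by_cases hxx : x₂ = x₁
  · -- same x coordinate
    subst hxx
    have hyn : y₂ ≠ W.toAffine.negY x₂ (W.toAffine.negY x₂ y₁) := by
      rw [negY_negY]
      exact fun h => hxy ⟨rfl, h⟩
    have hyy : y₂ = W.toAffine.negY x₂ y₁ :=
      Y_eq_of_Y_ne h₂.1 hn1.1 rfl hyn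
    have hA3' : A3 = -(y₂ - y₁) := by
      rw [hyy, negY, hA3]; ring
    have h3' : v A3 < 1 := by
      rw [hA3', Valuation.map_neg]; exact hy
    have h4 : v A4 = 1 := by
      by_contra hne
      exact h.one_le_of_Δ hΔ h₁.1 hx₁ h3' (lt_of_le_of_ne vA4 hne)
    have hy0 : y₂ - y₁ ≠ 0 := by
      intro h0
      exact hxy ⟨rfl, sub_eq_zero.mp h0⟩
    have hden : y₂ - W.toAffine.negY x₂ y₂ = y₂ - y₁ := by
      rw [hyy, negY_negY]
    have hyn2 : y₂ ≠ W.toAffine.negY x₂ (W.toAffine.negY x₂ y₁) := hyn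
    rw [← hyy] at hyn2 ⊢
    rw [slope_of_Y_ne rfl hyn2, hden]
    apply one_lt_div _ hy hy0
    have e : 3 * x₂ ^ 2 + 2 * W.a₂ * x₂ + W.a₄ - W.a₁ * y₂ = A4 - W.a₁ * (y₂ - y₁) := by
      rw [hA4]; ring
    rw [e, Valuation.map_sub_eq_of_lt_left, h4]
    rw [h4, map_mul]
    exact lt_of_le_of_lt (mul_le_of_le_one_left' h.a₁) hy
  · rw [slope_of_X_ne hxx]
    have e1 : y₂ - W.toAffine.negY x₁ y₁ = A3 + (y₂ - y₁) := by
      rw [negY, hA3]; ring
    by_cases h3 : v A3 = 1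
    · apply one_lt_div _ hx (sub_ne_zero.mpr hxx)
      rw [e1, Valuation.map_add_eq_of_lt_left _ (by rw [h3]; exact hy), h3]
    · have h3' : v A3 < 1 := lt_of_le_of_ne vA3 h3
      have h4 : v A4 = 1 := by
        by_contra hne
        exact h.one_le_of_Δ hΔ h₁.1 hx₁ h3' (lt_of_le_of_ne vA4 hne)
      set N := x₁ ^ 2 + x₁ * x₂ + x₂ ^ 2 + W.a₂ * (x₁ + x₂) + W.a₄ - W.a₁ * y₂ with hN
      have e2 : (y₂ - y₁) * (y₂ - W.toAffine.negY x₁ y₁) = (x₂ - x₁) * N := by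
        rw [negY, hN]
        linear_combination hE₂ - hE₁
      have e3 : N = A4 + ((x₂ - x₁) * (x₂ - x₁ + 3 * x₁ + W.a₂) - W.a₁ * (y₂ - y₁)) := by
        rw [hN, hA4]; ring
      have vN : v N = 1 := by
        rw [e3, Valuation.map_add_eq_of_lt_left, h4]
        rw [h4]
        refine v.map_sub_lt ?_ ?_
        · rw [map_mul]
          refine lt_of_le_of_lt (mul_le_of_le_one_right' ?_) hx
          refine v.map_add_le (v.map_add_le hx.le ?_) h.a₂
          rw [map_mul]; exact mul_le_one' (hn' 1) hx₁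
        · rw [map_mul]
          exact lt_of_le_of_lt (mul_le_of_le_one_left' h.a₁) hy
      have hN0 : N ≠ 0 := by
        intro h0; rw [h0, map_zero] at vN; exact zero_ne_one vN
      have hy0 : y₂ - y₁ ≠ 0 := by
        intro h0
        rw [h0, zero_mul] at e2
        exact mul_ne_zero (sub_ne_zero.mpr hxx) hN0 e2.symm
      have e4 : (y₂ - W.toAffine.negY x₁ y₁) / (x₂ - x₁) = N / (y₂ - y₁) := by
        rw [div_eq_div_iff (sub_ne_zero.mpr hxx) hy0]
        linear_combination e2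
      rw [e4]
      exact one_lt_div vN hy hy0

end Fermat.Agent.EC
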