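import Fermat.Agent.EC.MultRed
import Fermat.Agent.EC.IntTorsion
import Fermat.Prelude.Def_FLTPrelim_Ramification
import Mathlib.FieldTheory.IsAlgClosed.Basic

/-!
# Inertia acting on torsion points
-/

set_option autoImplicit false
set_option linter.unusedSectionVars false

namespace Fermat.Agent.EC

open WeierstrassCurve WeierstrassCurve.Affine WeierstrassCurve.Affine.Point

variable {F K : Type*} [Field F] [Field K] [Algebra F K] {Γ₀ : Type*}
  [LinearOrderedCommGroupWithZero Γ₀]

/-- `τ` preserves `v` and acts trivially on the residue field. -/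
structure IsInert (v : Valuation K Γ₀) (τ : K ≃ₐ[F] K) : Prop where
  map_eq : ∀ x, v (τ x) = v x
  sub_lt : ∀ x, v x ≤ 1 → v (τ x - x) < 1

section

variable (W : Affine F)

@[simp] lemma baseChange_a₁ : (W⁄K).a₁ = algebraMap F K W.a₁ := rfl
@[simp] lemma baseChange_a₂ : (W⁄K).a₂ = algebraMap F K W.a₂ := rfl
@[simp] lemma baseChange_a₃ : (W⁄K).a₃ = algebraMap F K W.a₃ := rfl
@[simp] lemma baseChange_a₄ : (W⁄K).a₄ = algebraMap F K W.a₄ := rfl
@[simp] lemma baseChange_a₆ : (W⁄K).a₆ = algebraMap F K W.a₆ := rfl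

lemma tA2_baseChange (r : F) : tA2 (W⁄K) (algebraMap F K r) = algebraMap F K (tA2 W r) := by
  simp only [tA2, baseChange_a₂, map_add, map_mul, map_ofNat]

lemma tA4_baseChange (r t : F) :
    tA4 (W⁄K) (algebraMap F K r) (algebraMap F K t) = algebraMap F K (tA4 W r t) := by
  simp only [tA4, baseChange_a₂, baseChange_a₁, baseChange_a₄, map_add, map_sub, map_mul, map_ofNat,
    map_pow]

lemma map_sl (τ : K ≃ₐ[F] K) (r t : F) (x y : K) :
    τ (sl (algebraMap F K r) (algebraMap F K t) x y) =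
      sl (algebraMap F K r) (algebraMap F K t) (τ x) (τ y) := by
  simp [sl]

variable [DecidableEq K]

omit [DecidableEq K] in
lemma nonsingular_map {W : Affine F} (τ : K ≃ₐ[F] K) {x y : K}
    (h : (W⁄K).Nonsingular x y) : (W⁄K).Nonsingular (τ x) (τ y) :=
  (W.baseChange_nonsingular (f := τ.toAlgHom) τ.injective x y).mpr h

lemma smul_some {W : Affine F} (τ : K ≃ₐ[F] K) {x y : K}
    (h : (W⁄K).Nonsingular x y) :
    τ • (Point.some x y h : (W⁄K).Point) = Point.some (τ x) (τ y) (nonsingular_map τ h) := rfl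

end

variable {W : Affine F} {v : Valuation K Γ₀} {τ : K ≃ₐ[F] K} {r t : F}
variable [DecidableEq K]

lemma IsInert.sub_mem_E1 (hτ : IsInert v τ)
    (M : IntT v (W⁄K) (algebraMap F K r) (algebraMap F K t))
    (hm : v (tA4 (W⁄K) (algebraMap F K r) (algebraMap F K t)) < 1) {P : (W⁄K).Point}
    (hP : P ∈ M.E0 hm) : τ • P - P ∈ M.E1 := by
  rcases P with _ | ⟨x, y, h⟩
  · change τ • (0 : (W⁄K).Point) - 0 ∈ _
    rw [smul_zero, sub_zero]; exact zero_mem _
  rw [M.mem_E0_some] at hP
  have hxr : x ≠ algebraMap F K r := M.ne_of_one_le hP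
  have hτx : v (τ x - algebraMap F K r) = v (x - algebraMap F K r) := by
    rw [← hτ.map_eq (x - algebraMap F K r), map_sub τ, AlgEquiv.commutes]
  rcases hP.lt_or_eq with hlt | heq
  · refine sub_mem ?_ ((M.mem_E1_some h).2 hlt)
    rw [smul_some, M.mem_E1_some, hτx]
    exact hlt
  have hs := M.sq_sl_le h.1 hP
  rw [← heq] at hs
  have hs1 : v (sl (algebraMap F K r) (algebraMap F K t) x y) ≤ 1 := by
    by_contra hgt
    push Not at hgt
    exact absurd hs (not_le.mpr (one_lt_pow₀ hgt two_ne_zero))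
  have hτxr : τ x ≠ algebraMap F K r := by
    apply M.ne_of_one_le
    rw [hτx]; exact hP
  rw [sub_eq_add_neg, smul_some, Point.neg_some]
  have hτn := nonsingular_map τ h
  have hn := (nonsingular_neg (W' := W⁄K) x y).mpr h
  by_cases hxy : τ x = x ∧ τ y = (W⁄K).negY x ((W⁄K).negY x y)
  · rw [Point.add_of_Y_eq hxy.1 hxy.2]
    exact zero_mem _
  rw [Point.add_some hxy, M.mem_E1_some]
  have hA := M.toTModel.sumA hτn.1 hn.1 hτxr hxr hxy
  have hw : sl (algebraMap F K r) (algebraMap F K t) (τ x) (τ y) +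
      sl (algebraMap F K r) (algebraMap F K t) x ((W⁄K).negY x y) + (W⁄K).a₁ =
      τ (sl (algebraMap F K r) (algebraMap F K t) x y) -
        sl (algebraMap F K r) (algebraMap F K t) x y := by
    have := M.toTModel.sl_neg (y := y) hxr
    rw [map_sl]
    linear_combination this
  have hw1 := hτ.sub_lt _ hs1
  rw [← hw] at hw1
  have hAv := congrArg v hA
  have hD : v ((τ x - algebraMap F K r) * (x - algebraMap F K r) -
      tA4 (W⁄K) (algebraMap F K r) (algebraMap F K t)) = 1 := by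
    rw [Valuation.map_sub_eq_of_lt_left, map_mul, hτx, ← heq, one_mul]
    rw [map_mul, hτx, ← heq, one_mul]
    exact hm
  rw [map_mul, map_mul, map_mul, map_pow, map_pow, hτx, ← heq, one_mul, mul_one, hD, one_pow] at hAv
  by_contra hle
  push Not at hle
  have h1 : v (sl (algebraMap F K r) (algebraMap F K t) (τ x) (τ y) +
      sl (algebraMap F K r) (algebraMap F K t) x ((W⁄K).negY x y) + (W⁄K).a₁) ^ 2 < 1 :=
    pow_lt_one₀ zero_le hw1 two_ne_zero
  have h2 := lt_of_le_of_lt (mul_le_of_le_one_left' hle) h1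
  rw [hAv] at h2
  exact lt_irrefl _ h2

lemma nsmul_smul_sub {p : ℕ} {P : (W⁄K).Point} (hP : p • P = 0) (τ : K ≃ₐ[F] K) :
    p • (τ • P - P) = 0 := by
  rw [smul_sub, hP, sub_zero]
  have : τ • (p • P) = p • (τ • P) := by
    have := algEquiv_smul_zsmul τ (p : ℤ) P
    rwa [natCast_zsmul, natCast_zsmul] at this
  rw [← this, hP, smul_zero]

lemma eq_zero_of_mem_E1 (M : IntT v (W⁄K) (algebraMap F K r) (algebraMap F K t))
    (hI : IsInt v (W⁄K)) {p : ℕ} (hp : Odd p) (hvp : v (p : K) = 1) {P : (W⁄K).Point}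
    (hP : p • P = 0) (hP1 : P ∈ M.E1) : P = 0 := by
  rcases P with _ | ⟨x, y, h⟩
  · rfl
  · exfalso
    have h1 := hI.torsion_integral hp hvp h hP
    rw [M.mem_E1_some' h] at hP1
    exact absurd h1 (not_le.mpr hP1)

/-- Good reduction: inertia acts trivially on the `p`-torsion. -/
theorem IsInert.fix_good (hτ : IsInert v τ) (hI : IsInt v (W⁄K)) (hΔ : v (W⁄K).Δ = 1)
    {p : ℕ} (hp : Odd p) (hvp : v (p : K) = 1) {P : (W⁄K).Point} (hP : p • P = 0) :
    τ • P = P := by
  rcases P with _ | ⟨x, y, h⟩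
  · exact smul_zero _
  have hx := hI.torsion_integral hp hvp h hP
  have hy := hI.y_integral h.1 hx
  rcases hI.sub_reduces hΔ h (nonsingular_map τ h) hx (hτ.sub_lt x hx) (hτ.sub_lt y hy) with
    h0 | ⟨x', y', h', he, hx'⟩
  · exact sub_eq_zero.mp h0
  · exfalso
    have := nsmul_smul_sub hP τ
    rw [smul_some, he] at this
    exact absurd (hI.torsion_integral hp hvp h' this) (not_le.mpr hx')

/-- Inertia preserves the branches. -/
lemma IsInert.inD (hτ : IsInert v τ) {tp tm : K}
    (M : MultT v (W⁄K) (algebraMap F K r) (algebraMap F K t) tp tm) {x y : K}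
    {h : (W⁄K).Nonsingular x y}
    (D : InD v (W⁄K) (algebraMap F K r) (algebraMap F K t) tp (Point.some x y h)) :
    InD v (W⁄K) (algebraMap F K r) (algebraMap F K t) tp
      (Point.some (τ x) (τ y) (nonsingular_map τ h)) := by
  obtain ⟨x', y', h', he, a1, a2, a3⟩ := D
  rw [Point.some.injEq] at he
  obtain ⟨rfl, rfl⟩ := he
  have hτx : v (τ x - algebraMap F K r) = v (x - algebraMap F K r) := by
    rw [← hτ.map_eq (x - algebraMap F K r), map_sub τ, AlgEquiv.commutes]
  refine ⟨_, _, _, rfl, ?_, ?_, ?_⟩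
  · rw [hτx]; exact a1
  · rw [hτx]; exact a2
  · have e : sl (algebraMap F K r) (algebraMap F K t) (τ x) (τ y) - tp =
        (τ (sl (algebraMap F K r) (algebraMap F K t) x y) -
          sl (algebraMap F K r) (algebraMap F K t) x y) +
        (sl (algebraMap F K r) (algebraMap F K t) x y - tp) := by
      rw [map_sl]; ring
    rw [e]
    refine v.map_add_lt (hτ.sub_lt _ ?_) a3
    have e2 : sl (algebraMap F K r) (algebraMap F K t) x y =
        (sl (algebraMap F K r) (algebraMap F K t) x y - tp) + tp := by ring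
    rw [e2]
    exact v.map_add_le a3.le M.vtp

/-- For every torsion point of odd prime order, `τ P - P` has nonsingular reduction. -/
lemma IsInert.sub_mem_E0 (hτ : IsInert v τ) {tp tm : K}
    (M : MultT v (W⁄K) (algebraMap F K r) (algebraMap F K t) tp tm) {p : ℕ} (hp : p.Prime)
    (hp2 : p ≠ 2) {P : (W⁄K).Point} (hP : p • P = 0) :
    τ • P - P ∈ M.toIntT.E0 M.hm := by
  by_cases hP0 : P ∈ M.toIntT.E0 M.hm
  · exact M.toIntT.E1_le_E0 M.hm (hτ.sub_mem_E1 M.toIntT M.hm hP0)
  rcases P with _ | ⟨x, y, h⟩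
  · exact absurd (zero_mem _) hP0
  have hτx : v (τ x - algebraMap F K r) = v (x - algebraMap F K r) := by
    rw [← hτ.map_eq (x - algebraMap F K r), map_sub τ, AlgEquiv.commutes]
  rcases M.multiples hp hp2 hP hP0 1 with h0 | h0 | h0
  · rw [one_nsmul] at h0
    exact absurd h0 (Point.some_ne_zero _)
  · rw [one_nsmul] at h0
    have D1 := hτ.inD M h0
    have D2 := M.neg_inD h0
    rw [smul_some, sub_eq_add_neg, Point.neg_some]
    rw [Point.neg_some] at D2
    exact M.opp_branch D1 D2 hτx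
  · rw [one_nsmul] at h0
    have D1 := hτ.inD M.swap h0
    have D2 := M.swap.neg_inD h0
    rw [smul_some, sub_eq_add_neg, Point.neg_some]
    rw [Point.neg_some] at D2
    exact M.swap.opp_branch D1 D2 hτx

lemma exists_point [IsAlgClosed K] (W : WeierstrassCurve K) (hΔ : W.Δ ≠ 0) (x : K) :
    ∃ y, W.toAffine.Nonsingular x y := by
  have hdeg : (yPoly W x).degree ≠ 0 := by
    rw [Polynomial.degree_eq_natDegree (yPoly_ne_zero x), yPoly_natDegree]
    decide
  obtain ⟨y, hy⟩ := IsAlgClosed.exists_root (yPoly W x) hdeg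
  refine ⟨y, ?_⟩
  rw [← equation_iff_nonsingular_of_Δ_ne_zero hΔ]
  exact (eval_yPoly x y).1 hy

/-- Reference points fixed by inertia. -/
lemma exists_ref [IsAlgClosed K] {tp tm : K}
    (M : MultT v (W⁄K) (algebraMap F K r) (algebraMap F K t) tp tm) (hΔ : (W⁄K).Δ ≠ 0)
    {x₀ : F} (h1 : v (tA4 (W⁄K) (algebraMap F K r) (algebraMap F K t)) < v (algebraMap F K x₀))
    (h2 : v (algebraMap F K x₀) < 1) :
    ∃ y, ∃ h : (W⁄K).Nonsingular (algebraMap F K (r + x₀)) y,
      InD v (W⁄K) (algebraMap F K r) (algebraMap F K t) tp (Point.some _ y h) ∧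
      ∀ τ : K ≃ₐ[F] K, IsInert v τ →
        τ • (Point.some _ y h : (W⁄K).Point) = Point.some _ y h := by
  have hx : v (algebraMap F K (r + x₀) - algebraMap F K r) = v (algebraMap F K x₀) := by
    rw [map_add (algebraMap F K), add_sub_cancel_left]
  have key : ∀ y, ∀ h : (W⁄K).Nonsingular (algebraMap F K (r + x₀)) y,
      InD v (W⁄K) (algebraMap F K r) (algebraMap F K t) tp (Point.some _ y h) →
      ∀ τ : K ≃ₐ[F] K, IsInert v τ →
        τ • (Point.some _ y h : (W⁄K).Point) = Point.some _ y h := by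
    intro y h D τ hτ
    have D1 := hτ.inD M D
    rw [smul_some]
    rw [Point.some.injEq]
    refine ⟨AlgEquiv.commutes _ _, ?_⟩
    have hτn := nonsingular_map τ h
    rcases Y_eq_of_X_eq hτn.1 h.1 (AlgEquiv.commutes _ _) with h3 | h3
    · exact h3
    · exfalso
      have D2 := M.neg_inD D
      have e : (-Point.some _ y h : (W⁄K).Point) = Point.some _ _ hτn := by
        rw [Point.neg_some, Point.some.injEq]
        exact ⟨(AlgEquiv.commutes _ _).symm, h3.symm⟩
      have e' : (-Point.some _ y h : (toAffine W⁄K).Point) = Point.some _ _ hτn := e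
      rw [e'] at D2
      exact M.not_both D1 D2
  obtain ⟨y, h⟩ := exists_point (W⁄K) hΔ (algebraMap F K (r + x₀))
  rcases M.inD_or h (by rw [hx]; exact h1) (by rw [hx]; exact h2) with D | D
  · exact ⟨y, h, D, key y h D⟩
  · have D' := M.swap.neg_inD D
    rw [Point.neg_some] at D'
    exact ⟨_, _, D', key _ _ D'⟩

/-- Multiplicative reduction, discriminant a `p`-th power up to units: inertia acts trivially on
the `p`-torsion: case of points on the branch `tp`. -/
theorem IsInert.fix_branch [IsAlgClosed K] (hτ : IsInert v τ) {tp tm : K}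
    (M : MultT v (W⁄K) (algebraMap F K r) (algebraMap F K t) tp tm) (hI : IsInt v (W⁄K))
    (hΔ : (W⁄K).Δ ≠ 0) {p : ℕ} (hp : p.Prime) (hp2 : p ≠ 2) (hvp : v (p : K) = 1) {g : F}
    (hg : v (tA4 (W⁄K) (algebraMap F K r) (algebraMap F K t)) = v (algebraMap F K g) ^ p)
    {x y : K} {h : (W⁄K).Nonsingular x y} (hP : p • (Point.some x y h : (W⁄K).Point) = 0)
    (D : InD v (W⁄K) (algebraMap F K r) (algebraMap F K t) tp (Point.some x y h)) :
    τ • (Point.some x y h : (W⁄K).Point) = Point.some x y h := by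
  have hodd : Odd p := hp.odd_of_ne_two hp2
  obtain ⟨k, hk⟩ := M.class_prime hp hp2 hP D
  have hg0 : v (algebraMap F K g) ≠ 0 := by
    intro h0
    rw [h0, zero_pow hp.ne_zero] at hg
    exact M.m_pos.ne' hg
  have hxg : v (x - algebraMap F K r) = v (algebraMap F K (g ^ (2 * k))) := by
    have e1 : (v (algebraMap F K (g ^ (2 * k)))) ^ p = v (x - algebraMap F K r) ^ p := by
      rw [hk, hg, map_zpow₀, map_zpow₀, ← pow_mul, ← zpow_natCast, ← zpow_natCast, ← zpow_mul,
        ← zpow_mul]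
      congr 1
      push_cast
      ring
    exact ((pow_left_inj₀ zero_le zero_le hp.ne_zero).mp e1).symm
  obtain ⟨x', y', h', he, a1, a2, a3⟩ := D
  have D : InD v (W⁄K) (algebraMap F K r) (algebraMap F K t) tp (Point.some x' y' h') :=
    ⟨x', y', h', rfl, a1, a2, a3⟩
  rw [Point.some.injEq] at he
  obtain ⟨rfl, rfl⟩ := he
  obtain ⟨y₀, h₀, D₀, hR⟩ := exists_ref M hΔ (x₀ := g ^ (2 * k)) (by rw [← hxg]; exact a1)
    (by rw [← hxg]; exact a2)
  have Dn := M.neg_inD D₀
  rw [Point.neg_some] at Dn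
  have hS : (Point.some x y h : (W⁄K).Point) - Point.some _ y₀ h₀ ∈ M.toIntT.E0 M.hm := by
    rw [sub_eq_add_neg, Point.neg_some]
    refine M.opp_branch D Dn ?_
    rw [hxg, map_add (algebraMap F K), add_sub_cancel_left]
  have h1 := hτ.sub_mem_E1 M.toIntT M.hm hS
  rw [smul_sub, hR τ hτ, sub_sub_sub_cancel_right] at h1
  exact sub_eq_zero.mp (eq_zero_of_mem_E1 M.toIntT hI hodd hvp (nsmul_smul_sub hP τ) h1)

/-- Multiplicative reduction, discriminant a `p`-th power up to units: inertia acts trivially on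
the `p`-torsion. -/
theorem IsInert.fix_mult [IsAlgClosed K] (hτ : IsInert v τ) {tp tm : K}
    (M : MultT v (W⁄K) (algebraMap F K r) (algebraMap F K t) tp tm) (hI : IsInt v (W⁄K))
    (hΔ : (W⁄K).Δ ≠ 0) {p : ℕ} (hp : p.Prime) (hp2 : p ≠ 2) (hvp : v (p : K) = 1) {g : F}
    (hg : v (tA4 (W⁄K) (algebraMap F K r) (algebraMap F K t)) = v (algebraMap F K g) ^ p)
    {P : (W⁄K).Point} (hP : p • P = 0) : τ • P = P := by
  have hodd : Odd p := hp.odd_of_ne_two hp2
  by_cases hP0 : P ∈ M.toIntT.E0 M.hm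
  · have h1 := hτ.sub_mem_E1 M.toIntT M.hm hP0
    exact sub_eq_zero.mp (eq_zero_of_mem_E1 M.toIntT hI hodd hvp (nsmul_smul_sub hP τ) h1)
  rcases P with _ | ⟨x, y, h⟩
  · exact absurd (zero_mem _) hP0
  rcases M.multiples hp hp2 hP hP0 1 with h0 | h0 | h0
  · rw [one_nsmul] at h0
    exact absurd h0 (Point.some_ne_zero _)
  · rw [one_nsmul] at h0
    exact hτ.fix_branch M hI hΔ hp hp2 hvp hg hP h0
  · rw [one_nsmul] at h0
    exact hτ.fix_branch M.swap hI hΔ hp hp2 hvp hg hP h0

end Fermat.Agent.EC
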