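import Fermat.Agent.EC.TVal

/-!
# Components of the special fibre in the multiplicative case
-/

set_option autoImplicit false
set_option linter.unusedSectionVars false

namespace Fermat.Agent.EC

open WeierstrassCurve WeierstrassCurve.Affine

variable {K : Type*} [Field K] {Γ₀ : Type*} [LinearOrderedCommGroupWithZero Γ₀]

/-- Multiplicative reduction with `T` reducing to the node; `tp`, `tm` are the slopes of the
tangent lines at the node. -/
structure MultT (v : Valuation K Γ₀) (W : WeierstrassCurve K) (r t tp tm : K) : Prop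
    extends IntT v W r t where
  hm : v (tA4 W r t) < 1
  hm0 : tA4 W r t ≠ 0
  hsum : tp + tm = - W.a₁
  hprod : tp * tm = - tA2 W r
  hdiff : v (tp - tm) = 1

namespace MultT

variable {v : Valuation K Γ₀} {W : WeierstrassCurve K} {r t tp tm : K}

lemma swap (M : MultT v W r t tp tm) : MultT v W r t tm tp where
  toIntT := M.toIntT
  hm := M.hm
  hm0 := M.hm0
  hsum := by rw [add_comm]; exact M.hsum
  hprod := by rw [mul_comm]; exact M.hprod
  hdiff := by rw [Valuation.map_sub_swap]; exact M.hdiff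

variable (M : MultT v W r t tp tm)
include M

lemma m_pos : 0 < v (tA4 W r t) := zero_lt_iff.mpr ((Valuation.ne_zero_iff _).mpr M.hm0)

lemma vtp : v tp ≤ 1 := by
  by_contra hcon
  push Not at hcon
  have h1 : tp * tp + W.a₁ * tp = tA2 W r := by
    linear_combination (-1) * M.hprod + tp * M.hsum
  have h2 : v (tp * tp + W.a₁ * tp) = v (tp * tp) := by
    rw [Valuation.map_add_eq_of_lt_left]
    rw [map_mul, map_mul]
    refine lt_of_le_of_lt (mul_le_of_le_one_left' M.va1) ?_
    exact lt_mul_of_one_lt_left (zero_lt_one.trans hcon) hcon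
  rw [h1, map_mul] at h2
  have := M.vA2
  rw [h2] at this
  exact absurd this (not_le.mpr (one_lt_mul_of_lt_of_le' hcon hcon.le))

lemma factor {x y : K} (h : W.toAffine.Equation x y) (hx : x ≠ r) :
    (sl r t x y - tp) * (sl r t x y - tm) = (x - r) + tA4 W r t / (x - r) := by
  have := M.toTModel.curve' h hx
  linear_combination this - (sl r t x y) * M.hsum + M.hprod

end MultT

/-- Points reducing to the node, on the branch with slope `tp`, and not too close to `T`. -/
def InD (v : Valuation K Γ₀) (W : WeierstrassCurve K) (r t tp : K) (P : W.toAffine.Point) : Prop :=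
  ∃ x y h, P = Point.some x y h ∧ v (tA4 W r t) < v (x - r) ∧ v (x - r) < 1 ∧
    v (sl r t x y - tp) < 1

namespace MultT

variable {v : Valuation K Γ₀} {W : WeierstrassCurve K} {r t tp tm : K}
  (M : MultT v W r t tp tm)
include M

lemma ne_of_lt {x : K} (hx : v (tA4 W r t) < v (x - r)) : x ≠ r := by
  rintro rfl
  rw [sub_self, map_zero] at hx
  exact absurd hx (not_lt.mpr zero_le)

lemma inD_or {x y : K} (h : W.toAffine.Nonsingular x y) (h1 : v (tA4 W r t) < v (x - r))
    (h2 : v (x - r) < 1) : InD v W r t tp (Point.some x y h) ∨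
      InD v W r t tm (Point.some x y h) := by
  have hx := M.ne_of_lt h1
  have f := M.factor h.1 hx
  have f2 : v ((sl r t x y - tp) * (sl r t x y - tm)) < 1 := by
    rw [f]
    refine v.map_add_lt h2 ?_
    rw [map_div₀]
    exact (div_lt_one₀ (M.m_pos.trans h1)).mpr h1
  rw [map_mul] at f2
  by_contra hcon
  push Not at hcon
  have c1 : 1 ≤ v (sl r t x y - tp) := by
    by_contra hlt; push Not at hlt
    exact hcon.1 ⟨x, y, h, rfl, h1, h2, hlt⟩
  have c2 : 1 ≤ v (sl r t x y - tm) := by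
    by_contra hlt; push Not at hlt
    exact hcon.2 ⟨x, y, h, rfl, h1, h2, hlt⟩
  exact absurd f2 (not_lt.mpr (one_le_mul c1 c2))

lemma not_both {P : W.toAffine.Point} (h1 : InD v W r t tp P) (h2 : InD v W r t tm P) : False := by
  obtain ⟨x, y, h, rfl, a1, a2, a3⟩ := h1
  obtain ⟨x', y', h', he, b1, b2, b3⟩ := h2
  rw [Point.some.injEq] at he
  obtain ⟨rfl, rfl⟩ := he
  have : v (tp - tm) < 1 := by
    have e : tp - tm = (sl r t x y - tm) - (sl r t x y - tp) := by ring
    rw [e]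
    exact v.map_sub_lt b3 a3
  rw [M.hdiff] at this
  exact lt_irrefl _ this

variable [DecidableEq K]

lemma neg_inD {P : W.toAffine.Point} (h1 : InD v W r t tp P) : InD v W r t tm (-P) := by
  obtain ⟨x, y, h, rfl, a1, a2, a3⟩ := h1
  refine ⟨x, W.toAffine.negY x y, _, Point.neg_some h, a1, a2, ?_⟩
  rw [M.toTModel.sl_neg (M.ne_of_lt a1)]
  have e : -sl r t x y - W.a₁ - tm = -(sl r t x y - tp) := by
    linear_combination (-1) * M.hsum
  rw [e, Valuation.map_neg]
  exact a3

lemma inD_not_mem_E0 {P : W.toAffine.Point} (h1 : InD v W r t tp P) : P ∉ M.toIntT.E0 M.hm := by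
  obtain ⟨x, y, h, rfl, a1, a2, a3⟩ := h1
  rw [M.toIntT.mem_E0_some]
  exact not_le.mpr a2

/-- Same branch: the sum. -/
lemma same_branch {x₁ y₁ x₂ y₂ : K} {h₁ : W.toAffine.Nonsingular x₁ y₁}
    {h₂ : W.toAffine.Nonsingular x₂ y₂}
    (D₁ : InD v W r t tp (Point.some x₁ y₁ h₁)) (D₂ : InD v W r t tp (Point.some x₂ y₂ h₂)) :
    ∃ x₃ y₃ h₃, (Point.some x₁ y₁ h₁ : W.toAffine.Point) + Point.some x₂ y₂ h₂ =
      Point.some x₃ y₃ h₃ ∧
      ((v (tA4 W r t) < v (x₁ - r) * v (x₂ - r) ∧ v (x₃ - r) = v (x₁ - r) * v (x₂ - r) ∧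
        InD v W r t tp (Point.some x₃ y₃ h₃)) ∨
       (v (x₁ - r) * v (x₂ - r) < v (tA4 W r t) ∧
        v (x₃ - r) * (v (x₁ - r) * v (x₂ - r)) = v (tA4 W r t) ^ 2 ∧
        InD v W r t tm (Point.some x₃ y₃ h₃)) ∨
       v (x₃ - r) ≤ v (tA4 W r t)) := by
  have D₁' := D₁
  have D₂' := D₂
  obtain ⟨x, y, h, he, a1, a2, a3⟩ := D₁
  rw [Point.some.injEq] at he
  obtain ⟨rfl, rfl⟩ := he
  obtain ⟨x, y, h', he, b1, b2, b3⟩ := D₂
  rw [Point.some.injEq] at he
  obtain ⟨rfl, rfl⟩ := he
  have hx₁ := M.ne_of_lt a1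
  have hx₂ := M.ne_of_lt b1
  have hxy : ¬ (x₁ = x₂ ∧ y₁ = W.toAffine.negY x₂ y₂) := by
    rintro ⟨hx, hy⟩
    have e : (Point.some x₁ y₁ h₁ : W.toAffine.Point) = - Point.some x₂ y₂ h₂ := by
      rw [Point.neg_some]; subst hx hy; rfl
    rw [e] at D₁'
    exact M.not_both D₁' (M.neg_inD D₂')
  have hA := M.toTModel.sumA h₁.1 h₂.1 hx₁ hx₂ hxy
  have hw : v (sl r t x₁ y₁ + sl r t x₂ y₂ + W.a₁) = 1 := by
    have e : sl r t x₁ y₁ + sl r t x₂ y₂ + W.a₁ =
        ((sl r t x₁ y₁ - tp) + (sl r t x₂ y₂ - tp)) + (tp - tm) := by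
      linear_combination M.hsum
    rw [e, Valuation.map_add_eq_of_lt_right, M.hdiff]
    rw [M.hdiff]
    exact v.map_add_lt a3 b3
  have hw0 : sl r t x₁ y₁ + sl r t x₂ y₂ + W.a₁ ≠ 0 := by
    intro h0; rw [h0, map_zero] at hw; exact zero_ne_one hw
  refine ⟨_, _, _, Point.add_some hxy, ?_⟩
  have hAv := congrArg v hA
  rw [map_mul, map_mul, map_pow, map_pow, hw, one_pow, mul_one, map_mul] at hAv
  have hξ₁ : v (x₁ - r) ≠ 0 := (M.m_pos.trans a1).ne'
  have hξ₂ : v (x₂ - r) ≠ 0 := (M.m_pos.trans b1).ne'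
  have hξ₁' : x₁ - r ≠ 0 := sub_ne_zero.mpr hx₁
  have hξ₂' : x₂ - r ≠ 0 := sub_ne_zero.mpr hx₂
  have hp := mul_ne_zero hξ₁ hξ₂
  have hsl := M.toTModel.sl_sum h₁.1 h₂.1 hx₁ hx₂ hxy hw0
  set ξ₃ := W.toAffine.addX x₁ x₂ (W.toAffine.slope x₁ x₂ y₁ y₂) - r
  rcases lt_trichotomy (v (tA4 W r t)) (v (x₁ - r) * v (x₂ - r)) with hlt | heq | hgt
  · left
    have hD : v ((x₁ - r) * (x₂ - r) - tA4 W r t) = v (x₁ - r) * v (x₂ - r) := by
      rw [Valuation.map_sub_eq_of_lt_left _ (by rw [map_mul]; exact hlt), map_mul]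
    have hD0 : (x₁ - r) * (x₂ - r) - tA4 W r t ≠ 0 := by
      intro h0; rw [h0, map_zero] at hD; exact hp hD.symm
    have hv : v ξ₃ = v (x₁ - r) * v (x₂ - r) := by
      rw [hD, sq] at hAv
      exact mul_right_cancel₀ hp hAv
    refine ⟨hlt, hv, _, _, _, rfl, ?_, ?_, ?_⟩
    · change _ < v ξ₃; rw [hv]; exact hlt
    · change v ξ₃ < 1; rw [hv]; exact mul_lt_one_of_lt_of_le a2 b2.le
    · rw [hsl hD0]
      have e : -W.a₁ - sl r t x₁ y₁ -
          ((x₁ - r) * (x₂ - r) - tA4 W r t) / ((sl r t x₁ y₁ + sl r t x₂ y₂ + W.a₁) * (x₁ - r)) +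
          (sl r t x₁ y₁ + sl r t x₂ y₂ + W.a₁) * ((x₁ - r) * (x₂ - r)) /
            ((x₁ - r) * (x₂ - r) - tA4 W r t) - tp =
          ((sl r t x₂ y₂ - tp) +
          (sl r t x₁ y₁ + sl r t x₂ y₂ + W.a₁) * (tA4 W r t /
            ((x₁ - r) * (x₂ - r) - tA4 W r t))) -
          ((x₁ - r) * (x₂ - r) - tA4 W r t) / ((sl r t x₁ y₁ + sl r t x₂ y₂ + W.a₁) * (x₁ - r)) := by
        field_simp
        ring
      rw [e]
      refine v.map_sub_lt (v.map_add_lt b3 ?_) ?_
      · rw [map_mul, hw, one_mul, map_div₀, hD]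
        exact (div_lt_one₀ (zero_lt_iff.mpr hp)).mpr hlt
      · rw [map_div₀, hD, map_mul, hw, one_mul, mul_div_cancel_left₀ _ hξ₁]
        exact b2
  · right; right
    have hD : v ((x₁ - r) * (x₂ - r) - tA4 W r t) ≤ v (tA4 W r t) := by
      refine v.map_sub_le ?_ le_rfl
      rw [map_mul, ← heq]
    rw [← heq] at hAv
    have h2 : v ξ₃ * v (tA4 W r t) ≤ v (tA4 W r t) * v (tA4 W r t) := by
      rw [hAv, ← sq]
      exact pow_le_pow_left' hD 2
    exact le_of_mul_le_mul_right h2 M.m_pos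
  · right; left
    have hD : v ((x₁ - r) * (x₂ - r) - tA4 W r t) = v (tA4 W r t) := by
      rw [Valuation.map_sub_eq_of_lt_right _ (by rw [map_mul]; exact hgt)]
    have hD0 : (x₁ - r) * (x₂ - r) - tA4 W r t ≠ 0 := by
      intro h0; rw [h0, map_zero] at hD; exact M.m_pos.ne hD
    rw [hD] at hAv
    refine ⟨hgt, hAv, _, _, _, rfl, ?_, ?_, ?_⟩
    · change _ < v ξ₃
      by_contra hle
      push Not at hle
      have : v ξ₃ * (v (x₁ - r) * v (x₂ - r)) < v (tA4 W r t) ^ 2 := by
        rw [sq]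
        calc v ξ₃ * (v (x₁ - r) * v (x₂ - r)) ≤ v (tA4 W r t) * (v (x₁ - r) * v (x₂ - r)) := by
              gcongr
          _ < v (tA4 W r t) * v (tA4 W r t) := by
              gcongr
              exact M.m_pos
      rw [hAv] at this
      exact lt_irrefl _ this
    · change v ξ₃ < 1
      by_contra hle
      push Not at hle
      have h1 : v (x₁ - r) * v (x₂ - r) ≤ v (tA4 W r t) ^ 2 := by
        rw [← hAv]
        exact le_mul_of_one_le_left' hle
      have h2 : v (tA4 W r t) ^ 2 < v (x₁ - r) * v (x₂ - r) := by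
        rw [sq]
        exact mul_lt_mul'' a1 b1 zero_le zero_le
      exact absurd h1 (not_le.mpr h2)
    · rw [hsl hD0]
      have e : -W.a₁ - sl r t x₁ y₁ -
          ((x₁ - r) * (x₂ - r) - tA4 W r t) / ((sl r t x₁ y₁ + sl r t x₂ y₂ + W.a₁) * (x₁ - r)) +
          (sl r t x₁ y₁ + sl r t x₂ y₂ + W.a₁) * ((x₁ - r) * (x₂ - r)) /
            ((x₁ - r) * (x₂ - r) - tA4 W r t) - tm =
          (-(sl r t x₁ y₁ - tp) +
          (sl r t x₁ y₁ + sl r t x₂ y₂ + W.a₁) * (((x₁ - r) * (x₂ - r)) /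
            ((x₁ - r) * (x₂ - r) - tA4 W r t))) -
          ((x₁ - r) * (x₂ - r) - tA4 W r t) / ((sl r t x₁ y₁ + sl r t x₂ y₂ + W.a₁) * (x₁ - r)) := by
        rw [mul_div_assoc]
        linear_combination (-1) * M.hsum
      rw [e]
      refine v.map_sub_lt (v.map_add_lt ?_ ?_) ?_
      · rw [Valuation.map_neg]; exact a3
      · rw [map_mul, hw, one_mul, map_div₀, hD, map_mul]
        exact (div_lt_one₀ M.m_pos).mpr hgt
      · rw [map_div₀, hD, map_mul, hw, one_mul]
        exact (div_lt_one₀ (M.m_pos.trans a1)).mpr a1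

/-- Opposite branches, same magnitude: the sum has nonsingular reduction. -/
lemma opp_branch {x₁ y₁ x₂ y₂ : K} {h₁ : W.toAffine.Nonsingular x₁ y₁}
    {h₂ : W.toAffine.Nonsingular x₂ y₂}
    (D₁ : InD v W r t tp (Point.some x₁ y₁ h₁)) (D₂ : InD v W r t tm (Point.some x₂ y₂ h₂))
    (hv : v (x₁ - r) = v (x₂ - r)) :
    (Point.some x₁ y₁ h₁ : W.toAffine.Point) + Point.some x₂ y₂ h₂ ∈ M.toIntT.E0 M.hm := by
  have D₁' := D₁
  have D₂' := D₂
  obtain ⟨x, y, h, he, a1, a2, a3⟩ := D₁
  rw [Point.some.injEq] at he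
  obtain ⟨rfl, rfl⟩ := he
  obtain ⟨x, y, h', he, b1, b2, b3⟩ := D₂
  rw [Point.some.injEq] at he
  obtain ⟨rfl, rfl⟩ := he
  have hx₁ := M.ne_of_lt a1
  have hx₂ := M.ne_of_lt b1
  by_cases hxy : x₁ = x₂ ∧ y₁ = W.toAffine.negY x₂ y₂
  · rw [Point.add_of_Y_eq hxy.1 hxy.2]
    exact zero_mem _
  have hx : x₁ ≠ x₂ := by
    intro hx
    have hy : y₁ = y₂ := Y_eq_of_Y_ne h₁.1 h₂.1 hx (fun hy => hxy ⟨hx, hy⟩)
    subst hx hy
    exact M.not_both D₁' D₂'
  rw [Point.add_some hxy, M.toIntT.mem_E0_some]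
  have hB := M.toTModel.sumB h₁.1 h₂.1 hx₁ hx₂ hx
  have hw : v (sl r t x₁ y₁ - sl r t x₂ y₂) = 1 := by
    have e : sl r t x₁ y₁ - sl r t x₂ y₂ =
        ((sl r t x₁ y₁ - tp) - (sl r t x₂ y₂ - tm)) + (tp - tm) := by ring
    rw [e, Valuation.map_add_eq_of_lt_right, M.hdiff]
    rw [M.hdiff]
    exact v.map_sub_lt a3 b3
  have hBv := congrArg v hB
  rw [map_mul, map_mul, map_pow, map_pow, hw, one_pow, mul_one, map_mul, ← hv, ← sq] at hBv
  have h1 : v (x₁ - x₂) ≤ v (x₁ - r) := by
    have e : x₁ - x₂ = (x₁ - r) - (x₂ - r) := by ring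
    rw [e]
    exact v.map_sub_le le_rfl hv.ge
  have h0 : 0 < v (x₁ - r) ^ 2 := pow_pos (M.m_pos.trans a1) 2
  by_contra hlt
  push Not at hlt
  have : v (W.toAffine.addX x₁ x₂ (W.toAffine.slope x₁ x₂ y₁ y₂) - r) * v (x₁ - x₂) ^ 2 <
      v (x₁ - r) ^ 2 := by
    calc _ ≤ v (W.toAffine.addX x₁ x₂ (W.toAffine.slope x₁ x₂ y₁ y₂) - r) * v (x₁ - r) ^ 2 := by
          gcongr
          exact zero_le
      _ < 1 * v (x₁ - r) ^ 2 := by gcongr
      _ = _ := one_mul _
  rw [hBv] at this
  exact lt_irrefl _ this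

/-- Points close to `T`: the double has nonsingular reduction. -/
lemma two_nsmul_mem_E0 {x y : K} (h : W.toAffine.Nonsingular x y)
    (hx : v (x - r) ≤ v (tA4 W r t)) :
    2 • (Point.some x y h : W.toAffine.Point) ∈ M.toIntT.E0 M.hm := by
  rw [two_nsmul]
  by_cases hxy : x = x ∧ y = W.toAffine.negY x y
  · rw [Point.add_of_Y_eq hxy.1 hxy.2]
    exact zero_mem _
  have hxr : x ≠ r := by
    rintro rfl
    apply hxy
    refine ⟨rfl, ?_⟩
    have hT := M.toTModel.two
    have hE := M.toTModel.eqn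
    have hE' := h.1
    rw [equation_iff] at hE hE'
    have h2 : (y - t) * (y - t) = 0 := by
      linear_combination hE' - hE - (y - t) * hT
    have h3 : y = t := sub_eq_zero.mp (mul_self_eq_zero.mp h2)
    rw [negY, h3]
    linear_combination hT
  rw [Point.add_some hxy, M.toIntT.mem_E0_some]
  have hA := M.toTModel.sumA h.1 h.1 hxr hxr hxy
  have c := M.toTModel.curve h.1 hxr
  have hAv := congrArg v hA
  set s := sl r t x y
  have hx1 : v (x - r) < 1 := hx.trans_lt M.hm
  have hm := M.m_pos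
  have hxx : v ((x - r) * (x - r)) < v (tA4 W r t) := by
    rw [map_mul]
    calc v (x - r) * v (x - r) ≤ v (tA4 W r t) * v (x - r) := by gcongr
      _ < v (tA4 W r t) * 1 := by gcongr
      _ = _ := mul_one _
  have hD : v ((x - r) * (x - r) - tA4 W r t) = v (tA4 W r t) :=
    Valuation.map_sub_eq_of_lt_right _ hxx
  -- `v (s ξ) ≤ m`
  have hu : v (s * (x - r)) ≤ v (tA4 W r t) := by
    by_contra hgt
    push Not at hgt
    have c2 : (s * (x - r)) * (s * (x - r)) + W.a₁ * (s * (x - r)) * (x - r) =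
        (x - r) * ((x - r) * (x - r) + tA2 W r * (x - r) + tA4 W r t) := by
      linear_combination (x - r) * c
    have h1 : v ((s * (x - r)) * (s * (x - r)) + W.a₁ * (s * (x - r)) * (x - r)) =
        v ((s * (x - r)) * (s * (x - r))) := by
      refine Valuation.map_add_eq_of_lt_left _ ?_
      rw [map_mul v (W.a₁ * (s * (x - r))), map_mul v W.a₁, map_mul v (s * (x - r)) (s * (x - r))]
      calc v W.a₁ * v (s * (x - r)) * v (x - r) ≤ 1 * v (s * (x - r)) * v (x - r) := by
            gcongr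
            exact M.va1
        _ = v (s * (x - r)) * v (x - r) := by rw [one_mul]
        _ < v (s * (x - r)) * v (s * (x - r)) := by
            have := hm.trans hgt
            gcongr
            exact hx.trans_lt hgt
    have h2 : v ((x - r) * ((x - r) * (x - r) + tA2 W r * (x - r) + tA4 W r t)) ≤
        v (tA4 W r t) * v (tA4 W r t) := by
      rw [map_mul]
      gcongr
      refine v.map_add_le (v.map_add_le hxx.le ?_) le_rfl
      rw [map_mul]
      exact (mul_le_of_le_one_left' M.vA2).trans hx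
    rw [← c2, h1, map_mul] at h2
    have h3 : v (tA4 W r t) * v (tA4 W r t) < v (s * (x - r)) * v (s * (x - r)) :=
      mul_lt_mul'' hgt hgt zero_le zero_le
    exact absurd h2 (not_le.mpr h3)
  have hz : v ((x - r) * (s + s + W.a₁)) ≤ v (tA4 W r t) := by
    have e : (x - r) * (s + s + W.a₁) = s * (x - r) + s * (x - r) + W.a₁ * (x - r) := by ring
    rw [e]
    refine v.map_add_le (v.map_add_le hu hu) ?_
    rw [map_mul]
    exact (mul_le_of_le_one_left' M.va1).trans hx
  have e2 : v (W.toAffine.addX x x (W.toAffine.slope x x y y) - r) *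
      v ((x - r) * (s + s + W.a₁)) ^ 2 = v (tA4 W r t) ^ 2 := by
    rw [← hD, ← map_pow v ((x - r) * (x - r) - tA4 W r t), ← hA, ← map_pow, ← map_mul]
    congr 1
    ring
  by_contra hlt
  push Not at hlt
  have : v (W.toAffine.addX x x (W.toAffine.slope x x y y) - r) *
      v ((x - r) * (s + s + W.a₁)) ^ 2 < v (tA4 W r t) ^ 2 := by
    calc _ ≤ v (W.toAffine.addX x x (W.toAffine.slope x x y y) - r) * v (tA4 W r t) ^ 2 := by
          gcongr
          exact zero_le
      _ < 1 * v (tA4 W r t) ^ 2 := by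
          have := pow_pos hm 2
          gcongr
      _ = _ := one_mul _
  rw [e2] at this
  exact lt_irrefl _ this

omit M in
lemma _root_.Fermat.Agent.EC.mem_of_coprime_nsmul_mem {G : Type*} [AddCommGroup G]
    (H : AddSubgroup G) {P : G} {n p : ℕ} (hp : p • P = 0) (hc : Nat.Coprime n p)
    (h : n • P ∈ H) : P ∈ H := by
  have hb := Nat.gcd_eq_gcd_ab n p
  rw [hc.gcd_eq_one] at hb
  have e : P = (Nat.gcdA n p) • (n • P) := by
    calc P = (((1 : ℕ) : ℤ)) • P := by simp
      _ = ((n : ℤ) * Nat.gcdA n p + p * Nat.gcdB n p) • P := by rw [hb]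
      _ = (Nat.gcdA n p) • (n • P) + (Nat.gcdB n p) • (p • P) := by
          rw [add_zsmul, mul_comm (n : ℤ), mul_comm (p : ℤ), mul_zsmul, mul_zsmul,
            natCast_zsmul, natCast_zsmul]
      _ = _ := by rw [hp, smul_zero, add_zero]
  rw [e]
  exact H.zsmul_mem h _

/-- A point of odd prime order not in `E⁰`: all multiples are in the branches. -/
lemma multiples {p : ℕ} (hp : p.Prime) (hp2 : p ≠ 2) {P : W.toAffine.Point} (hP : p • P = 0)
    (hP0 : P ∉ M.toIntT.E0 M.hm) (n : ℕ) :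
    n • P = 0 ∨ InD v W r t tp (n • P) ∨ InD v W r t tm (n • P) := by
  by_cases hn : p ∣ n
  · left
    obtain ⟨k, rfl⟩ := hn
    rw [mul_comm, mul_nsmul', hP, smul_zero]
  have hc : Nat.Coprime n p := ((Nat.Prime.coprime_iff_not_dvd hp).mpr hn).symm
  right
  rcases hQ : n • P with _ | ⟨x, y, h⟩
  · exfalso
    apply hP0
    refine mem_of_coprime_nsmul_mem _ hP hc ?_
    rw [hQ]
    exact zero_mem _
  · apply M.inD_or
    · by_contra hle
      push Not at hle
      have h2 := M.two_nsmul_mem_E0 h hle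
      rw [← hQ, ← mul_nsmul'] at h2
      apply hP0
      refine mem_of_coprime_nsmul_mem _ hP ?_ h2
      exact Nat.Coprime.mul_left ((Nat.coprime_primes Nat.prime_two hp).mpr (Ne.symm hp2)) hc
    · by_contra hle
      push Not at hle
      apply hP0
      refine mem_of_coprime_nsmul_mem _ hP hc ?_
      rw [hQ, M.toIntT.mem_E0_some]
      exact hle

/-- The class in the component group. -/
lemma class_pow {x y : K} {h : W.toAffine.Nonsingular x y}
    (D : InD v W r t tp (Point.some x y h))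
    (hall : ∀ n : ℕ, n • (Point.some x y h : W.toAffine.Point) = 0 ∨
      InD v W r t tp (n • Point.some x y h) ∨ InD v W r t tm (n • Point.some x y h)) (n : ℕ) :
    (n • (Point.some x y h : W.toAffine.Point) = 0 ∧
      ∃ k : ℤ, v (x - r) ^ n = (v (tA4 W r t) ^ 2) ^ k) ∨
    (∃ x' y' h', n • (Point.some x y h : W.toAffine.Point) = Point.some x' y' h' ∧
      InD v W r t tp (Point.some x' y' h') ∧
      ∃ k : ℤ, v (x - r) ^ n = v (x' - r) * (v (tA4 W r t) ^ 2) ^ k) ∨
    (∃ x' y' h', n • (Point.some x y h : W.toAffine.Point) = Point.some x' y' h' ∧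
      InD v W r t tm (Point.some x' y' h') ∧
      ∃ k : ℤ, v (x - r) ^ n * v (x' - r) = (v (tA4 W r t) ^ 2) ^ k) := by
  have hm := M.m_pos
  have hm2 : v (tA4 W r t) ^ 2 ≠ 0 := pow_ne_zero 2 hm.ne'
  induction n with
  | zero =>
    left
    exact ⟨zero_nsmul _, 0, by simp⟩
  | succ n ih =>
    rcases ih with ⟨h0, k, hk⟩ | ⟨x', y', h', he, D', k, hk⟩ | ⟨x', y', h', he, D', k, hk⟩
    · right; left
      refine ⟨x, y, h, ?_, D, k, ?_⟩
      · rw [succ_nsmul, h0, zero_add]
      · rw [pow_succ, hk, mul_comm]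
    · obtain ⟨x₃, y₃, h₃, hs, hcases⟩ := M.same_branch D' D
      have hsum : (n + 1) • (Point.some x y h : W.toAffine.Point) = Point.some x₃ y₃ h₃ := by
        rw [succ_nsmul, he, hs]
      rcases hcases with ⟨h1, h2, h3⟩ | ⟨h1, h2, h3⟩ | h1
      · right; left
        refine ⟨x₃, y₃, h₃, hsum, h3, k, ?_⟩
        rw [h2, pow_succ, hk, mul_right_comm]
      · right; right
        refine ⟨x₃, y₃, h₃, hsum, h3, k + 1, ?_⟩
        rw [pow_succ, hk, zpow_add₀ hm2, zpow_one, ← h2]
        simp only [mul_assoc, mul_comm, mul_left_comm]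
      · exfalso
        have := hall (n + 1)
        rw [hsum] at this
        rcases this with h0 | ⟨x'', y'', h'', he'', a1, a2, a3⟩ | ⟨x'', y'', h'', he'', a1, a2, a3⟩
        · exact Point.some_ne_zero _ h0
        · rw [Point.some.injEq] at he''
          rw [← he''.1] at a1
          exact absurd a1 (not_lt.mpr h1)
        · rw [Point.some.injEq] at he''
          rw [← he''.1] at a1
          exact absurd a1 (not_lt.mpr h1)
    · -- `n • P` on the other branch
      rcases hall (n + 1) with h0 | h1 | h1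
      · left
        refine ⟨h0, k, ?_⟩
        rw [succ_nsmul, he] at h0
        have e : (Point.some x' y' h' : W.toAffine.Point) = Point.some x (W.toAffine.negY x y)
            ((nonsingular_neg ..).mpr h) := by
          rw [← Point.neg_some h]
          exact eq_neg_of_add_eq_zero_left h0
        rw [Point.some.injEq] at e
        rw [pow_succ, ← hk, e.1]
      · right; left
        obtain ⟨x₃, y₃, h₃, he₃, a1, a2, a3⟩ := h1
        have D₃ : InD v W r t tp (Point.some x₃ y₃ h₃) := ⟨x₃, y₃, h₃, rfl, a1, a2, a3⟩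
        refine ⟨x₃, y₃, h₃, he₃, D₃, ?_⟩
        have Dn := M.swap.neg_inD D'
        rw [Point.neg_some] at Dn
        obtain ⟨x₄, y₄, h₄, hs, hcases⟩ := M.same_branch D₃ Dn
        have hs2 : (Point.some x₄ y₄ h₄ : W.toAffine.Point) = Point.some x y h := by
          rw [← hs, ← he₃, ← Point.neg_some h', ← he, succ_nsmul]
          abel
        have hx4 : x₄ = x := by
          rw [Point.some.injEq] at hs2
          exact hs2.1
        rcases hcases with ⟨b1, b2, b3⟩ | ⟨b1, b2, b3⟩ | b1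
        · refine ⟨k, ?_⟩
          rw [pow_succ, ← hk, ← hx4, b2]
          simp only [mul_assoc, mul_comm, mul_left_comm]
        · exfalso
          rw [hs2] at b3
          exact M.not_both D b3
        · exfalso
          obtain ⟨x'', y'', h'', he'', c1, c2, c3⟩ := D
          rw [Point.some.injEq] at he''
          rw [← he''.1, ← hx4] at c1
          exact absurd c1 (not_lt.mpr b1)
      · right; right
        obtain ⟨x₃, y₃, h₃, he₃, a1, a2, a3⟩ := h1
        have D₃ : InD v W r t tm (Point.some x₃ y₃ h₃) := ⟨x₃, y₃, h₃, rfl, a1, a2, a3⟩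
        refine ⟨x₃, y₃, h₃, he₃, D₃, ?_⟩
        have Dn := M.neg_inD D
        rw [Point.neg_some] at Dn
        obtain ⟨x₄, y₄, h₄, hs, hcases⟩ := M.swap.same_branch D₃ Dn
        have hs2 : (Point.some x₄ y₄ h₄ : W.toAffine.Point) = Point.some x' y' h' := by
          rw [← hs, ← he₃, ← Point.neg_some h, ← he, succ_nsmul]
          abel
        have hx4 : x₄ = x' := by
          rw [Point.some.injEq] at hs2
          exact hs2.1
        rcases hcases with ⟨b1, b2, b3⟩ | ⟨b1, b2, b3⟩ | b1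
        · refine ⟨k, ?_⟩
          rw [← hk, pow_succ, ← hx4, b2]
          simp only [mul_assoc, mul_comm, mul_left_comm]
        · exfalso
          rw [hs2] at b3
          exact M.not_both b3 D'
        · exfalso
          obtain ⟨x'', y'', h'', he'', c1, c2, c3⟩ := D'
          rw [Point.some.injEq] at he''
          rw [← he''.1, ← hx4] at c1
          exact absurd c1 (not_lt.mpr b1)

lemma class_prime {p : ℕ} (hp : p.Prime) (hp2 : p ≠ 2) {x y : K}
    {h : W.toAffine.Nonsingular x y} (hP : p • (Point.some x y h : W.toAffine.Point) = 0)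
    (D : InD v W r t tp (Point.some x y h)) :
    ∃ k : ℤ, v (x - r) ^ p = (v (tA4 W r t) ^ 2) ^ k := by
  rcases M.class_pow D (M.multiples hp hp2 hP (M.inD_not_mem_E0 D)) p with
    ⟨_, h2⟩ | ⟨x', y', h', he, _⟩ | ⟨x', y', h', he, _⟩
  · exact h2
  · rw [hP] at he
    exact absurd he.symm (Point.some_ne_zero _)
  · rw [hP] at he
    exact absurd he.symm (Point.some_ne_zero _)

end MultT

end Fermat.Agent.EC
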