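import Fermat.Agent.EC.Reducible
import Mathlib.NumberTheory.Padics.PadicVal.Basic

/-!
# The Frey curve has no rational point of order `p`
-/

set_option autoImplicit false
set_option linter.unusedSectionVars false

namespace Fermat.Agent.EC

open WeierstrassCurve WeierstrassCurve.Affine WeierstrassCurve.Affine.Point

section

variable {K : Type*} [Field K] [DecidableEq K] {Γ₀ : Type*} [LinearOrderedCommGroupWithZero Γ₀]
  {v : Valuation K Γ₀} {W : WeierstrassCurve K} {r t : K}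

lemma IntT.sub_mem_E1_of_sl (M : IntT v W r t) (hm : v (tA4 W r t) < 1) {x₁ y₁ x₂ y₂ : K}
    {h₁ : W.toAffine.Nonsingular x₁ y₁} {h₂ : W.toAffine.Nonsingular x₂ y₂}
    (hx₁ : v (x₁ - r) = 1) (hx₂ : v (x₂ - r) = 1) (hs : v (sl r t x₁ y₁ - sl r t x₂ y₂) < 1) :
    (Point.some x₁ y₁ h₁ : W.toAffine.Point) - Point.some x₂ y₂ h₂ ∈ M.E1 := by
  have hx₁r : x₁ ≠ r := M.ne_of_one_le hx₁.ge
  have hx₂r : x₂ ≠ r := M.ne_of_one_le hx₂.ge
  rw [sub_eq_add_neg, Point.neg_some]
  have hn := (nonsingular_neg (W' := W.toAffine) x₂ y₂).mpr h₂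
  by_cases hxy : x₁ = x₂ ∧ y₁ = W.toAffine.negY x₂ (W.toAffine.negY x₂ y₂)
  · rw [Point.add_of_Y_eq hxy.1 hxy.2]
    exact zero_mem _
  rw [Point.add_some hxy, M.mem_E1_some]
  have hA := M.toTModel.sumA h₁.1 hn.1 hx₁r hx₂r hxy
  have hw : sl r t x₁ y₁ + sl r t x₂ (W.toAffine.negY x₂ y₂) + W.a₁ =
      sl r t x₁ y₁ - sl r t x₂ y₂ := by
    have := M.toTModel.sl_neg (y := y₂) hx₂r
    linear_combination this
  rw [hw] at hA
  have hAv := congrArg v hA
  have hD : v ((x₁ - r) * (x₂ - r) - tA4 W r t) = 1 := by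
    rw [Valuation.map_sub_eq_of_lt_left, map_mul, hx₁, hx₂, one_mul]
    rw [map_mul, hx₁, hx₂, one_mul]
    exact hm
  rw [map_mul, map_mul, map_mul, map_pow, map_pow, hx₁, hx₂, one_mul, mul_one, hD, one_pow] at hAv
  by_contra hle
  push Not at hle
  have h1 : v (sl r t x₁ y₁ - sl r t x₂ y₂) ^ 2 < 1 := pow_lt_one₀ zero_le hs two_ne_zero
  have h2 := lt_of_le_of_lt (mul_le_of_le_one_left' hle) h1
  rw [hAv] at h2
  exact lt_irrefl _ h2

end

section

variable {K : Type*} [Field K] [CharZero K] [Algebra ℚ K] {Γ₀ : Type*}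
  [LinearOrderedCommGroupWithZero Γ₀] (v : Valuation K Γ₀)

lemma val_int_eq_zpow {q : ℕ} (hq : q.Prime) (hv : v (q : K) < 1) {n : ℤ} (hn : n ≠ 0) :
    v (n : K) = v (q : K) ^ (padicValInt q n) := by
  have : Fact q.Prime := ⟨hq⟩
  obtain ⟨m, hm⟩ := padicValInt_dvd (p := q) n
  have hnm : ¬ (q : ℤ) ∣ m := by
    intro h
    obtain ⟨l, hl⟩ := h
    have h1 : (q : ℤ) ^ (padicValInt q n + 1) ∣ n := ⟨l, by rw [pow_succ, mul_assoc, ← hl]; exact hm⟩
    have h2 := (padicValInt_dvd_iff (p := q) (padicValInt q n + 1) n).mp h1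
    omega
  conv_lhs => rw [hm]
  push_cast
  rw [map_mul, map_pow, val_int_eq_one_of_not_dvd v hq hv hnm, mul_one]

lemma val_rat_eq_zpow {q : ℕ} (hq : q.Prime) (hv : v (q : K) < 1) {r : ℚ} (hr : r ≠ 0) :
    v (algebraMap ℚ K r) = v (q : K) ^ (padicValRat q r) := by
  have : Fact q.Prime := ⟨hq⟩
  have hq0 : v (q : K) ≠ 0 := by
    rw [Ne, Valuation.zero_iff]
    exact_mod_cast hq.ne_zero
  rw [map_rat_eq, map_div₀, val_int_eq_zpow v hq hv (Rat.num_ne_zero.mpr hr)]
  have h1 : v ((r.den : ℕ) : K) = v (q : K) ^ (padicValInt q (r.den : ℤ)) := by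
    rw [← val_int_eq_zpow v hq hv (by exact_mod_cast r.den_nz)]
    push_cast
    rfl
  rw [h1, padicValRat_def, zpow_sub₀ hq0, zpow_natCast, zpow_natCast]
  rfl

/-- a rational number which is integral at `2` is congruent to `0` or `1` -/
lemma val_two_dichotomy (hv : v ((2 : ℕ) : K) < 1) {r : ℚ} (hr : v (algebraMap ℚ K r) ≤ 1) :
    v (algebraMap ℚ K r) < 1 ∨ v (algebraMap ℚ K r - 1) < 1 := by
  have hden : ¬ 2 ∣ r.den := by
    intro h
    exact absurd hr (not_le.mpr ((one_lt_val_rat_iff v Nat.prime_two hv r).mpr h))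
  have hden1 : v ((r.den : ℕ) : K) = 1 := by
    have := val_int_eq_one_of_not_dvd v Nat.prime_two hv (n := (r.den : ℤ)) (by exact_mod_cast hden)
    exact_mod_cast this
  have hden0 : (r.den : K) ≠ 0 := by exact_mod_cast r.den_nz
  rcases Int.even_or_odd r.num with he | ho
  · left
    rw [map_rat_eq, map_div₀, hden1, div_one]
    exact val_int_lt v hv (by exact_mod_cast he.two_dvd)
  · right
    have e : algebraMap ℚ K r - 1 = ((r.num - r.den : ℤ) : K) / (r.den : K) := by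
      rw [map_rat_eq]
      push_cast
      field_simp
    rw [e, map_div₀, hden1, div_one]
    apply val_int_lt v hv
    have hod : Odd (r.den : ℤ) := by
      rw [Int.odd_coe_nat]
      exact Nat.not_even_iff_odd.mp (fun h => hden h.two_dvd)
    exact (ho.sub_odd hod).two_dvd

end

section

variable {F K : Type*} [Field F] [Field K] [Algebra F K] [DecidableEq K] [IsGalois F K]
  {W : Affine F}

lemma rational_of_fixed {x y : K} {h : (W⁄K).Nonsingular x y}
    (hfix : ∀ σ : K ≃ₐ[F] K, σ • (Point.some x y h : (W⁄K).Point) = Point.some x y h) :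
    (∃ x₀ : F, x = algebraMap F K x₀) ∧ ∃ y₀ : F, y = algebraMap F K y₀ := by
  have h1 : x ∈ Set.range (algebraMap F K) := by
    rw [InfiniteGalois.mem_range_algebraMap_iff_fixed]
    intro σ
    have := hfix σ
    rw [smul_some, Point.some.injEq] at this
    exact this.1
  have h2 : y ∈ Set.range (algebraMap F K) := by
    rw [InfiniteGalois.mem_range_algebraMap_iff_fixed]
    intro σ
    have := hfix σ
    rw [smul_some, Point.some.injEq] at this
    exact this.2
  obtain ⟨x₀, hx₀⟩ := h1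
  obtain ⟨y₀, hy₀⟩ := h2
  exact ⟨⟨x₀, hx₀.symm⟩, ⟨y₀, hy₀.symm⟩⟩

lemma smul_nsmul_fixed {Q : (W⁄K).Point} (hfix : ∀ σ : K ≃ₐ[F] K, σ • Q = Q) (n : ℕ)
    (σ : K ≃ₐ[F] K) : σ • (n • Q) = n • Q := by
  have := algEquiv_smul_zsmul σ (n : ℤ) Q
  rw [natCast_zsmul, natCast_zsmul] at this
  rw [this, hfix]

end

section

variable (P : FreyPackage) {K : Type*} [Field K] [CharZero K] [Algebra ℚ K] [DecidableEq K]
  [IsGalois ℚ K] [IsAlgClosed K] {Γ₀ : Type*} [LinearOrderedCommGroupWithZero Γ₀]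
  {v : Valuation K Γ₀}

/-- the valuation of `a₄` at `2` -/
lemma frey_val_a₄ (hv : v ((2 : ℕ) : K) < 1) :
    v (tA4 (P.freyCurve⁄K) (algebraMap ℚ K 0) (algebraMap ℚ K 0)) =
      v ((2 : ℕ) : K) ^ ((P.p * padicValInt 2 P.b : ℤ) - 4) := by
  have h20 : v ((2 : ℕ) : K) ≠ 0 := by
    rw [Ne, Valuation.zero_iff]
    exact Nat.cast_ne_zero.mpr two_ne_zero
  have hva : v (P.a : K) = 1 := by
    apply val_int_eq_one_of_not_dvd v Nat.prime_two hv
    intro h
    have hcop : IsCoprime P.a P.b := by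
      have := P.hgcdab
      exact (gcd_isUnit_iff P.a P.b).mp (by rw [this]; exact isUnit_one)
    have h2 : (2 : ℤ) ∣ P.a := h
    exact Int.prime_two.not_isUnit (hcop.isUnit_of_dvd' h2 (frey_two_dvd_b P))
  rw [frey_T0_A4]
  have e : P.freyCurve.a₄ = -((P.a : ℚ) ^ P.p * (P.b : ℚ) ^ P.p) / (2 : ℕ) ^ 4 := by
    simp only [FreyPackage.freyCurve]
    push_cast
    ring
  rw [e, map_div₀, map_div₀, map_neg, Valuation.map_neg, map_mul, map_mul, map_pow, map_pow,
    map_pow, map_pow, map_pow, map_pow, map_intCast (algebraMap ℚ K), map_intCast (algebraMap ℚ K),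
    map_natCast, hva, one_pow, one_mul, val_int_eq_zpow v Nat.prime_two hv P.hb0,
    zpow_sub₀ h20]
  congr 1
  · rw [← zpow_natCast, ← zpow_natCast, ← zpow_mul, mul_comm]
  · exact (zpow_natCast _ 4).symm

/-- points on the branches -/
lemma frey_no_branch (hv : v ((2 : ℕ) : K) < 1) {tp tm : K}
    (M : MultT v (P.freyCurve⁄K) (algebraMap ℚ K 0) (algebraMap ℚ K 0) tp tm) {x y : K}
    {h : (P.freyCurve⁄K).Nonsingular x y}
    (hQ : P.p • (Point.some x y h : (P.freyCurve⁄K).Point) = 0)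
    (D : InD v (P.freyCurve⁄K) (algebraMap ℚ K 0) (algebraMap ℚ K 0) tp (Point.some x y h))
    {x₀ : ℚ} (hx₀ : x = algebraMap ℚ K x₀) : False := by
  have hp2 : P.p ≠ 2 := by have := P.hp5; omega
  have h20 : v ((2 : ℕ) : K) ≠ 0 := by
    rw [Ne, Valuation.zero_iff]
    exact Nat.cast_ne_zero.mpr two_ne_zero
  obtain ⟨k, hk⟩ := M.class_prime P.pp hp2 hQ D
  obtain ⟨x', y', h', he, a1, a2, -⟩ := D
  rw [Point.some.injEq] at he
  rw [← he.1] at a1 a2
  have hsub : x - algebraMap ℚ K 0 = algebraMap ℚ K x₀ := by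
    rw [_root_.map_zero, sub_zero, hx₀]
  rw [hsub] at a1 a2 hk
  have hx0 : x₀ ≠ 0 := by
    rintro rfl
    rw [_root_.map_zero, _root_.map_zero] at a1
    exact absurd a1 (not_lt.mpr zero_le)
  rw [val_rat_eq_zpow v Nat.prime_two hv hx0] at a1 a2 hk
  rw [frey_val_a₄ P hv] at a1 hk
  set g := v ((2 : ℕ) : K) with hg
  set e := padicValRat 2 x₀
  set μ : ℤ := (P.p * padicValInt 2 P.b : ℤ) - 4 with hμ
  have hgpos : 0 < g := zero_lt_iff.mpr h20
  have h1 : e < μ := (zpow_lt_zpow_iff_right_of_lt_one₀ hgpos hv).mp a1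
  have h2 : 0 < e := by
    have : g ^ e < g ^ (0 : ℤ) := by rw [zpow_zero]; exact a2
    exact (zpow_lt_zpow_iff_right_of_lt_one₀ hgpos hv).mp this
  have h3 : e * P.p = μ * 2 * k := by
    rw [← zpow_natCast, ← zpow_mul, ← zpow_natCast, ← zpow_mul, ← zpow_mul] at hk
    have := zpow_right_injective₀ hgpos hv.ne hk
    push_cast at this
    rw [this, mul_assoc]
  have hpi := Nat.prime_iff_prime_int.mp P.pp
  have h4 : (P.p : ℤ) ∣ μ * 2 * k := ⟨e, by rw [← h3]; ring⟩
  have hp5 := P.hp5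
  have hnd2 : ¬ (P.p : ℤ) ∣ 2 := by
    intro h
    have := Int.le_of_dvd (by norm_num) h
    omega
  have h5 : (P.p : ℤ) ∣ k := by
    rcases hpi.dvd_or_dvd h4 with h5 | h5
    · rcases hpi.dvd_or_dvd h5 with h6 | h6
      · exfalso
        have h7 : (P.p : ℤ) ∣ 4 := by
          have : (4 : ℤ) = P.p * padicValInt 2 P.b - μ := by rw [hμ]; ring
          rw [this]
          exact dvd_sub (Dvd.intro _ rfl) h6
        have h8 : (4 : ℤ) = 2 * 2 := by norm_num
        rw [h8] at h7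
        rcases hpi.dvd_or_dvd h7 with h9 | h9 <;> exact hnd2 h9
      · exact absurd h6 hnd2
    · exact h5
  obtain ⟨k', rfl⟩ := h5
  have hp0 : (P.p : ℤ) ≠ 0 := by exact_mod_cast P.hp0
  have h6 : e = μ * 2 * k' := by
    have : e * P.p = (μ * 2 * k') * P.p := by rw [h3]; ring
    exact mul_right_cancel₀ hp0 this
  have hk' : 0 < k' := by
    by_contra hle
    push Not at hle
    nlinarith
  nlinarith

/-- **No rational points of order `p`.** -/
theorem frey_no_fixed_point {Q : (P.freyCurve⁄K).Point} (hQ0 : Q ≠ 0) (hpQ : P.p • Q = 0)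
    (hfix : ∀ σ : K ≃ₐ[ℚ] K, σ • Q = Q) : False := by
  obtain ⟨A, hA⟩ := Places.exists_liesOverPrime K Nat.prime_two
  set v := A.valuation with hvdef
  have hv : v ((2 : ℕ) : K) < 1 := hA
  have hp2 : P.p ≠ 2 := by have := P.hp5; omega
  obtain ⟨tp, tm, M⟩ := frey_MultT0 P v Nat.prime_two hv
    (dvd_mul_of_dvd_right (frey_two_dvd_b P) _) (frey_two_hm P v hv)
  have hvp : v (P.p : K) = 1 := by
    have : ¬ ((2 : ℕ) : ℤ) ∣ (P.p : ℤ) := by
      intro h
      rw [Int.natCast_dvd_natCast, Nat.prime_dvd_prime_iff_eq Nat.prime_two P.pp] at h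
      exact hp2 h.symm
    exact_mod_cast val_int_eq_one_of_not_dvd v Nat.prime_two hv this
  have hE1 : ∀ R : (P.freyCurve⁄K).Point, P.p • R = 0 → R ∈ M.toIntT.E1 → R = 0 := by
    intro R hR hRE
    exact eq_zero_of_mem_E1 M.toIntT (frey_isInt P v) P.hp_odd hvp hR hRE
  by_cases hE0 : Q ∈ M.toIntT.E0 M.hm
  · -- nonsingular reduction: pigeonhole
    have hnQ : ∀ n : ℕ, 0 < n → n < P.p → n • Q ≠ 0 := by
      intro n hn hnp h0
      apply hQ0
      have hc : Nat.Coprime n P.p :=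
        ((Nat.Prime.coprime_iff_not_dvd P.pp).mpr (Nat.not_dvd_of_pos_of_lt hn hnp)).symm
      have : Q ∈ (⊥ : AddSubgroup (P.freyCurve⁄K).Point) :=
        mem_of_coprime_nsmul_mem _ hpQ hc (by rw [h0]; exact zero_mem _)
      exact AddSubgroup.mem_bot.mp this
    have hp5 := P.hp5
    have key : ∀ n : ℕ, 0 < n → n < P.p → ∃ x y, ∃ h : (P.freyCurve⁄K).Nonsingular x y,
        n • Q = Point.some x y h ∧ v (x - algebraMap ℚ K 0) = 1 ∧
        (v (sl (algebraMap ℚ K 0) (algebraMap ℚ K 0) x y) < 1 ∨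
          v (sl (algebraMap ℚ K 0) (algebraMap ℚ K 0) x y - 1) < 1) := by
      intro n hn hnp
      have h0 := hnQ n hn hnp
      have hE0n : n • Q ∈ M.toIntT.E0 M.hm := AddSubgroup.nsmul_mem _ hE0 n
      have hfixn : ∀ σ : K ≃ₐ[ℚ] K, σ • (n • Q) = n • Q := smul_nsmul_fixed hfix n
      have hpn : P.p • (n • Q) = 0 := by
        rw [← mul_nsmul', mul_comm, mul_nsmul', hpQ, smul_zero]
      rcases hnQe : n • Q with _ | ⟨x, y, h⟩
      · exact absurd hnQe h0
      rw [hnQe] at hE0n hfixn hpn h0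
      have h1 : 1 ≤ v (x - algebraMap ℚ K 0) := (M.toIntT.mem_E0_some M.hm h).mp hE0n
      have h2 : v (x - algebraMap ℚ K 0) = 1 := by
        refine le_antisymm ?_ h1
        by_contra hlt
        push Not at hlt
        exact h0 (hE1 _ hpn ((M.toIntT.mem_E1_some h).mpr hlt))
      obtain ⟨⟨x₀, hx₀⟩, y₀, hy₀⟩ := rational_of_fixed hfixn
      refine ⟨x, y, h, rfl, h2, ?_⟩
      have hs := M.toIntT.sq_sl_le h.1 h1
      rw [h2] at hs
      have hs1 : v (sl (algebraMap ℚ K 0) (algebraMap ℚ K 0) x y) ≤ 1 := by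
        by_contra hgt
        push Not at hgt
        exact absurd hs (not_le.mpr (one_lt_pow₀ hgt two_ne_zero))
      have hsr : sl (algebraMap ℚ K 0) (algebraMap ℚ K 0) x y = algebraMap ℚ K (y₀ / x₀) := by
        rw [sl, hx₀, hy₀]
        simp
      rw [hsr] at hs1 ⊢
      exact val_two_dichotomy v hv hs1
    -- two congruent multiples
    have fin : ∀ i j : ℕ, 0 < i → i < j → j ≤ 3 →
        (∃ c : K, (∃ x y, ∃ h : (P.freyCurve⁄K).Nonsingular x y,
          i • Q = Point.some x y h ∧ v (x - algebraMap ℚ K 0) = 1 ∧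
          v (sl (algebraMap ℚ K 0) (algebraMap ℚ K 0) x y - c) < 1) ∧
          (∃ x y, ∃ h : (P.freyCurve⁄K).Nonsingular x y,
          j • Q = Point.some x y h ∧ v (x - algebraMap ℚ K 0) = 1 ∧
          v (sl (algebraMap ℚ K 0) (algebraMap ℚ K 0) x y - c) < 1)) → False := by
      rintro i j hi hij hj ⟨c, ⟨x, y, h, he, h1, h2⟩, ⟨x', y', h', he', h1', h2'⟩⟩
      have h3 : v (sl (algebraMap ℚ K 0) (algebraMap ℚ K 0) x' y' -
          sl (algebraMap ℚ K 0) (algebraMap ℚ K 0) x y) < 1 := by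
        have e : sl (algebraMap ℚ K 0) (algebraMap ℚ K 0) x' y' -
          sl (algebraMap ℚ K 0) (algebraMap ℚ K 0) x y =
          (sl (algebraMap ℚ K 0) (algebraMap ℚ K 0) x' y' - c) -
          (sl (algebraMap ℚ K 0) (algebraMap ℚ K 0) x y - c) := by ring
        rw [e]
        exact v.map_sub_lt h2' h2
      have h4 := M.toIntT.sub_mem_E1_of_sl M.hm (h₁ := h') (h₂ := h) h1' h1 h3
      have h5 : (Point.some x' y' h' : (P.freyCurve⁄K).Point) - Point.some x y h =
          (j - i) • Q := by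
        rw [← he, ← he', sub_nsmul _ hij.le]
        abel
      have h6 : (j - i) • Q = 0 := by
        rw [← h5]
        apply hE1 _ _ h4
        rw [h5, ← mul_nsmul', mul_comm, mul_nsmul', hpQ, smul_zero]
      exact hnQ (j - i) (by omega) (by omega) h6
    obtain ⟨x1, y1, h1, e1, a1, b1⟩ := key 1 (by norm_num) (by omega)
    obtain ⟨x2, y2, h2, e2, a2, b2⟩ := key 2 (by norm_num) (by omega)
    obtain ⟨x3, y3, h3, e3, a3, b3⟩ := key 3 (by norm_num) (by omega)
    rcases b1 with b1 | b1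
    · rcases b2 with b2 | b2
      · exact fin 1 2 (by norm_num) (by norm_num) (by norm_num)
          ⟨0, ⟨x1, y1, h1, e1, a1, by rwa [sub_zero]⟩, ⟨x2, y2, h2, e2, a2, by rwa [sub_zero]⟩⟩
      · rcases b3 with b3 | b3
        · exact fin 1 3 (by norm_num) (by norm_num) (by norm_num)
            ⟨0, ⟨x1, y1, h1, e1, a1, by rwa [sub_zero]⟩, ⟨x3, y3, h3, e3, a3, by rwa [sub_zero]⟩⟩
        · exact fin 2 3 (by norm_num) (by norm_num) (by norm_num)
            ⟨1, ⟨x2, y2, h2, e2, a2, b2⟩, ⟨x3, y3, h3, e3, a3, b3⟩⟩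
    · rcases b2 with b2 | b2
      · rcases b3 with b3 | b3
        · exact fin 2 3 (by norm_num) (by norm_num) (by norm_num)
            ⟨0, ⟨x2, y2, h2, e2, a2, by rwa [sub_zero]⟩, ⟨x3, y3, h3, e3, a3, by rwa [sub_zero]⟩⟩
        · exact fin 1 3 (by norm_num) (by norm_num) (by norm_num)
            ⟨1, ⟨x1, y1, h1, e1, a1, b1⟩, ⟨x3, y3, h3, e3, a3, b3⟩⟩
      · exact fin 1 2 (by norm_num) (by norm_num) (by norm_num)
          ⟨1, ⟨x1, y1, h1, e1, a1, b1⟩, ⟨x2, y2, h2, e2, a2, b2⟩⟩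
  · rcases Q with _ | ⟨x, y, h⟩
    · exact hQ0 rfl
    obtain ⟨⟨x₀, hx₀⟩, -⟩ := rational_of_fixed hfix
    rcases M.multiples P.pp hp2 hpQ hE0 1 with h0 | h0 | h0
    · rw [one_nsmul] at h0
      exact hQ0 h0
    · rw [one_nsmul] at h0
      exact frey_no_branch P hv M hpQ h0 hx₀
    · rw [one_nsmul] at h0
      exact frey_no_branch P hv M.swap hpQ h0 hx₀

end

end Fermat.Agent.EC
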