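import Fermat.Agent.EC.FreyLocal
import Fermat.Agent.Places.InertiaLift

/-!
# Reducible mod `p` representations of the Frey curve
-/

set_option autoImplicit false
set_option linter.unusedSectionVars false

namespace Fermat.Agent.EC

open WeierstrassCurve WeierstrassCurve.Affine WeierstrassCurve.Affine.Point

/-- the `n`-torsion subgroup -/
def tors {K : Type*} [Field K] [DecidableEq K] (W : Affine K) (n : ℕ) : AddSubgroup W.Point where
  carrier := {Q | n • Q = 0}
  zero_mem' := smul_zero _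
  add_mem' := by
    intro a b ha hb
    rw [Set.mem_ofPred_eq] at *
    rw [smul_add, ha, hb, add_zero]
  neg_mem' := by
    intro a ha
    rw [Set.mem_ofPred_eq] at *
    rw [smul_neg, ha, _root_.neg_zero]

lemma mem_tors {K : Type*} [Field K] [DecidableEq K] {W : Affine K} {n : ℕ} {Q : W.Point} :
    Q ∈ tors W n ↔ n • Q = 0 := Iff.rfl

section

variable {F K : Type*} [Field F] [Field K] [Algebra F K] [DecidableEq K] [Algebra.IsIntegral F K]
  {W : Affine F}

lemma smul_mem_tors {n : ℕ} (σ : K ≃ₐ[F] K) {Q : (W⁄K).Point} (hQ : Q ∈ tors (W⁄K) n) :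
    σ • Q ∈ tors (W⁄K) n := by
  rw [mem_tors] at *
  have := algEquiv_smul_zsmul σ (n : ℤ) Q
  rw [natCast_zsmul, natCast_zsmul] at this
  rw [← this, hQ, smul_zero]

lemma isOpen_fix (Q : (W⁄K).Point) : IsOpen {σ : K ≃ₐ[F] K | σ • Q = Q} := by
  rcases Q with _ | ⟨x, y, h⟩
  · convert isOpen_univ
    ext σ
    simp only [Set.mem_ofPred_eq, Set.mem_univ, iff_true]
    exact smul_zero σ
  · have h1 : {σ : K ≃ₐ[F] K | σ • (Point.some x y h : (W⁄K).Point) = Point.some x y h} =
        (MulAction.stabilizer (K ≃ₐ[F] K) x : Set (K ≃ₐ[F] K)) ∩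
        (MulAction.stabilizer (K ≃ₐ[F] K) y : Set (K ≃ₐ[F] K)) := by
      ext σ
      simp only [Set.mem_ofPred_eq, Set.mem_inter_iff, SetLike.mem_coe, MulAction.mem_stabilizer_iff]
      rw [smul_some, Point.some.injEq]
      rfl
    rw [h1]
    exact (stabilizer_isOpen_of_isIntegral x).inter (stabilizer_isOpen_of_isIntegral y)

/-- the subgroup fixing `N` pointwise -/
def fixSub (N : AddSubgroup (W⁄K).Point) : Subgroup (K ≃ₐ[F] K) where
  carrier := {σ | ∀ x ∈ N, σ • x = x}
  one_mem' := fun x _ => one_smul _ x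
  mul_mem' := by
    intro a b ha hb x hx
    rw [mul_smul, hb x hx, ha x hx]
  inv_mem' := by
    intro a ha x hx
    rw [inv_smul_eq_iff, ha x hx]

lemma mem_fixSub {N : AddSubgroup (W⁄K).Point} {σ : K ≃ₐ[F] K} :
    σ ∈ fixSub N ↔ ∀ x ∈ N, σ • x = x := Iff.rfl

/-- the subgroup acting trivially on `V / N` -/
def cofixSub (N V : AddSubgroup (W⁄K).Point) (hN : ∀ σ : K ≃ₐ[F] K, ∀ x ∈ N, σ • x ∈ N) :
    Subgroup (K ≃ₐ[F] K) where
  carrier := {σ | ∀ x ∈ V, σ • x - x ∈ N}
  one_mem' := fun x _ => by rw [one_smul, sub_self]; exact zero_mem _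
  mul_mem' := by
    intro a b ha hb x hx
    have e : (a * b) • x - x = a • (b • x - x) + (a • x - x) := by
      rw [mul_smul, smul_sub]; abel
    rw [e]
    exact add_mem (hN a _ (hb x hx)) (ha x hx)
  inv_mem' := by
    intro a ha x hx
    have e : a⁻¹ • x - x = - (a⁻¹ • (a • x - x)) := by
      rw [smul_sub, inv_smul_smul]; abel
    rw [e]
    exact neg_mem (hN _ _ (ha x hx))

lemma mem_cofixSub {N V : AddSubgroup (W⁄K).Point}
    {hN : ∀ σ : K ≃ₐ[F] K, ∀ x ∈ N, σ • x ∈ N} {σ : K ≃ₐ[F] K} :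
    σ ∈ cofixSub N V hN ↔ ∀ x ∈ V, σ • x - x ∈ N := Iff.rfl

lemma isOpen_fixSub {N : AddSubgroup (W⁄K).Point} (hfin : Finite N) :
    IsOpen (fixSub N : Set (K ≃ₐ[F] K)) := by
  have h : (fixSub N : Set (K ≃ₐ[F] K)) = ⋂ x ∈ (N : Set (W⁄K).Point), {σ | σ • x = x} := by
    ext σ
    simp only [Set.mem_iInter]
    exact Iff.rfl
  rw [h]
  exact (Set.toFinite _).isOpen_biInter fun x _ => isOpen_fix x

lemma isOpen_cofixSub {N V : AddSubgroup (W⁄K).Point} (hfin : Finite V)
    (hN : ∀ σ : K ≃ₐ[F] K, ∀ x ∈ N, σ • x ∈ N) :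
    IsOpen (cofixSub N V hN : Set (K ≃ₐ[F] K)) := by
  refine Subgroup.isOpen_mono (H₁ := fixSub V) ?_ (isOpen_fixSub hfin)
  intro σ hσ x hx
  have : σ • x = x := hσ x hx
  rw [this, sub_self]
  exact zero_mem _

end

/-- **Reducible case**: a Galois stable line is pointwise fixed or cofixed. -/
theorem frey_line (P : FreyPackage) {K : Type*} [Field K] [CharZero K] [Algebra ℚ K]
    [DecidableEq K] [IsGalois ℚ K] [IsAlgClosed K] {N : AddSubgroup (P.freyCurve⁄K).Point}
    (hNV : N ≤ tors (P.freyCurve⁄K) P.p) (hNcard : Nat.card N = P.p)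
    (hVcard : Nat.card (tors (P.freyCurve⁄K) P.p) = P.p ^ 2)
    (hstab : ∀ σ : K ≃ₐ[ℚ] K, ∀ x ∈ N, σ • x ∈ N) :
    (∀ σ : K ≃ₐ[ℚ] K, ∀ x ∈ N, σ • x = x) ∨
      (∀ σ : K ≃ₐ[ℚ] K, ∀ x ∈ tors (P.freyCurve⁄K) P.p, σ • x - x ∈ N) := by
  have hp := P.pp
  have hp2 : P.p ≠ 2 := by have := P.hp5; omega
  set V := tors (P.freyCurve⁄K) P.p with hV
  have hfinN : Finite N := Nat.finite_of_card_ne_zero (by rw [hNcard]; exact hp.ne_zero)
  have hfinV : Finite V :=
    Nat.finite_of_card_ne_zero (by rw [hVcard]; exact pow_ne_zero 2 hp.ne_zero)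
  have hN0 : ∃ Q ∈ N, Q ≠ 0 := by
    by_contra hcon
    push Not at hcon
    have : N = ⊥ := by
      rw [eq_bot_iff]; intro x hx; rw [AddSubgroup.mem_bot]; exact hcon x hx
    rw [this] at hNcard
    simp at hNcard
    exact hp.one_lt.ne hNcard
  obtain ⟨S, hS⟩ := exists_xset hfinN
  obtain ⟨r, hr⟩ := prod_xset_rational hS hstab
  -- primes different from `p`
  have hne : ∀ q : ℕ, q.Prime → q ≠ P.p → ∀ A : ValuationSubring K, A.LiesOverPrime q →
      ∀ τ ∈ A.inertiaSubgroupIn ℚ, (∀ x ∈ N, τ • x = x) ∧ (∀ x ∈ V, τ • x - x ∈ N) := by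
    intro q hq hqp A hA τ hτ
    have hv : A.valuation (q : K) < 1 := hA
    obtain ⟨E0, E1, hE, hE1, hloc⟩ := frey_local P A.valuation hq hv
    obtain ⟨H1, H2⟩ := hloc τ (isInert_of_mem A hτ)
    have hvp : A.valuation (P.p : K) = 1 := by
      have : ¬ (q : ℤ) ∣ (P.p : ℤ) := by
        intro h
        rw [Int.natCast_dvd_natCast, Nat.prime_dvd_prime_iff_eq hq P.pp] at h
        exact hqp h
      exact_mod_cast val_int_eq_one_of_not_dvd A.valuation hq hv this
    have hE1V : ∀ x ∈ V, x ∈ E1 → x = 0 := by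
      intro x hx hxE
      by_contra hx0
      have h1 := (hE1 x hx0).mp hxE
      rcases x with _ | ⟨x, y, h⟩
      · exact hx0 rfl
      · have h2 := (frey_isInt P A.valuation).torsion_integral P.hp_odd hvp h hx
        exact absurd h2 (not_le.mpr h1)
    refine ⟨fix_line (τ := Point.map τ.toAlgHom) hp hNcard hNV (hstab τ) H1 H2
      (fun x hx h => hE1V x (hNV hx) h), ?_⟩
    exact cofix_line' (τ := Point.map τ.toAlgHom) hp hNcard hVcard hNV (hstab τ) (fun x hx => smul_mem_tors τ hx) H1 H2 hE1V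
  by_cases hden : P.p ∣ r.den
  · right
    have htop := Places.eq_top_of_inertia_le (cofixSub N V hstab) (isOpen_cofixSub hfinV hstab) (by
      intro q hq A hA τ hτ
      by_cases hqp : q = P.p
      · subst hqp
        have hv : A.valuation (P.p : K) < 1 := hA
        obtain ⟨E0, E1, hE, hE1, hloc⟩ := frey_local P A.valuation hq hv
        obtain ⟨H1, H2⟩ := hloc τ (isInert_of_mem A hτ)
        have hdich : (∀ Q ∈ N, Q ≠ 0 → A.valuation (xc Q) ≤ 1) ∨
            (∀ Q ∈ N, Q ≠ 0 → 1 < A.valuation (xc Q)) := by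
          rcases line_dichotomy hp hNcard E1 with h | h
          · left
            intro Q hQ hQ0
            by_contra hlt
            push Not at hlt
            exact hQ0 (h Q hQ ((hE1 Q hQ0).mpr hlt))
          · right
            intro Q hQ hQ0
            exact (hE1 Q hQ0).mp (h hQ)
        have hform := (line_formal_iff hp hv hN0 hS hr hdich).mpr hden
        have hNE : N ≤ E1 := by
          intro Q hQ
          by_cases hQ0 : Q = 0
          · rw [hQ0]; exact zero_mem _
          · exact (hE1 Q hQ0).mpr (hform Q hQ hQ0)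
        refine cofix_line (τ := Point.map τ.toAlgHom) hp hNcard hVcard hNV hE (fun x hx => smul_mem_tors τ hx) H1 H2 hNE ?_
        intro x hx hxE
        by_cases hx0 : x = 0
        · rw [hx0]; exact zero_mem _
        · exact mem_line_of_formal (frey_isInt P A.valuation) hp hp2 hv (fun Q hQ => hNV hQ) hN0
            hS hr hform hx hx0 ((hE1 x hx0).mp hxE)
      · exact (hne q hq hqp A hA τ hτ).2)
    intro σ x hx
    have : σ ∈ cofixSub N V hstab := by rw [htop]; trivial
    exact this x hx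
  · left
    have htop := Places.eq_top_of_inertia_le (fixSub N) (isOpen_fixSub hfinN) (by
      intro q hq A hA τ hτ
      by_cases hqp : q = P.p
      · subst hqp
        have hv : A.valuation (P.p : K) < 1 := hA
        obtain ⟨E0, E1, hE, hE1, hloc⟩ := frey_local P A.valuation hq hv
        obtain ⟨H1, H2⟩ := hloc τ (isInert_of_mem A hτ)
        rcases line_dichotomy hp hNcard E1 with h | h
        · exact fix_line (τ := Point.map τ.toAlgHom) hp hNcard hNV (hstab τ) H1 H2 h
        · exfalso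
          apply hden
          refine (line_formal_iff hp hv hN0 hS hr (Or.inr ?_)).mp ?_
          · intro Q hQ hQ0
            exact (hE1 Q hQ0).mp (h hQ)
          · intro Q hQ hQ0
            exact (hE1 Q hQ0).mp (h hQ)
      · exact (hne q hq hqp A hA τ hτ).1)
    intro σ x hx
    have : σ ∈ fixSub N := by rw [htop]; trivial
    exact this x hx

end Fermat.Agent.EC
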