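import Fermat.Prelude.Def_FLTPrelim_ModularRep
import Fermat.Prelude.Def_FLTPrelim_CofixedLine
import Fermat.Agent.EC.NoTorsion
import Fermat.Agent.Places.Instances

/-!
# Reducible mod `p` representations give stable lines
-/

set_option autoImplicit false
set_option linter.unusedSectionVars false

namespace Fermat.Agent.EC

open WeierstrassCurve WeierstrassCurve.Affine WeierstrassCurve.Affine.Point

/-- a reducible mod `p` representation gives a stable line. -/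
theorem exists_stable_line {W : Affine ℚ} (hΔ : (W⁄(AlgebraicClosure ℚ)).Δ ≠ 0) {p : ℕ}
    (hp : p.Prime) (hp2 : p ≠ 2)
    (hred : ¬ GaloisRepIsIrreducible (K := AlgebraicClosure ℚ) ℚ W p) :
    ∃ N : AddSubgroup (W⁄(AlgebraicClosure ℚ)).Point, N ≤ tors (W⁄(AlgebraicClosure ℚ)) p ∧
      Nat.card N = p ∧ Nat.card (tors (W⁄(AlgebraicClosure ℚ)) p) = p ^ 2 ∧
      ∀ σ : AlgebraicClosure ℚ ≃ₐ[ℚ] AlgebraicClosure ℚ, ∀ x ∈ N, σ • x ∈ N := by
  have hodd : Odd p := hp.odd_of_ne_two hp2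
  have hp3 : 3 ≤ p := by have := hp.two_le; omega
  have hp0 : ((p : ℕ) : AlgebraicClosure ℚ) ≠ 0 := Nat.cast_ne_zero.mpr hp.ne_zero
  have hntriv : Nontrivial (Submodule.torsionBy ℤ (W⁄(AlgebraicClosure ℚ)).Point p) := by
    obtain ⟨Q, hQ0, hQ⟩ := Fermat.Agent.EC.exists_torsion_point
      (W := W⁄(AlgebraicClosure ℚ)) hΔ hodd hp3 hp0
    refine ⟨⟨Q, ?_⟩, 0, fun h => hQ0 (congrArg Subtype.val h)⟩
    rw [Submodule.mem_torsionBy_iff, natCast_zsmul]
    exact hQ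
  have hex : ∃ N : Submodule (ZMod p)
      (Submodule.torsionBy ℤ (W⁄(AlgebraicClosure ℚ)).Point p),
      IsGaloisStable ℚ N ∧ N ≠ ⊥ ∧ N ≠ ⊤ := by
    by_contra hcon
    push Not at hcon
    apply hred
    refine ⟨hntriv, fun N hN => ?_⟩
    by_cases h : N = ⊥
    · exact Or.inl h
    · exact Or.inr (hcon N hN h)
  obtain ⟨N, hstab, hN0, hN1⟩ := hex
  -- the subgroup of points
  let ι : (Submodule.torsionBy ℤ (W⁄(AlgebraicClosure ℚ)).Point p) →+
    (W⁄(AlgebraicClosure ℚ)).Point := (Submodule.subtype _).toAddMonoidHom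
  have hι : Function.Injective ι := Subtype.val_injective
  let N' : AddSubgroup (W⁄(AlgebraicClosure ℚ)).Point := N.toAddSubgroup.map ι
  set V := Fermat.Agent.EC.tors (W⁄(AlgebraicClosure ℚ)) p with hV
  have hmemV : ∀ Q, Q ∈ V ↔
      Q ∈ Submodule.torsionBy ℤ (W⁄(AlgebraicClosure ℚ)).Point p := by
    intro Q
    rw [hV, Fermat.Agent.EC.mem_tors, Submodule.mem_torsionBy_iff, natCast_zsmul]
  have hNV : N' ≤ V := by
    rintro _ ⟨x, _, rfl⟩
    exact (hmemV _).mpr x.2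
  have hfin := Fermat.Agent.EC.finite_torsion (W := W⁄(AlgebraicClosure ℚ))
    hodd hp0
  have hfinV : Finite V := hfin.1
  have hcardV : Nat.card V ≤ p ^ 2 := hfin.2
  have hN'0 : N' ≠ ⊥ := by
    intro h
    apply hN0
    rw [eq_bot_iff]
    intro x hx
    have h1 : ι x ∈ N' := ⟨x, hx, rfl⟩
    rw [h, AddSubgroup.mem_bot] at h1
    rw [Submodule.mem_bot]
    exact hι (by rw [h1, _root_.map_zero])
  have hN'1 : N' ≠ V := by
    intro h
    apply hN1
    rw [eq_top_iff]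
    intro x _
    have h1 : ι x ∈ N' := by rw [h]; exact (hmemV _).mpr x.2
    obtain ⟨y, hy, hyx⟩ := h1
    rw [← hι hyx]
    exact hy
  obtain ⟨hc1, hc2⟩ := Fermat.Agent.EC.card_line hp hNV (fun x hx => hx) hfinV hcardV hN'0 hN'1
  refine ⟨N', hNV, hc1, hc2, ?_⟩
  rintro σ _ ⟨x, hx, rfl⟩
  exact ⟨σ • x, hstab σ x hx, rfl⟩

/-- generators of a group of prime order -/
lemma exists_nsmul_eq {G : Type*} [AddCommGroup G] {p : ℕ} (hp : p.Prime) {N : AddSubgroup G}
    (hN : Nat.card N = p) {x y : G} (hx : x ∈ N) (hx0 : x ≠ 0) (hy : y ∈ N) :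
    ∃ k < p, k • x = y := by
  classical
  have : Fact p.Prime := ⟨hp⟩
  have hpN : Nat.card N ≠ 0 := by rw [hN]; exact hp.ne_zero
  have hfin : Finite N := Nat.finite_of_card_ne_zero hpN
  have hx1 : (⟨x, hx⟩ : N) ≠ 0 := fun h => hx0 (congrArg Subtype.val h)
  have hmem : (⟨y, hy⟩ : N) ∈ AddSubgroup.zmultiples (⟨x, hx⟩ : N) :=
    mem_zmultiples_of_prime_card hN hx1
  have hord : addOrderOf (⟨x, hx⟩ : N) = p := by
    have h1 : addOrderOf (⟨x, hx⟩ : N) ∣ p := by rw [← hN]; exact addOrderOf_dvd_natCard _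
    rcases (Nat.dvd_prime hp).mp h1 with h2 | h2
    · rw [AddMonoid.addOrderOf_eq_one_iff] at h2
      exact absurd h2 hx1
    · exact h2
  have hfo : IsOfFinAddOrder (⟨x, hx⟩ : N) := by
    rw [← addOrderOf_pos_iff, hord]; exact hp.pos
  rw [hfo.mem_zmultiples_iff_mem_range_addOrderOf, hord] at hmem
  rw [Finset.mem_image] at hmem
  obtain ⟨k, hk, hk2⟩ := hmem
  refine ⟨k, Finset.mem_range.mp hk, ?_⟩
  exact congrArg Subtype.val hk2

end Fermat.Agent.EC
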