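import Fermat.Agent.EC.GaussBound
import Fermat.Agent.EC.Frey
import Mathlib.FieldTheory.Galois.Infinite

/-!
# Galois-stable lines in the formal group
-/

set_option autoImplicit false
set_option linter.unusedSectionVars false

namespace Fermat.Agent.EC

open WeierstrassCurve WeierstrassCurve.Affine WeierstrassCurve.Affine.Point

section RatVal

variable {K : Type*} [Field K] [CharZero K] [Algebra ℚ K] {Γ₀ : Type*}
  [LinearOrderedCommGroupWithZero Γ₀] (v : Valuation K Γ₀)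

lemma map_rat_eq (r : ℚ) : algebraMap ℚ K r = (r.num : K) / (r.den : K) := by
  conv_lhs => rw [← Rat.num_div_den r]
  rw [map_div₀, map_intCast, map_natCast]

lemma one_lt_val_rat_iff {p : ℕ} (hp : p.Prime) (hv : v (p : K) < 1) (r : ℚ) :
    1 < v (algebraMap ℚ K r) ↔ p ∣ r.den := by
  rw [map_rat_eq, map_div₀]
  have hden0 : (r.den : K) ≠ 0 := by exact_mod_cast r.den_nz
  have hpos : 0 < v (r.den : K) := (Valuation.pos_iff v).mpr hden0
  rw [one_lt_div₀ hpos]
  constructor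
  · intro h
    have h1 : v ((r.den : ℤ) : K) < 1 := by
      have := lt_of_lt_of_le h (val_int_le v r.num)
      exact_mod_cast this
    have := (val_int_lt_iff v hp hv).mp h1
    exact_mod_cast this
  · intro h
    have h1 : v ((r.den : ℤ) : K) < 1 := val_int_lt v hv (by exact_mod_cast h)
    have h2 : v (r.num : K) = 1 := by
      apply val_int_eq_one_of_not_dvd v hp hv
      intro h3
      have h4 : p ∣ r.num.natAbs := Int.natCast_dvd.mp h3
      have h5 := Nat.dvd_gcd h4 h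
      rw [r.reduced.gcd_eq_one] at h5
      exact hp.one_lt.ne' (Nat.dvd_one.mp h5)
    rw [h2]
    exact_mod_cast h1

lemma one_le_mul_val_rat {p : ℕ} (hp : p.Prime) (hv : v (p : K) < 1) (r : ℚ)
    (hr : 1 < v (algebraMap ℚ K r)) : 1 ≤ v (p : K) * v (algebraMap ℚ K r) := by
  have hd := (one_lt_val_rat_iff v hp hv r).mp hr
  rw [← map_mul]
  have h2 : v (r.num : K) = 1 := by
    apply val_int_eq_one_of_not_dvd v hp hv
    intro h3
    have h4 : p ∣ r.num.natAbs := Int.natCast_dvd.mp h3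
    have h5 := Nat.dvd_gcd h4 hd
    rw [r.reduced.gcd_eq_one] at h5
    exact hp.one_lt.ne' (Nat.dvd_one.mp h5)
  obtain ⟨k, hk⟩ := hd
  have hden0 : (r.den : K) ≠ 0 := by exact_mod_cast r.den_nz
  have hp0 : (p : K) ≠ 0 := by exact_mod_cast hp.ne_zero
  have hk0 : (k : K) ≠ 0 := by
    intro h0
    apply hden0
    rw [hk]; push_cast; rw [h0, mul_zero]
  have e : (p : K) * algebraMap ℚ K r = (r.num : K) / (k : K) := by
    rw [map_rat_eq, hk]
    push_cast
    field_simp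
  rw [e, map_div₀, h2, one_div]
  exact (one_le_inv₀ ((Valuation.pos_iff v).mpr hk0)).mpr (val_nat_le v k)

end RatVal

variable {F K : Type*} [Field F] [Field K] [Algebra F K] [DecidableEq K] {W : Affine F}

lemma xc_smul (σ : K ≃ₐ[F] K) {P : (W⁄K).Point} (hP : P ≠ 0) : xc (σ • P) = σ (xc P) := by
  rcases P with _ | ⟨x, y, h⟩
  · exact absurd rfl hP
  · rfl

lemma eq_or_eq_neg_of_xc_eq {W : Affine K} {P Q : W.Point} (hP : P ≠ 0) (hQ : Q ≠ 0)
    (h : xc P = xc Q) : P = Q ∨ P = -Q := by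
  rcases P with _ | ⟨x, y, h1⟩
  · exact absurd rfl hP
  rcases Q with _ | ⟨x', y', h2⟩
  · exact absurd rfl hQ
  have hx : x = x' := h
  subst hx
  rcases Y_eq_of_X_eq h1.1 h2.1 rfl with h3 | h3
  · left; subst h3; rfl
  · right; subst h3; rfl

/-- the set of `x`-coordinates of a finite subgroup -/
lemma exists_xset {G : AddSubgroup (W⁄K).Point} (hG : Finite G) :
    ∃ S : Finset K, ∀ x, x ∈ S ↔ ∃ P ∈ G, P ≠ 0 ∧ xc P = x := by
  classical
  have hfin : (G : Set (W⁄K).Point).Finite := Set.toFinite _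
  refine ⟨(hfin.toFinset.erase 0).image xc, fun x => ?_⟩
  simp only [Finset.mem_image, Finset.mem_erase, Set.Finite.mem_toFinset, SetLike.mem_coe]
  constructor
  · rintro ⟨P, ⟨h1, h2⟩, h3⟩; exact ⟨P, h2, h1, h3⟩
  · rintro ⟨P, h2, h1, h3⟩; exact ⟨P, ⟨h1, h2⟩, h3⟩

lemma prod_xset_rational [IsGalois F K] {N : AddSubgroup (W⁄K).Point} {S : Finset K}
    (hS : ∀ x, x ∈ S ↔ ∃ P ∈ N, P ≠ 0 ∧ xc P = x)
    (hstab : ∀ σ : K ≃ₐ[F] K, ∀ P ∈ N, σ • P ∈ N) : ∃ r : F, ∏ x ∈ S, x = algebraMap F K r := by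
  classical
  have h : ∏ x ∈ S, x ∈ Set.range (algebraMap F K) := by
    rw [InfiniteGalois.mem_range_algebraMap_iff_fixed]
    intro σ
    rw [map_prod]
    have himg : S.image σ = S := by
      apply Finset.eq_of_subset_of_card_le
      · intro x hx
        obtain ⟨x', hx', rfl⟩ := Finset.mem_image.mp hx
        obtain ⟨P, hP, hP0, rfl⟩ := (hS x').mp hx'
        rw [hS]
        refine ⟨σ • P, hstab σ P hP, ?_, xc_smul σ hP0⟩
        intro h0
        apply hP0
        have := congrArg (fun Q => σ⁻¹ • Q) h0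
        simpa using this
      · rw [Finset.card_image_of_injective _ σ.injective]
    conv_rhs => rw [← himg]
    rw [Finset.prod_image (fun _ _ _ _ h => σ.injective h)]
  obtain ⟨r, hr⟩ := h
  exact ⟨r, hr.symm⟩

section main

variable {K : Type*} [Field K] [CharZero K] [Algebra ℚ K] [DecidableEq K] {Γ₀ : Type*}
  [LinearOrderedCommGroupWithZero Γ₀] {v : Valuation K Γ₀} {W : Affine ℚ}

/-- If a Galois stable line `N` lies in the formal group at a place over `p`, all `p`-torsion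
points in the formal group are in `N`. -/
lemma mem_line_of_formal (hI : IsInt v (W⁄K)) {p : ℕ} (hp : p.Prime) (hp2 : p ≠ 2)
    (hv : v (p : K) < 1)
    {N : AddSubgroup (W⁄K).Point} (hNp : ∀ P ∈ N, p • P = 0) (hN0 : ∃ P ∈ N, P ≠ 0)
    {S : Finset K} (hS : ∀ x, x ∈ S ↔ ∃ P ∈ N, P ≠ 0 ∧ xc P = x)
    {r : ℚ} (hr : ∏ x ∈ S, x = algebraMap ℚ K r)
    (hNE : ∀ P ∈ N, P ≠ 0 → 1 < v (xc P)) {Q : (W⁄K).Point} (hQp : p • Q = 0) (hQ0 : Q ≠ 0)
    (hQ : 1 < v (xc Q)) : Q ∈ N := by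
  classical
  by_contra hQN
  have hodd : Odd p := hp.odd_of_ne_two hp2
  have hp0 : (p : K) ≠ 0 := by exact_mod_cast hp.ne_zero
  have hxQ : xc Q ∉ S := by
    intro hmem
    obtain ⟨P, hP, hP0, he⟩ := (hS _).mp hmem
    rcases eq_or_eq_neg_of_xc_eq hP0 hQ0 he with h | h
    · rw [h] at hP; exact hQN hP
    · rw [h] at hP; exact hQN (by simpa using N.neg_mem hP)
  have hS1 : ∀ x ∈ S, 1 < v x := by
    intro x hx
    obtain ⟨P, hP, hP0, rfl⟩ := (hS x).mp hx
    exact hNE P hP hP0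
  have h1 := hI.prod_xc_le hodd hp0 (S := insert (xc Q) S) (by
    intro x hx
    rcases Finset.mem_insert.mp hx with rfl | hx
    · exact hQ.le
    · exact (hS1 x hx).le) (by
    intro x hx
    rcases Finset.mem_insert.mp hx with rfl | hx
    · exact ⟨Q, hQ0, hQp, rfl⟩
    · obtain ⟨P, hP, hP0, he⟩ := (hS x).mp hx
      exact ⟨P, hP0, hNp P hP, he⟩)
  rw [Finset.prod_insert hxQ, ← map_prod, hr] at h1
  have hr1 : 1 < v (algebraMap ℚ K r) := by
    rw [← hr, map_prod]
    obtain ⟨P, hP, hP0⟩ := hN0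
    have hmem : xc P ∈ S := (hS _).mpr ⟨P, hP, hP0, rfl⟩
    rw [← Finset.mul_prod_erase S (fun x => v x) hmem]
    refine one_lt_mul_of_lt_of_le' (hS1 _ hmem) ?_
    apply Finset.one_le_prod'
    intro x hx
    exact (hS1 x (Finset.mem_of_mem_erase hx)).le
  have h2 := one_le_mul_val_rat v hp hv r hr1
  have h3 : v (xc Q) ≤ 1 := by
    calc v (xc Q) ≤ v (xc Q) * (v (p : K) * v (algebraMap ℚ K r)) := le_mul_of_one_le_right' h2
      _ = v (p : K) * (v (xc Q) * v (algebraMap ℚ K r)) := by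
        rw [mul_left_comm]
      _ ≤ 1 := h1
  exact absurd h3 (not_le.mpr hQ)

/-- criterion for a line to be in the formal group, independent of the place -/
lemma line_formal_iff {p : ℕ} (hp : p.Prime) (hv : v (p : K) < 1)
    {N : AddSubgroup (W⁄K).Point} (hN0 : ∃ P ∈ N, P ≠ 0)
    {S : Finset K} (hS : ∀ x, x ∈ S ↔ ∃ P ∈ N, P ≠ 0 ∧ xc P = x)
    {r : ℚ} (hr : ∏ x ∈ S, x = algebraMap ℚ K r)
    (hdich : (∀ P ∈ N, P ≠ 0 → v (xc P) ≤ 1) ∨ (∀ P ∈ N, P ≠ 0 → 1 < v (xc P))) :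
    (∀ P ∈ N, P ≠ 0 → 1 < v (xc P)) ↔ p ∣ r.den := by
  rw [← one_lt_val_rat_iff v hp hv r, ← hr, map_prod]
  obtain ⟨P, hP, hP0⟩ := hN0
  have hmem : xc P ∈ S := (hS _).mpr ⟨P, hP, hP0, rfl⟩
  constructor
  · intro h
    have hS1 : ∀ x ∈ S, 1 < v x := by
      intro x hx
      obtain ⟨P, hP, hP0, rfl⟩ := (hS x).mp hx
      exact h P hP hP0
    classical
    rw [← Finset.mul_prod_erase S (fun x => v x) hmem]
    refine one_lt_mul_of_lt_of_le' (hS1 _ hmem) ?_
    apply Finset.one_le_prod'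
    intro x hx
    exact (hS1 x (Finset.mem_of_mem_erase hx)).le
  · intro h
    rcases hdich with h1 | h1
    · exfalso
      have : ∏ x ∈ S, v x ≤ 1 := by
        apply Finset.prod_le_one'
        intro x hx
        obtain ⟨P, hP, hP0, rfl⟩ := (hS x).mp hx
        exact h1 P hP hP0
      exact absurd h (not_lt.mpr this)
    · exact h1

end main

end Fermat.Agent.EC
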