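import Mathlib.AlgebraicGeometry.EllipticCurve.Affine.Point
import Mathlib.RingTheory.Valuation.ValuationSubring
import Mathlib.Tactic

/-!
# Weierstrass curves with a rational 2-torsion point: explicit addition formulas
-/

set_option autoImplicit false

namespace Fermat.Agent.EC

open WeierstrassCurve WeierstrassCurve.Affine

variable {K : Type*} [Field K]

/-- `(r, t)` is a point on `W` which is fixed by negation. -/
structure TModel (W : WeierstrassCurve K) (r t : K) : Prop where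
  eqn : W.toAffine.Equation r t
  two : 2 * t + W.a₁ * r + W.a₃ = 0

/-- the coefficient `a₂` after translating `T` to the origin -/
def tA2 (W : WeierstrassCurve K) (r : K) : K := W.a₂ + 3 * r

/-- the coefficient `a₄` after translating `T` to the origin -/
def tA4 (W : WeierstrassCurve K) (r t : K) : K := 3 * r ^ 2 + 2 * W.a₂ * r + W.a₄ - W.a₁ * t

/-- the slope coordinate `s = (y - t) / (x - r)` -/
def sl (r t x y : K) : K := (y - t) / (x - r)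

namespace TModel

variable {W : WeierstrassCurve K} {r t : K} (M : TModel W r t)

include M

lemma curve {x y : K} (h : W.toAffine.Equation x y) (hx : x ≠ r) :
    sl r t x y ^ 2 * (x - r) + W.a₁ * sl r t x y * (x - r) =
      (x - r) ^ 2 + tA2 W r * (x - r) + tA4 W r t := by
  have hE := M.eqn
  have h2 := M.two
  rw [Affine.equation_iff] at h hE
  have hx' : x - r ≠ 0 := sub_ne_zero.mpr hx
  unfold sl tA2 tA4
  field_simp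
  linear_combination h - hE - (y - t) * h2

lemma curve' {x y : K} (h : W.toAffine.Equation x y) (hx : x ≠ r) :
    sl r t x y ^ 2 + W.a₁ * sl r t x y =
      (x - r) + tA2 W r + tA4 W r t / (x - r) := by
  have hx' : x - r ≠ 0 := sub_ne_zero.mpr hx
  have := M.curve h hx
  field_simp
  linear_combination this

/-- `(s₁ - s₂) w ξ₁ ξ₂ = (ξ₁ - ξ₂) (ξ₁ ξ₂ - A₄)` -/
lemma relR {x₁ y₁ x₂ y₂ : K} (h₁ : W.toAffine.Equation x₁ y₁) (h₂ : W.toAffine.Equation x₂ y₂)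
    (hx₁ : x₁ ≠ r) (hx₂ : x₂ ≠ r) :
    (sl r t x₁ y₁ - sl r t x₂ y₂) * (sl r t x₁ y₁ + sl r t x₂ y₂ + W.a₁) *
      ((x₁ - r) * (x₂ - r)) =
    (x₁ - x₂) * ((x₁ - r) * (x₂ - r) - tA4 W r t) := by
  have c1 := M.curve h₁ hx₁
  have c2 := M.curve h₂ hx₂
  linear_combination (x₂ - r) * c1 - (x₁ - r) * c2

omit M in
lemma sl_mul {x y : K} (hx : x ≠ r) : sl r t x y * (x - r) = y - t := by
  have hx' : x - r ≠ 0 := sub_ne_zero.mpr hx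
  unfold sl
  field_simp

/-- negation in the slope coordinate -/
lemma sl_neg {x y : K} (hx : x ≠ r) :
    sl r t x (W.toAffine.negY x y) = - sl r t x y - W.a₁ := by
  have hx' : x - r ≠ 0 := sub_ne_zero.mpr hx
  have h2 := M.two
  unfold sl
  simp only [negY]
  field_simp
  linear_combination (-1) * h2

variable [DecidableEq K]

/-- (B): `ξ₃ (ξ₁ - ξ₂)² = ξ₁ ξ₂ (s₁ - s₂)²` -/
lemma sumB {x₁ y₁ x₂ y₂ : K} (h₁ : W.toAffine.Equation x₁ y₁) (h₂ : W.toAffine.Equation x₂ y₂)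
    (hx₁ : x₁ ≠ r) (hx₂ : x₂ ≠ r) (hx : x₁ ≠ x₂) :
    (W.toAffine.addX x₁ x₂ (W.toAffine.slope x₁ x₂ y₁ y₂) - r) * (x₁ - x₂) ^ 2 =
      (x₁ - r) * (x₂ - r) * (sl r t x₁ y₁ - sl r t x₂ y₂) ^ 2 := by
  have c1 := M.curve h₁ hx₁
  have c2 := M.curve h₂ hx₂
  have e1 := sl_mul (t := t) (y := y₁) hx₁
  have e2 := sl_mul (t := t) (y := y₂) hx₂
  have hx' : x₁ - x₂ ≠ 0 := sub_ne_zero.mpr hx
  rw [slope_of_X_ne hx]
  simp only [addX]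
  have e3 : y₁ - y₂ = sl r t x₁ y₁ * (x₁ - r) - sl r t x₂ y₂ * (x₂ - r) := by
    rw [e1, e2]; ring
  rw [e3]
  field_simp
  unfold tA2 at c1 c2
  linear_combination (x₁ - x₂) * (c1 - c2)

/-- (A): `ξ₃ ξ₁ ξ₂ w² = (ξ₁ ξ₂ - A₄)²` -/
lemma sumA {x₁ y₁ x₂ y₂ : K} (h₁ : W.toAffine.Equation x₁ y₁) (h₂ : W.toAffine.Equation x₂ y₂)
    (hx₁ : x₁ ≠ r) (hx₂ : x₂ ≠ r) (hxy : ¬ (x₁ = x₂ ∧ y₁ = W.toAffine.negY x₂ y₂)) :
    (W.toAffine.addX x₁ x₂ (W.toAffine.slope x₁ x₂ y₁ y₂) - r) * ((x₁ - r) * (x₂ - r)) *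
      (sl r t x₁ y₁ + sl r t x₂ y₂ + W.a₁) ^ 2 = ((x₁ - r) * (x₂ - r) - tA4 W r t) ^ 2 := by
  by_cases hx : x₁ = x₂
  · have hy : y₁ ≠ W.toAffine.negY x₂ y₂ := fun h => hxy ⟨hx, h⟩
    have hyy : y₁ = y₂ := Y_eq_of_Y_ne h₁ h₂ hx hy
    subst hx hyy
    have c1 := M.curve h₁ hx₁
    have e1 := sl_mul (t := t) (y := y₁) hx₁
    rw [slope_of_Y_ne rfl hy]
    have h0 : y₁ - W.toAffine.negY x₁ y₁ ≠ 0 := sub_ne_zero.mpr hy
    have hx' : x₁ - r ≠ 0 := sub_ne_zero.mpr hx₁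
    have h1 : y₁ - W.toAffine.negY x₁ y₁ = (x₁ - r) * (2 * sl r t x₁ y₁ + W.a₁) := by
      simp only [negY]
      linear_combination M.two - 2 * e1
    have hw : 2 * sl r t x₁ y₁ + W.a₁ ≠ 0 := by
      intro h; rw [h, mul_zero] at h1; exact h0 h1
    rw [h1]
    simp only [addX]
    have e4 : 3 * x₁ ^ 2 + 2 * W.a₂ * x₁ + W.a₄ - W.a₁ * y₁ =
      3 * (x₁ - r) ^ 2 + 2 * tA2 W r * (x₁ - r) + tA4 W r t - W.a₁ * (sl r t x₁ y₁ * (x₁ - r)) := by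
      rw [e1]; unfold tA2 tA4; ring
    rw [e4]
    set s := sl r t x₁ y₁
    have e5 : s + s + W.a₁ = 2 * s + W.a₁ := by ring
    rw [e5]
    have e6 : W.a₂ = tA2 W r - 3 * r := by unfold tA2; ring
    rw [e6]
    set A2 := tA2 W r
    set A4 := tA4 W r t
    field_simp
    linear_combination (-(x₁ - r)) * (W.a₁ ^ 2 + 4 * A2 + 8 * (x₁ - r)) * c1
  · have hx' : x₁ - x₂ ≠ 0 := sub_ne_zero.mpr hx
    have B := M.sumB h₁ h₂ hx₁ hx₂ hx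
    have R := M.relR h₁ h₂ hx₁ hx₂
    have h2 : (x₁ - x₂) ^ 2 ≠ 0 := pow_ne_zero _ hx'
    apply mul_left_cancel₀ h2
    set ξ₃ := W.toAffine.addX x₁ x₂ (W.toAffine.slope x₁ x₂ y₁ y₂) - r
    set s₁ := sl r t x₁ y₁
    set s₂ := sl r t x₂ y₂
    set w := s₁ + s₂ + W.a₁
    linear_combination (x₁ - r) * (x₂ - r) * w ^ 2 * B +
      ((s₁ - s₂) * w * ((x₁ - r) * (x₂ - r)) + (x₁ - x₂) * ((x₁ - r) * (x₂ - r) - tA4 W r t)) * R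


/-- The `ν` relation: `ν w = -(ξ₁ ξ₂ - A₄)`, where `ν = (y₁ - t) - λ (x₁ - r)`. -/
lemma nu_mul_w {x₁ y₁ x₂ y₂ : K} (h₁ : W.toAffine.Equation x₁ y₁) (h₂ : W.toAffine.Equation x₂ y₂)
    (hx₁ : x₁ ≠ r) (hx₂ : x₂ ≠ r) (hxy : ¬ (x₁ = x₂ ∧ y₁ = W.toAffine.negY x₂ y₂)) :
    ((y₁ - t) - W.toAffine.slope x₁ x₂ y₁ y₂ * (x₁ - r)) *
      (sl r t x₁ y₁ + sl r t x₂ y₂ + W.a₁) = - ((x₁ - r) * (x₂ - r) - tA4 W r t) := by
  by_cases hx : x₁ = x₂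
  · have hy : y₁ ≠ W.toAffine.negY x₂ y₂ := fun h => hxy ⟨hx, h⟩
    have hyy : y₁ = y₂ := Y_eq_of_Y_ne h₁ h₂ hx hy
    subst hx hyy
    have c1 := M.curve h₁ hx₁
    have e1 := sl_mul (t := t) (y := y₁) hx₁
    rw [slope_of_Y_ne rfl hy]
    have h0 : y₁ - W.toAffine.negY x₁ y₁ ≠ 0 := sub_ne_zero.mpr hy
    have hx' : x₁ - r ≠ 0 := sub_ne_zero.mpr hx₁
    have h1 : y₁ - W.toAffine.negY x₁ y₁ = (x₁ - r) * (2 * sl r t x₁ y₁ + W.a₁) := by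
      simp only [negY]
      linear_combination M.two - 2 * e1
    have hw : 2 * sl r t x₁ y₁ + W.a₁ ≠ 0 := by
      intro h; rw [h, mul_zero] at h1; exact h0 h1
    rw [h1]
    have e4 : 3 * x₁ ^ 2 + 2 * W.a₂ * x₁ + W.a₄ - W.a₁ * y₁ =
      3 * (x₁ - r) ^ 2 + 2 * tA2 W r * (x₁ - r) + tA4 W r t - W.a₁ * (sl r t x₁ y₁ * (x₁ - r)) := by
      rw [e1]; unfold tA2 tA4; ring
    rw [e4, ← e1]
    set s := sl r t x₁ y₁
    have e5 : s + s + W.a₁ = 2 * s + W.a₁ := by ring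
    rw [e5]
    set A2 := tA2 W r
    set A4 := tA4 W r t
    set N := 3 * (x₁ - r) ^ 2 + 2 * A2 * (x₁ - r) + A4 - W.a₁ * (s * (x₁ - r)) with hN
    have e6 : N / ((x₁ - r) * (2 * s + W.a₁)) * (x₁ - r) * (2 * s + W.a₁) = N := by
      rw [mul_assoc, div_mul_cancel₀]
      exact mul_ne_zero hx' hw
    linear_combination (-1) * e6 + hN + 2 * c1
  · have hx' : x₁ - x₂ ≠ 0 := sub_ne_zero.mpr hx
    have e1 := sl_mul (t := t) (y := y₁) hx₁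
    have e2 := sl_mul (t := t) (y := y₂) hx₂
    have R := M.relR h₁ h₂ hx₁ hx₂
    rw [slope_of_X_ne hx]
    have e3 : y₁ - y₂ = sl r t x₁ y₁ * (x₁ - r) - sl r t x₂ y₂ * (x₂ - r) := by
      rw [e1, e2]; ring
    rw [e3, ← e1]
    field_simp
    linear_combination (-1) * R

omit M [DecidableEq K] in
/-- slope coordinate of the third intersection point -/
lemma sl_negAdd (x₁ y₁ x₃ ℓ : K) (hx₃ : x₃ ≠ r) :
    sl r t x₃ (ℓ * (x₃ - x₁) + y₁) = ℓ + ((y₁ - t) - ℓ * (x₁ - r)) / (x₃ - r) := by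
  have hx' : x₃ - r ≠ 0 := sub_ne_zero.mpr hx₃
  unfold sl
  field_simp
  ring

/-- (C2) -/
lemma sl_sum {x₁ y₁ x₂ y₂ : K} (h₁ : W.toAffine.Equation x₁ y₁) (h₂ : W.toAffine.Equation x₂ y₂)
    (hx₁ : x₁ ≠ r) (hx₂ : x₂ ≠ r) (hxy : ¬ (x₁ = x₂ ∧ y₁ = W.toAffine.negY x₂ y₂))
    (hw : sl r t x₁ y₁ + sl r t x₂ y₂ + W.a₁ ≠ 0)
    (h4 : (x₁ - r) * (x₂ - r) - tA4 W r t ≠ 0) :
    sl r t (W.toAffine.addX x₁ x₂ (W.toAffine.slope x₁ x₂ y₁ y₂))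
      (W.toAffine.addY x₁ x₂ y₁ (W.toAffine.slope x₁ x₂ y₁ y₂)) =
    - W.a₁ - sl r t x₁ y₁ -
      ((x₁ - r) * (x₂ - r) - tA4 W r t) /
        ((sl r t x₁ y₁ + sl r t x₂ y₂ + W.a₁) * (x₁ - r)) +
      (sl r t x₁ y₁ + sl r t x₂ y₂ + W.a₁) * ((x₁ - r) * (x₂ - r)) /
        ((x₁ - r) * (x₂ - r) - tA4 W r t) := by
  have hA := M.sumA h₁ h₂ hx₁ hx₂ hxy
  have hN := M.nu_mul_w h₁ h₂ hx₁ hx₂ hxy
  set ℓ := W.toAffine.slope x₁ x₂ y₁ y₂ with hℓ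
  set x₃ := W.toAffine.addX x₁ x₂ ℓ with hx₃
  have hx₃r : x₃ ≠ r := by
    intro h
    rw [h, sub_self, zero_mul, zero_mul] at hA
    exact h4 (pow_eq_zero_iff (two_ne_zero) |>.mp hA.symm)
  have hxr : x₃ - r ≠ 0 := sub_ne_zero.mpr hx₃r
  have hx₁' : x₁ - r ≠ 0 := sub_ne_zero.mpr hx₁
  have hx₂' : x₂ - r ≠ 0 := sub_ne_zero.mpr hx₂
  rw [addY, M.sl_neg hx₃r, negAddY, ← hx₃, sl_negAdd _ _ _ _ hx₃r]
  have e1 := sl_mul (t := t) (y := y₁) hx₁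
  set s₁ := sl r t x₁ y₁
  set w := s₁ + sl r t x₂ y₂ + W.a₁
  set ν := (y₁ - t) - ℓ * (x₁ - r) with hν
  set D := (x₁ - r) * (x₂ - r) - tA4 W r t
  have hνeq : ν = - D / w := by
    field_simp
    linear_combination hN
  have hℓeq : ℓ = s₁ - ν / (x₁ - r) := by
    field_simp
    rw [hν]
    linear_combination (-1) * e1
  have hξ : x₃ - r = D ^ 2 / ((x₁ - r) * (x₂ - r) * w ^ 2) := by
    field_simp
    linear_combination hA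
  rw [hℓeq, hνeq, hξ]
  field_simp
  ring

/-- (C1) -/
lemma sl_sum' {x₁ y₁ x₂ y₂ : K} (h₁ : W.toAffine.Equation x₁ y₁) (h₂ : W.toAffine.Equation x₂ y₂)
    (hx₁ : x₁ ≠ r) (hx₂ : x₂ ≠ r) (hx : x₁ ≠ x₂) (hs : sl r t x₁ y₁ ≠ sl r t x₂ y₂) :
    sl r t (W.toAffine.addX x₁ x₂ (W.toAffine.slope x₁ x₂ y₁ y₂))
      (W.toAffine.addY x₁ x₂ y₁ (W.toAffine.slope x₁ x₂ y₁ y₂)) =
    - W.a₁ - (sl r t x₂ y₂ + (x₁ - r) * (sl r t x₁ y₁ - sl r t x₂ y₂) / (x₁ - x₂)) +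
      (x₁ - x₂) / (sl r t x₁ y₁ - sl r t x₂ y₂) := by
  have hB := M.sumB h₁ h₂ hx₁ hx₂ hx
  have hs' : sl r t x₁ y₁ - sl r t x₂ y₂ ≠ 0 := sub_ne_zero.mpr hs
  have hx' : x₁ - x₂ ≠ 0 := sub_ne_zero.mpr hx
  have hx₁' : x₁ - r ≠ 0 := sub_ne_zero.mpr hx₁
  have hx₂' : x₂ - r ≠ 0 := sub_ne_zero.mpr hx₂
  have hℓ : W.toAffine.slope x₁ x₂ y₁ y₂ = (y₁ - y₂) / (x₁ - x₂) := slope_of_X_ne hx
  set ℓ := W.toAffine.slope x₁ x₂ y₁ y₂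
  set x₃ := W.toAffine.addX x₁ x₂ ℓ with hx₃
  have hx₃r : x₃ ≠ r := by
    intro h
    rw [h, sub_self, zero_mul] at hB
    exact mul_ne_zero (mul_ne_zero hx₁' hx₂') (pow_ne_zero 2 hs') hB.symm
  rw [addY, M.sl_neg hx₃r, negAddY, ← hx₃, sl_negAdd _ _ _ _ hx₃r]
  have e1 := sl_mul (t := t) (y := y₁) hx₁
  have e2 := sl_mul (t := t) (y := y₂) hx₂
  set s₁ := sl r t x₁ y₁
  set s₂ := sl r t x₂ y₂
  have e3 : y₁ - y₂ = s₁ * (x₁ - r) - s₂ * (x₂ - r) := by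
    rw [e1, e2]; ring
  have hξ : x₃ - r = (x₁ - r) * (x₂ - r) * (s₁ - s₂) ^ 2 / (x₁ - x₂) ^ 2 := by
    field_simp
    linear_combination hB
  rw [hξ, hℓ, e3, ← e1]
  field_simp
  ring

end TModel

end Fermat.Agent.EC
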