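import Fermat.Agent.EC.TModel

/-!
# Valuations of points on Weierstrass curves with a rational 2-torsion point
-/

set_option autoImplicit false

namespace Fermat.Agent.EC

open WeierstrassCurve WeierstrassCurve.Affine

variable {K : Type*} [Field K] {Γ₀ : Type*} [LinearOrderedCommGroupWithZero Γ₀]

/-- Integrality of a `TModel`. -/
structure IntT (v : Valuation K Γ₀) (W : WeierstrassCurve K) (r t : K) : Prop
    extends TModel W r t where
  va1 : v W.a₁ ≤ 1
  vA2 : v (tA2 W r) ≤ 1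
  vA4 : v (tA4 W r t) ≤ 1
  vr : v r ≤ 1

namespace IntT

variable {v : Valuation K Γ₀} {W : WeierstrassCurve K} {r t : K} (M : IntT v W r t)
include M

lemma ne_of_one_le {x : K} (hx : 1 ≤ v (x - r)) : x ≠ r := by
  rintro rfl
  rw [sub_self, map_zero] at hx
  exact absurd hx (not_le.mpr zero_lt_one)

lemma sq_sl_le {x y : K} (h : W.toAffine.Equation x y) (hx : 1 ≤ v (x - r)) :
    v (sl r t x y) ^ 2 ≤ v (x - r) := by
  have hxr := M.ne_of_one_le hx
  have hx0 : v (x - r) ≠ 0 := (zero_lt_one.trans_le hx).ne'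
  have c := M.toTModel.curve' h hxr
  by_contra hcon
  push Not at hcon
  have hs1 : 1 < v (sl r t x y) := by
    by_contra hle
    push Not at hle
    have : v (sl r t x y) ^ 2 ≤ 1 := pow_le_one' hle 2
    exact absurd (hcon.trans_le this) (not_lt.mpr hx)
  have h1 : v (sl r t x y ^ 2 + W.a₁ * sl r t x y) = v (sl r t x y) ^ 2 := by
    rw [Valuation.map_add_eq_of_lt_left, map_pow]
    rw [map_pow, map_mul, sq]
    refine lt_of_le_of_lt (mul_le_of_le_one_left' M.va1) ?_
    exact lt_mul_of_one_lt_left (zero_lt_one.trans hs1) hs1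
  have h2 : v ((x - r) + tA2 W r + tA4 W r t / (x - r)) ≤ v (x - r) := by
    refine v.map_add_le (v.map_add_le le_rfl (M.vA2.trans hx)) ?_
    rw [map_div₀]
    refine (div_le_of_le_mul₀ zero_le zero_le ?_)
    calc v (tA4 W r t) ≤ 1 := M.vA4
      _ ≤ v (x - r) * v (x - r) := one_le_mul hx hx
  rw [← c, h1] at h2
  exact absurd h2 (not_le.mpr hcon)

variable [DecidableEq K]

lemma min_le_sum {x₁ y₁ x₂ y₂ : K} (h₁ : W.toAffine.Equation x₁ y₁)
    (h₂ : W.toAffine.Equation x₂ y₂) (hx₁ : 1 ≤ v (x₁ - r)) (hx₂ : 1 ≤ v (x₂ - r))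
    (hA4 : v (tA4 W r t) < v ((x₁ - r) * (x₂ - r)))
    (hxy : ¬ (x₁ = x₂ ∧ y₁ = W.toAffine.negY x₂ y₂)) :
    min (v (x₁ - r)) (v (x₂ - r)) ≤
      v (W.toAffine.addX x₁ x₂ (W.toAffine.slope x₁ x₂ y₁ y₂) - r) := by
  have hx₁r := M.ne_of_one_le hx₁
  have hx₂r := M.ne_of_one_le hx₂
  have A := M.toTModel.sumA h₁ h₂ hx₁r hx₂r hxy
  have s1 := M.sq_sl_le h₁ hx₁
  have s2 := M.sq_sl_le h₂ hx₂
  set ξ₃ := W.toAffine.addX x₁ x₂ (W.toAffine.slope x₁ x₂ y₁ y₂) - r
  set s₁ := sl r t x₁ y₁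
  set s₂ := sl r t x₂ y₂
  have hp0 : (x₁ - r) * (x₂ - r) ≠ 0 := mul_ne_zero (sub_ne_zero.mpr hx₁r) (sub_ne_zero.mpr hx₂r)
  have hvp0 : 0 < v ((x₁ - r) * (x₂ - r)) := zero_lt_iff.mpr ((Valuation.ne_zero_iff _).mpr hp0)
  have e1 : v ((x₁ - r) * (x₂ - r) - tA4 W r t) = v ((x₁ - r) * (x₂ - r)) :=
    Valuation.map_sub_eq_of_lt_left _ hA4
  have e2 := congrArg v A
  rw [map_mul, map_mul, map_pow, map_pow, e1, sq (v ((x₁ - r) * (x₂ - r))), mul_right_comm] at e2
  have e3 : v ξ₃ * v (s₁ + s₂ + W.a₁) ^ 2 = v ((x₁ - r) * (x₂ - r)) :=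
    mul_right_cancel₀ hvp0.ne' e2
  have hw : v (s₁ + s₂ + W.a₁) ^ 2 ≤ max (v (x₁ - r)) (v (x₂ - r)) := by
    have : v (s₁ + s₂ + W.a₁) ≤ max (max (v s₁) (v s₂)) (v W.a₁) :=
      (v.map_add _ _).trans (max_le_max (v.map_add _ _) le_rfl)
    rcases le_max_iff.mp this with h | h
    · rcases le_max_iff.mp h with h | h
      · exact (pow_le_pow_left' h 2).trans (s1.trans (le_max_left _ _))
      · exact (pow_le_pow_left' h 2).trans (s2.trans (le_max_right _ _))
    · exact (pow_le_pow_left' h 2).trans ((pow_le_one' M.va1 2).trans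
        (hx₁.trans (le_max_left _ _)))
  have e4 : v (x₁ - r) * v (x₂ - r) ≤ v ξ₃ * max (v (x₁ - r)) (v (x₂ - r)) := by
    rw [← map_mul, ← e3]
    gcongr
  rcases le_total (v (x₁ - r)) (v (x₂ - r)) with hle | hle
  · rw [max_eq_right hle] at e4
    rw [min_eq_left hle]
    exact le_of_mul_le_mul_right e4 (zero_lt_one.trans_le hx₂)
  · rw [max_eq_left hle, mul_comm] at e4
    rw [min_eq_right hle]
    exact le_of_mul_le_mul_right e4 (zero_lt_one.trans_le hx₁)

/-- The subgroup `E¹` of points reducing to the origin. -/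
def E1 (M : IntT v W r t) : AddSubgroup W.toAffine.Point where
  carrier := {P | ∀ x y (h : W.toAffine.Nonsingular x y), P = Point.some x y h → 1 < v (x - r)}
  zero_mem' := fun x y h he => absurd he.symm (Point.some_ne_zero h)
  neg_mem' := by
    intro P hP x y h he
    rcases P with _ | ⟨x', y', h'⟩
    · rw [← Point.zero_def, neg_zero] at he
      exact absurd he.symm (Point.some_ne_zero h)
    · rw [Point.neg_some, Point.some.injEq] at he
      rw [← he.1]
      exact hP x' y' h' rfl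
  add_mem' := by
    intro P Q hP hQ x y h he
    rcases P with _ | ⟨x₁, y₁, h₁⟩
    · rw [← Point.zero_def, zero_add] at he
      exact hQ x y h he
    rcases Q with _ | ⟨x₂, y₂, h₂⟩
    · rw [← Point.zero_def, add_zero] at he
      exact hP x y h he
    have g1 := hP x₁ y₁ h₁ rfl
    have g2 := hQ x₂ y₂ h₂ rfl
    by_cases hxy : x₁ = x₂ ∧ y₁ = W.toAffine.negY x₂ y₂
    · rw [Point.add_of_Y_eq hxy.1 hxy.2] at he
      exact absurd he.symm (Point.some_ne_zero h)
    · rw [Point.add_some hxy, Point.some.injEq] at he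
      rw [← he.1]
      refine lt_of_lt_of_le (lt_min g1 g2) (M.min_le_sum h₁.1 h₂.1 g1.le g2.le ?_ hxy)
      refine lt_of_le_of_lt M.vA4 ?_
      rw [map_mul]
      exact one_lt_mul_of_lt_of_le' g1 g2.le

lemma mem_E1_some {x y : K} (h : W.toAffine.Nonsingular x y) :
    (Point.some x y h : W.toAffine.Point) ∈ M.E1 ↔ 1 < v (x - r) := by
  constructor
  · intro hP; exact hP x y h rfl
  · intro hx x' y' h' he
    rw [Point.some.injEq] at he
    rw [← he.1]; exact hx

lemma one_lt_sub_iff {x : K} : 1 < v (x - r) ↔ 1 < v x := by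
  constructor
  · intro h
    by_contra hle
    push Not at hle
    exact absurd h (not_lt.mpr (v.map_sub_le hle M.vr))
  · intro h
    rwa [Valuation.map_sub_eq_of_lt_left _ (M.vr.trans_lt h)]

lemma mem_E1_some' {x y : K} (h : W.toAffine.Nonsingular x y) :
    (Point.some x y h : W.toAffine.Point) ∈ M.E1 ↔ 1 < v x := by
  rw [mem_E1_some, M.one_lt_sub_iff]

/-- The subgroup `E⁰` of points with nonsingular reduction (when `T` reduces to the node). -/
def E0 (M : IntT v W r t) (hm : v (tA4 W r t) < 1) : AddSubgroup W.toAffine.Point where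
  carrier := {P | ∀ x y (h : W.toAffine.Nonsingular x y), P = Point.some x y h → 1 ≤ v (x - r)}
  zero_mem' := fun x y h he => absurd he.symm (Point.some_ne_zero h)
  neg_mem' := by
    intro P hP x y h he
    rcases P with _ | ⟨x', y', h'⟩
    · rw [← Point.zero_def, neg_zero] at he
      exact absurd he.symm (Point.some_ne_zero h)
    · rw [Point.neg_some, Point.some.injEq] at he
      rw [← he.1]
      exact hP x' y' h' rfl
  add_mem' := by
    intro P Q hP hQ x y h he
    rcases P with _ | ⟨x₁, y₁, h₁⟩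
    · rw [← Point.zero_def, zero_add] at he
      exact hQ x y h he
    rcases Q with _ | ⟨x₂, y₂, h₂⟩
    · rw [← Point.zero_def, add_zero] at he
      exact hP x y h he
    have g1 := hP x₁ y₁ h₁ rfl
    have g2 := hQ x₂ y₂ h₂ rfl
    by_cases hxy : x₁ = x₂ ∧ y₁ = W.toAffine.negY x₂ y₂
    · rw [Point.add_of_Y_eq hxy.1 hxy.2] at he
      exact absurd he.symm (Point.some_ne_zero h)
    · rw [Point.add_some hxy, Point.some.injEq] at he
      rw [← he.1]
      refine (le_min g1 g2).trans (M.min_le_sum h₁.1 h₂.1 g1 g2 ?_ hxy)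
      refine lt_of_lt_of_le hm ?_
      rw [map_mul]
      exact one_le_mul g1 g2

lemma mem_E0_some (hm : v (tA4 W r t) < 1) {x y : K} (h : W.toAffine.Nonsingular x y) :
    (Point.some x y h : W.toAffine.Point) ∈ M.E0 hm ↔ 1 ≤ v (x - r) := by
  constructor
  · intro hP; exact hP x y h rfl
  · intro hx x' y' h' he
    rw [Point.some.injEq] at he
    rw [← he.1]; exact hx

lemma E1_le_E0 (hm : v (tA4 W r t) < 1) : M.E1 ≤ M.E0 hm := by
  intro P hP
  rcases P with _ | ⟨x, y, h⟩
  · exact zero_mem _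
  · rw [mem_E0_some]
    exact ((M.mem_E1_some h).1 hP).le

end IntT

end Fermat.Agent.EC
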