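import Fermat.Agent.EC.DivPoly
import Mathlib.Algebra.Module.Torsion.Basic
import Mathlib.FieldTheory.IsAlgClosed.Basic

/-!
# Torsion points and division polynomials
-/

set_option autoImplicit false

namespace Fermat.Agent.EC

open WeierstrassCurve WeierstrassCurve.Affine Polynomial

variable {F : Type*} [Field F] {W : WeierstrassCurve F}

lemma psi_eq_preΨ {x y : F} (h : W.toAffine.Equation x y) (n : ℤ) :
    psi W x y n = (W.preΨ n).eval x * if Even n then psi W x y 2 else 1 := by
  have h2 := psi_two_sq h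
  have h3 : (psi W x y 2) ^ 4 = (W.Ψ₂Sq.eval x) ^ 2 := by
    rw [show (psi W x y 2) ^ 4 = ((psi W x y 2) ^ 2) ^ 2 by ring, h2]
    simp [WeierstrassCurve.Ψ₂Sq]
  have key := map_preNormEDS (f := evalRingHom x) (W.Ψ₂Sq ^ 2) W.Ψ₃ W.preΨ₄ n
  rw [WeierstrassCurve.preΨ]
  rw [coe_evalRingHom] at key
  rw [key, psi, normEDS, psi_two]
  rw [psi_two] at h3
  rw [h3]
  simp [WeierstrassCurve.Ψ₃, WeierstrassCurve.preΨ₄]

lemma psi_odd {x y : F} (h : W.toAffine.Equation x y) {n : ℕ} (hn : Odd n) :
    psi W x y n = (W.preΨ' n).eval x := by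
  rw [psi_eq_preΨ h, if_neg, mul_one, preΨ_ofNat]
  rw [Int.even_coe_nat]
  exact Nat.not_even_iff_odd.mpr hn

lemma psi_sq {x y : F} (h : W.toAffine.Equation x y) (n : ℤ) :
    psi W x y n ^ 2 = (W.ΨSq n).eval x := by
  rw [psi_eq_preΨ h, WeierstrassCurve.ΨSq]
  have h2 := psi_two_sq h
  split_ifs with hn
  · rw [mul_pow, h2]
    simp [WeierstrassCurve.Ψ₂Sq]
  · simp

lemma psi_mul_psi {x y : F} (h : W.toAffine.Equation x y) (n : ℤ) :
    x * psi W x y n ^ 2 - psi W x y (n + 1) * psi W x y (n - 1) = (W.Φ n).eval x := by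
  rw [psi_sq h, psi_eq_preΨ h (n + 1), psi_eq_preΨ h (n - 1), WeierstrassCurve.Φ]
  have h2 := psi_two_sq h
  have h2' : psi W x y 2 ^ 2 = (W.Ψ₂Sq).eval x := by
    rw [h2]; simp [WeierstrassCurve.Ψ₂Sq]
  by_cases hn : Even n
  · have h1 : ¬ Even (n + 1) := by
      rw [Int.even_add_one]; exact not_not.mpr hn
    have h3 : ¬ Even (n - 1) := by
      rw [Int.even_sub_one]; exact not_not.mpr hn
    rw [if_neg h1, if_neg h3, if_pos hn]
    simp
  · have h1 : Even (n + 1) := by
      rw [Int.even_add_one]; exact hn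
    have h3 : Even (n - 1) := by
      rw [Int.even_sub_one]; exact hn
    rw [if_pos h1, if_pos h3, if_neg hn]
    simp only [eval_sub, eval_mul, eval_X, ← h2']
    ring

variable [DecidableEq F]

theorem smul_some_eq_zero_iff {x y : F} (h : W.toAffine.Nonsingular x y) (n : ℕ) :
    n • (Point.some x y h : W.toAffine.Point) = 0 ↔ (W.ΨSq n).eval x = 0 := by
  rw [(mulFormula h n).1, ← psi_sq h.1]
  simp

theorem smul_some_eq_zero_iff_of_odd {x y : F} (h : W.toAffine.Nonsingular x y) {n : ℕ}
    (hn : Odd n) :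
    n • (Point.some x y h : W.toAffine.Point) = 0 ↔ (W.preΨ' n).eval x = 0 := by
  rw [(mulFormula h n).1, psi_odd h.1 hn]

/-- The `x`-coordinate of a multiple. -/
theorem x_smul {x y : F} (h : W.toAffine.Nonsingular x y) (n : ℕ) {x' y' : F}
    (h' : W.toAffine.Nonsingular x' y')
    (he : n • (Point.some x y h : W.toAffine.Point) = Point.some x' y' h') :
    x' * (W.ΨSq n).eval x = (W.Φ n).eval x := by
  rw [← psi_sq h.1, (mulFormula h n).2 x' y' h' he, psi_mul_psi h.1]

/-- the polynomial in `Y` obtained by fixing `X = x`. -/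
noncomputable def yPoly (W : WeierstrassCurve F) (x : F) : F[X] :=
  X ^ 2 + C (W.a₁ * x + W.a₃) * X - C (x ^ 3 + W.a₂ * x ^ 2 + W.a₄ * x + W.a₆)

omit [DecidableEq F] in
lemma yPoly_natDegree (x : F) : (yPoly W x).natDegree = 2 := by
  unfold yPoly
  compute_degree!

omit [DecidableEq F] in
lemma yPoly_ne_zero (x : F) : yPoly W x ≠ 0 := by
  intro h
  have := yPoly_natDegree (W := W) x
  rw [h] at this
  simp at this

omit [DecidableEq F] in
lemma eval_yPoly (x y : F) : (yPoly W x).eval y = 0 ↔ W.toAffine.Equation x y := by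
  rw [Affine.equation_iff]
  simp only [yPoly, eval_sub, eval_add, eval_pow, eval_X, eval_mul, eval_C]
  constructor
  · intro h; linear_combination h
  · intro h; linear_combination h

open Classical in
/-- The set of affine points with `x`-coordinate root of a nonzero polynomial. -/
noncomputable def pointsOver (W : WeierstrassCurve F) (f : F[X]) : Finset (F × F) :=
  f.roots.toFinset.biUnion fun x => (yPoly W x).roots.toFinset.image fun y => (x, y)

lemma card_pointsOver_le (f : F[X]) : (pointsOver W f).card ≤ 2 * f.natDegree := by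
  classical
  unfold pointsOver
  refine (Finset.card_biUnion_le_card_mul _ _ 2 fun x _ => ?_).trans ?_
  · refine Finset.card_image_le.trans ?_
    refine (Multiset.toFinset_card_le _).trans ?_
    exact (Polynomial.card_roots' _).trans (yPoly_natDegree x).le
  · rw [mul_comm]
    gcongr
    exact (Multiset.toFinset_card_le _).trans (Polynomial.card_roots' _)

lemma mem_pointsOver {f : F[X]} (hf : f ≠ 0) {x y : F} :
    (x, y) ∈ pointsOver W f ↔ f.eval x = 0 ∧ W.toAffine.Equation x y := by
  classical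
  unfold pointsOver
  simp only [Finset.mem_biUnion, Multiset.mem_toFinset, Finset.mem_image, Prod.mk.injEq]
  constructor
  · rintro ⟨x', hx', y', hy', rfl, rfl⟩
    rw [mem_roots hf] at hx'
    rw [mem_roots (yPoly_ne_zero _)] at hy'
    exact ⟨hx', (eval_yPoly _ _).1 hy'⟩
  · rintro ⟨h1, h2⟩
    refine ⟨x, ?_, y, ?_, rfl, rfl⟩
    · rw [mem_roots hf]; exact h1
    · rw [mem_roots (yPoly_ne_zero _)]; exact (eval_yPoly _ _).2 h2

/-- The set of `n`-torsion points is finite, of cardinality at most `n ^ 2`, `n` odd and nonzero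
in `F`. -/
theorem finite_torsion {n : ℕ} (hn : Odd n) (hF : (n : F) ≠ 0) :
    {P : W.toAffine.Point | n • P = 0}.Finite ∧
      Set.ncard {P : W.toAffine.Point | n • P = 0} ≤ n ^ 2 := by
  classical
  have hne : W.preΨ' n ≠ 0 := preΨ'_ne_zero W hF
  set T := pointsOver W (W.preΨ' n) with hT
  let g : W.toAffine.Point → Option (F × F) := fun P =>
    match P with
    | .zero => none
    | .some x y _ => some (x, y)
  have hg : Function.Injective g := by
    rintro (_ | ⟨x, y, h⟩) (_ | ⟨x', y', h'⟩) hh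
    · rfl
    · simp [g] at hh
    · simp [g] at hh
    · simp only [g, Option.some.injEq, Prod.mk.injEq] at hh
      obtain ⟨rfl, rfl⟩ := hh
      rfl
  have hsub : g '' {P : W.toAffine.Point | n • P = 0} ⊆
      ((insert none (T.image some) : Finset (Option (F × F))) : Set (Option (F × F))) := by
    rintro _ ⟨P, hP, rfl⟩
    rcases P with _ | ⟨x, y, h⟩
    · simp [g]
    · simp only [Finset.coe_insert, Finset.coe_image, Set.mem_insert_iff, Set.mem_image,
        Finset.mem_coe]
      right
      refine ⟨(x, y), ?_, rfl⟩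
      rw [hT, mem_pointsOver hne]
      exact ⟨(smul_some_eq_zero_iff_of_odd h hn).1 hP, h.1⟩
  have hfin : (g '' {P : W.toAffine.Point | n • P = 0}).Finite :=
    (Finset.finite_toSet _).subset hsub
  refine ⟨hfin.of_finite_image (hg.injOn), ?_⟩
  rw [← Set.ncard_image_of_injective _ hg]
  refine (Set.ncard_le_ncard hsub (Finset.finite_toSet _)).trans ?_
  rw [Set.ncard_coe_finset]
  refine (Finset.card_insert_le _ _).trans ?_
  have h1 : (T.image some).card ≤ 2 * (W.preΨ' n).natDegree :=
    Finset.card_image_le.trans (card_pointsOver_le _)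
  rw [natDegree_preΨ' W hF, if_neg (Nat.not_even_iff_odd.mpr hn)] at h1
  have h2 : 2 * ((n ^ 2 - 1) / 2) ≤ n ^ 2 - 1 := Nat.mul_div_le _ _
  have h3 : 1 ≤ n ^ 2 := Nat.one_le_pow _ _ hn.pos
  omega

/-- Existence of a nonzero `n`-torsion point for odd `n ≥ 3`, elliptic curves over algebraically
closed fields. -/
theorem exists_torsion_point [IsAlgClosed F] (hΔ : W.Δ ≠ 0) {n : ℕ} (hn : Odd n) (hn3 : 3 ≤ n)
    (hF : (n : F) ≠ 0) : ∃ P : W.toAffine.Point, P ≠ 0 ∧ n • P = 0 := by
  have hdeg : (W.preΨ' n).degree ≠ 0 := by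
    have := natDegree_preΨ'_pos W (by omega : 2 < n) hF
    intro h
    rw [degree_eq_natDegree (preΨ'_ne_zero W hF)] at h
    have h0 : (W.preΨ' n).natDegree = 0 := by exact_mod_cast h
    omega
  obtain ⟨x, hx⟩ := IsAlgClosed.exists_root _ hdeg
  have hdy : (yPoly W x).degree ≠ 0 := by
    rw [degree_eq_natDegree (yPoly_ne_zero _), yPoly_natDegree]
    simp
  obtain ⟨y, hy⟩ := IsAlgClosed.exists_root _ hdy
  have hE : W.toAffine.Equation x y := (eval_yPoly x y).1 hy
  have hN : W.toAffine.Nonsingular x y := (Affine.equation_iff_nonsingular_of_Δ_ne_zero hΔ).1 hE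
  exact ⟨Point.some x y hN, Point.some_ne_zero _, (smul_some_eq_zero_iff_of_odd hN hn).2 hx⟩

end Fermat.Agent.EC
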