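import Mathlib
import Fermat.Prelude.Def_FLTPrelim_GaloisRep
import Fermat.Prelude.Def_FLTPrelim_Modularity

/-!
# Points and changes of variables
-/

set_option autoImplicit false

namespace Fermat.Agent.EC

open WeierstrassCurve WeierstrassCurve.Affine

variable {F : Type*} [Field F] {W W' : WeierstrassCurve F} {u r s t : F}

/-- `W'` is obtained from `W` by the substitution `X = u²x + r`, `Y = u³y + u²sx + t`. -/
structure VC (W W' : WeierstrassCurve F) (u r s t : F) : Prop where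
  hu : u ≠ 0
  h1 : u * W'.a₁ = W.a₁ + 2 * s
  h2 : u ^ 2 * W'.a₂ = W.a₂ - s * W.a₁ + 3 * r - s ^ 2
  h3 : u ^ 3 * W'.a₃ = W.a₃ + r * W.a₁ + 2 * t
  h4 : u ^ 4 * W'.a₄ = W.a₄ - s * W.a₃ + 2 * r * W.a₂ - (t + r * s) * W.a₁ + 3 * r ^ 2 - 2 * s * t
  h6 : u ^ 6 * W'.a₆ = W.a₆ + r * W.a₄ + r ^ 2 * W.a₂ + r ^ 3 - t * W.a₃ - t ^ 2 - r * t * W.a₁

namespace VC

lemma of_variableChange (C : VariableChange F) (W : WeierstrassCurve F) :
    VC W (C • W) C.u C.r C.s C.t := by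
  have hu : (C.u : F) ≠ 0 := C.u.ne_zero
  refine ⟨hu, ?_, ?_, ?_, ?_, ?_⟩ <;>
  · simp only [variableChange_a₁, variableChange_a₂, variableChange_a₃, variableChange_a₄,
      variableChange_a₆, Units.val_inv_eq_inv_val]
    field_simp

lemma equation (h : VC W W' u r s t) (x y : F) :
    W.toAffine.Equation (u ^ 2 * x + r) (u ^ 3 * y + u ^ 2 * s * x + t) ↔
      W'.toAffine.Equation x y := by
  obtain ⟨hu, h1, h2, h3, h4, h6⟩ := h
  rw [equation_iff, equation_iff]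
  have key : (u ^ 3 * y + u ^ 2 * s * x + t) ^ 2 +
      W.a₁ * (u ^ 2 * x + r) * (u ^ 3 * y + u ^ 2 * s * x + t) +
      W.a₃ * (u ^ 3 * y + u ^ 2 * s * x + t) - ((u ^ 2 * x + r) ^ 3 + W.a₂ * (u ^ 2 * x + r) ^ 2 +
      W.a₄ * (u ^ 2 * x + r) + W.a₆) = u ^ 6 * (y ^ 2 + W'.a₁ * x * y + W'.a₃ * y -
      (x ^ 3 + W'.a₂ * x ^ 2 + W'.a₄ * x + W'.a₆)) := by
    linear_combination (-(u ^ 5 * x * y)) * h1 + (u ^ 4 * x ^ 2) * h2 - (u ^ 3 * y) * h3 +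
      (u ^ 2 * x) * h4 + h6
  rw [← sub_eq_zero, key, mul_eq_zero, or_iff_right (pow_ne_zero 6 hu), sub_eq_zero]

lemma negY (h : VC W W' u r s t) (x y : F) :
    W.toAffine.negY (u ^ 2 * x + r) (u ^ 3 * y + u ^ 2 * s * x + t) =
      u ^ 3 * W'.toAffine.negY x y + u ^ 2 * s * x + t := by
  obtain ⟨hu, h1, h2, h3, h4, h6⟩ := h
  simp only [Affine.negY]
  linear_combination (u ^ 2 * x) * h1 + h3

lemma addX (h : VC W W' u r s t) (x₁ x₂ l : F) :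
    W.toAffine.addX (u ^ 2 * x₁ + r) (u ^ 2 * x₂ + r) (u * l + s) =
      u ^ 2 * W'.toAffine.addX x₁ x₂ l + r := by
  obtain ⟨hu, h1, h2, h3, h4, h6⟩ := h
  simp only [Affine.addX]
  linear_combination (-u * l) * h1 + h2

lemma negAddY (h : VC W W' u r s t) (x₁ x₂ y₁ l : F) :
    W.toAffine.negAddY (u ^ 2 * x₁ + r) (u ^ 2 * x₂ + r) (u ^ 3 * y₁ + u ^ 2 * s * x₁ + t)
      (u * l + s) = u ^ 3 * W'.toAffine.negAddY x₁ x₂ y₁ l +
        u ^ 2 * s * W'.toAffine.addX x₁ x₂ l + t := by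
  simp only [Affine.negAddY]
  rw [h.addX]
  ring

lemma addY (h : VC W W' u r s t) (x₁ x₂ y₁ l : F) :
    W.toAffine.addY (u ^ 2 * x₁ + r) (u ^ 2 * x₂ + r) (u ^ 3 * y₁ + u ^ 2 * s * x₁ + t)
      (u * l + s) = u ^ 3 * W'.toAffine.addY x₁ x₂ y₁ l +
        u ^ 2 * s * W'.toAffine.addX x₁ x₂ l + t := by
  simp only [Affine.addY]
  rw [h.addX, h.negAddY, h.negY]

lemma X_eq (h : VC W W' u r s t) {x₁ x₂ : F} : u ^ 2 * x₁ + r = u ^ 2 * x₂ + r ↔ x₁ = x₂ := by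
  rw [add_left_inj, mul_right_inj' (pow_ne_zero 2 h.hu)]

lemma Y_eq (h : VC W W' u r s t) {x y y' : F} : u ^ 3 * y + u ^ 2 * s * x + t =
    u ^ 3 * y' + u ^ 2 * s * x + t ↔ y = y' := by
  rw [add_left_inj, add_left_inj, mul_right_inj' (pow_ne_zero 3 h.hu)]

lemma cond (h : VC W W' u r s t) {x₁ x₂ y₁ y₂ : F} :
    (u ^ 2 * x₁ + r = u ^ 2 * x₂ + r ∧ u ^ 3 * y₁ + u ^ 2 * s * x₁ + t =
      W.toAffine.negY (u ^ 2 * x₂ + r) (u ^ 3 * y₂ + u ^ 2 * s * x₂ + t)) ↔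
      (x₁ = x₂ ∧ y₁ = W'.toAffine.negY x₂ y₂) := by
  rw [h.X_eq, h.negY]
  constructor
  · rintro ⟨rfl, h2⟩
    exact ⟨rfl, h.Y_eq.mp h2⟩
  · rintro ⟨rfl, h2⟩
    exact ⟨rfl, h.Y_eq.mpr h2⟩

variable [DecidableEq F]

lemma slope (h : VC W W' u r s t) {x₁ x₂ y₁ y₂ : F}
    (hxy : ¬ (x₁ = x₂ ∧ y₁ = W'.toAffine.negY x₂ y₂)) (e₁ : W'.toAffine.Equation x₁ y₁)
    (e₂ : W'.toAffine.Equation x₂ y₂) :
    W.toAffine.slope (u ^ 2 * x₁ + r) (u ^ 2 * x₂ + r) (u ^ 3 * y₁ + u ^ 2 * s * x₁ + t)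
      (u ^ 3 * y₂ + u ^ 2 * s * x₂ + t) = u * W'.toAffine.slope x₁ x₂ y₁ y₂ + s := by
  have hu := h.hu
  by_cases hx : x₁ = x₂
  · have hy : y₁ ≠ W'.toAffine.negY x₂ y₂ := fun h' => hxy ⟨hx, h'⟩
    have hy' : u ^ 3 * y₁ + u ^ 2 * s * x₁ + t ≠
        W.toAffine.negY (u ^ 2 * x₂ + r) (u ^ 3 * y₂ + u ^ 2 * s * x₂ + t) := fun h' =>
      hxy (h.cond.mp ⟨h.X_eq.mpr hx, h'⟩)
    rw [slope_of_Y_ne (h.X_eq.mpr hx) hy', slope_of_Y_ne hx hy]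
    have hyy : y₁ = y₂ := by
      rcases Y_eq_of_X_eq e₁ e₂ hx with h' | h'
      · exact h'
      · exact absurd h' hy
    have hd : y₁ - W'.toAffine.negY x₁ y₁ ≠ 0 := by
      rw [sub_ne_zero]; intro h'; apply hy; rw [← hx, ← hyy]; exact h'
    have hd2 : u ^ 3 * y₁ + u ^ 2 * s * x₁ + t -
        W.toAffine.negY (u ^ 2 * x₁ + r) (u ^ 3 * y₁ + u ^ 2 * s * x₁ + t) =
        u ^ 3 * (y₁ - W'.toAffine.negY x₁ y₁) := by
      rw [h.negY]; ring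
    rw [hd2, div_eq_iff (mul_ne_zero (pow_ne_zero 3 hu) hd)]
    field_simp
    have hd3 : y₁ - W'.toAffine.negY x₁ y₁ = 2 * y₁ + W'.a₁ * x₁ + W'.a₃ := by
      simp only [Affine.negY]; ring
    rw [hd3]
    obtain ⟨-, h1, h2, h3, h4, h6⟩ := h
    linear_combination (u ^ 3 * y₁ - u ^ 2 * x₁ * s) * h1 - 2 * u ^ 2 * x₁ * h2 - s * h3 - h4
  · rw [slope_of_X_ne (fun h' => hx (h.X_eq.mp h')), slope_of_X_ne hx]
    have hd : x₁ - x₂ ≠ 0 := sub_ne_zero.mpr hx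
    have hd2 : u ^ 2 * x₁ + r - (u ^ 2 * x₂ + r) = u ^ 2 * (x₁ - x₂) := by ring
    rw [hd2, div_eq_iff (mul_ne_zero (pow_ne_zero 2 hu) hd)]
    field_simp
    ring

/-- The map on points. -/
noncomputable def pt (h : VC W W' u r s t) (hΔ : W.Δ ≠ 0) : W'.toAffine.Point →+ W.toAffine.Point where
  toFun P := match P with
    | 0 => 0
    | .some x y e => .some (u ^ 2 * x + r) (u ^ 3 * y + u ^ 2 * s * x + t)
      ((Affine.equation_iff_nonsingular_of_Δ_ne_zero hΔ).mp ((h.equation x y).mpr e.1))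
  map_zero' := rfl
  map_add' := by
    rintro (_ | ⟨x₁, y₁, h₁⟩) (_ | ⟨x₂, y₂, h₂⟩)
    any_goals rfl
    by_cases hxy : x₁ = x₂ ∧ y₁ = W'.toAffine.negY x₂ y₂
    · rw [Point.add_of_Y_eq hxy.1 hxy.2]
      exact (Point.add_of_Y_eq (h.cond.mpr hxy).1 (h.cond.mpr hxy).2).symm
    · rw [Point.add_some hxy]
      change Point.some _ _ _ = Point.some _ _ _ + Point.some _ _ _
      rw [Point.add_some (fun hh => hxy (h.cond.mp hh)), Point.some.injEq,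
        h.slope hxy h₁.1 h₂.1, h.addX, h.addY]
      exact ⟨rfl, rfl⟩

lemma pt_some (h : VC W W' u r s t) (hΔ : W.Δ ≠ 0) {x y : F} (e : W'.toAffine.Nonsingular x y) :
    h.pt hΔ (.some x y e) = .some (u ^ 2 * x + r) (u ^ 3 * y + u ^ 2 * s * x + t)
      ((Affine.equation_iff_nonsingular_of_Δ_ne_zero hΔ).mp ((h.equation x y).mpr e.1)) := rfl

lemma pt_injective (h : VC W W' u r s t) (hΔ : W.Δ ≠ 0) : Function.Injective (h.pt hΔ) := by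
  rw [injective_iff_map_eq_zero]
  rintro (_ | ⟨x, y, e⟩) h0
  · rfl
  · rw [h.pt_some] at h0
    exact absurd h0 (Point.some_ne_zero _)

lemma pt_surjective (h : VC W W' u r s t) (hΔ : W.Δ ≠ 0) (hΔ' : W'.Δ ≠ 0) :
    Function.Surjective (h.pt hΔ) := by
  have hu := h.hu
  rintro (_ | ⟨x, y, e⟩)
  · exact ⟨0, rfl⟩
  · have hx : u ^ 2 * ((x - r) / u ^ 2) + r = x := by field_simp; ring
    have hy : u ^ 3 * ((y - s * (x - r) - t) / u ^ 3) + u ^ 2 * s * ((x - r) / u ^ 2) + t = y := by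
      field_simp; ring
    have he : W'.toAffine.Equation ((x - r) / u ^ 2) ((y - s * (x - r) - t) / u ^ 3) := by
      rw [← h.equation, hx, hy]; exact e.1
    refine ⟨.some _ _ ((Affine.equation_iff_nonsingular_of_Δ_ne_zero hΔ').mp he), ?_⟩
    rw [h.pt_some, Point.some.injEq]
    exact ⟨hx, hy⟩

end VC

end Fermat.Agent.EC
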