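import Fermat.Agent.EC.CardTorsion
import Fermat.Agent.EC.FreyLocal

/-!
# The `p`-torsion in the formal group, multiplicative reduction
-/

set_option autoImplicit false
set_option linter.unusedSectionVars false

namespace Fermat.Agent.EC

open WeierstrassCurve WeierstrassCurve.Affine Polynomial

variable {K : Type*} [Field K]

namespace TModel

variable {W : WeierstrassCurve K} {r t : K} (M : TModel W r t)
include M

lemma eval_Ψ₂Sq : W.Ψ₂Sq.eval r = 0 := by
  have h := psi_two_sq M.eqn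
  rw [psi_two, M.two] at h
  simp only [WeierstrassCurve.Ψ₂Sq, eval_add, eval_mul, eval_C, eval_pow, eval_X]
  linear_combination -h

lemma eval_Ψ₃ : W.Ψ₃.eval r = - tA4 W r t ^ 2 := by
  have hE := M.eqn
  have h2 := M.two
  rw [Affine.equation_iff] at hE
  simp only [WeierstrassCurve.Ψ₃, eval_add, eval_mul, eval_C, eval_pow, eval_X, eval_ofNat,
    WeierstrassCurve.b₂, WeierstrassCurve.b₄, WeierstrassCurve.b₆, WeierstrassCurve.b₈, tA4]
  obtain ⟨a1, a2, a3, a4, a6⟩ := W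
  simp only at hE h2 ⊢
  have h3 : a3 = -2 * t - a1 * r := by linear_combination h2
  subst h3
  have h6 : a6 = t ^ 2 + a1 * r * t + (-2 * t - a1 * r) * t - (r ^ 3 + a2 * r ^ 2 + a4 * r) := by
    linear_combination -hE
  subst h6
  ring

lemma eval_preΨ'_sq (k : ℕ) :
    ((W.preΨ' (2 * k + 1)).eval r) ^ 2 = tA4 W r t ^ (2 * k ^ 2 + 2 * k) := by
  induction k using Nat.strong_induction_on with
  | _ k ih =>
    rcases k with _ | _ | m
    · simp
    · rw [show 2 * (0 + 1) + 1 = 3 from rfl, preΨ'_three, M.eval_Ψ₃]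
      ring
    · rw [show 2 * (m + 1 + 1) + 1 = 2 * (m + 2) + 1 from rfl, preΨ'_odd]
      rcases Nat.even_or_odd' m with ⟨j, rfl | rfl⟩
      · have h1 := ih j (by omega)
        have h2 := ih (j + 1) (by omega)
        rw [if_pos (even_two_mul j), if_pos (even_two_mul j)]
        simp only [eval_sub, eval_mul, eval_pow, M.eval_Ψ₂Sq]
        rw [show 2 * j + 3 = 2 * (j + 1) + 1 by ring]
        have e : (eval r (W.preΨ' (2 * j + 4)) * eval r (W.preΨ' (2 * j + 2)) ^ 3 * 0 ^ 2 -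
          eval r (W.preΨ' (2 * j + 1)) * eval r (W.preΨ' (2 * (j + 1) + 1)) ^ 3 * eval r 1) ^ 2 =
          (eval r (W.preΨ' (2 * j + 1))) ^ 2 * ((eval r (W.preΨ' (2 * (j + 1) + 1))) ^ 2) ^ 3 := by
          rw [eval_one]; ring
        rw [e, h1, h2, ← pow_mul, ← pow_add]
        congr 1
        ring
      · have h1 := ih (j + 2) (by omega)
        have h2 := ih (j + 1) (by omega)
        have ho : ¬ Even (2 * j + 1) := Nat.not_even_iff_odd.mpr (odd_two_mul_add_one j)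
        rw [if_neg ho, if_neg ho]
        simp only [eval_sub, eval_mul, eval_pow, M.eval_Ψ₂Sq]
        rw [show 2 * j + 1 + 4 = 2 * (j + 2) + 1 by ring,
          show 2 * j + 1 + 2 = 2 * (j + 1) + 1 by ring]
        have e : (eval r (W.preΨ' (2 * (j + 2) + 1)) * eval r (W.preΨ' (2 * (j + 1) + 1)) ^ 3 *
          eval r 1 - eval r (W.preΨ' (2 * j + 1 + 1)) * eval r (W.preΨ' (2 * j + 1 + 3)) ^ 3 *
          0 ^ 2) ^ 2 =
          (eval r (W.preΨ' (2 * (j + 2) + 1))) ^ 2 *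
            ((eval r (W.preΨ' (2 * (j + 1) + 1))) ^ 2) ^ 3 := by
          rw [eval_one]; ring
        rw [e, h1, h2, ← pow_mul, ← pow_add]
        congr 1
        ring

end TModel

section roots

variable {W : WeierstrassCurve K} [DecidableEq K]

/-- the roots of the division polynomial -/
noncomputable def dS (W : WeierstrassCurve K) (n : ℕ) : Finset K := (W.preΨ' n).roots.toFinset

lemma mem_dS {n : ℕ} (hn : (n : K) ≠ 0) {x : K} : x ∈ dS W n ↔ (W.preΨ' n).eval x = 0 := by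
  rw [dS, Multiset.mem_toFinset, mem_roots (preΨ'_ne_zero W hn)]
  rfl

lemma mem_dS_iff [IsAlgClosed K] [CharZero K] (hΔ : W.Δ ≠ 0) {n : ℕ} (hn : Odd n) {x : K} :
    x ∈ dS W n ↔ ∃ P : W.toAffine.Point, P ≠ 0 ∧ n • P = 0 ∧ xc P = x := by
  have hnF : (n : K) ≠ 0 := Nat.cast_ne_zero.mpr hn.pos.ne'
  rw [mem_dS hnF]
  constructor
  · intro h
    obtain ⟨y, hy⟩ := exists_point_over hΔ x
    exact ⟨Point.some x y hy, Point.some_ne_zero _, (smul_some_eq_zero_iff_of_odd hy hn).mpr h,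
      rfl⟩
  · rintro ⟨P, hP0, hnP, rfl⟩
    rcases P with _ | ⟨x', y', h'⟩
    · exact absurd rfl hP0
    · exact (smul_some_eq_zero_iff_of_odd h' hn).mp hnP

lemma card_fiber_le (s : Finset W.toAffine.Point) (hs : ∀ P ∈ s, P ≠ 0) (a : K) :
    (s.filter fun P => xc P = a).card ≤ 2 := by
  classical
  rcases (s.filter fun P => xc P = a).eq_empty_or_nonempty with h | ⟨P, hP⟩
  · rw [h]; simp
  · refine (Finset.card_le_card (t := {P, -P}) ?_).trans Finset.card_le_two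
    intro Q hQ
    rw [Finset.mem_filter] at hP hQ
    rw [Finset.mem_insert, Finset.mem_singleton]
    exact eq_or_eq_neg_of_xc_eq (hs Q hQ.1) (hs P hP.1) (hQ.2.trans hP.2.symm)

lemma nodup_dS [IsAlgClosed K] [CharZero K] (hΔ : W.Δ ≠ 0) {n : ℕ} (hn : Odd n) :
    (W.preΨ' n).roots.Nodup := by
  classical
  have hnF : (n : K) ≠ 0 := Nat.cast_ne_zero.mpr hn.pos.ne'
  obtain ⟨hfin, -⟩ := finite_torsion (W := W) hn hnF
  have hcard := ncard_torsion hΔ hn
  set s := hfin.toFinset.erase 0 with hs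
  have h1 : s.card = n ^ 2 - 1 := by
    rw [hs, Finset.card_erase_of_mem, ← Set.ncard_eq_toFinset_card _ hfin, hcard]
    rw [Set.Finite.mem_toFinset]
    exact smul_zero _
  have h2 := Finset.card_le_mul_card_image (f := xc) (s := s) 2
    (fun a _ => card_fiber_le s (fun P hP => Finset.ne_of_mem_erase hP) a)
  have h3 : s.image xc ⊆ dS W n := by
    intro x hx
    obtain ⟨P, hP, rfl⟩ := Finset.mem_image.mp hx
    rw [mem_dS_iff hΔ hn]
    refine ⟨P, Finset.ne_of_mem_erase hP, ?_, rfl⟩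
    have := Finset.mem_of_mem_erase hP
    rwa [Set.Finite.mem_toFinset] at this
  have h4 := Finset.card_le_card h3
  have h5 : (W.preΨ' n).roots.card = (n ^ 2 - 1) / 2 := by
    rw [IsAlgClosed.card_roots_eq_natDegree, natDegree_preΨ' W hnF,
      if_neg (Nat.not_even_iff_odd.mpr hn)]
  rw [← Multiset.toFinset_card_eq_card_iff_nodup]
  refine le_antisymm (Multiset.toFinset_card_le _) ?_
  rw [h5]
  change _ ≤ (dS W n).card
  omega

lemma eval_preΨ'_eq_prod [IsAlgClosed K] [CharZero K] (hΔ : W.Δ ≠ 0) {n : ℕ} (hn : Odd n)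
    (x : K) : (W.preΨ' n).eval x = n * ∏ a ∈ dS W n, (x - a) := by
  have hnF : (n : K) ≠ 0 := Nat.cast_ne_zero.mpr hn.pos.ne'
  rw [(IsAlgClosed.splits (W.preΨ' n)).eval_eq_prod_roots, leadingCoeff_preΨ' W hnF,
    if_neg (Nat.not_even_iff_odd.mpr hn), Finset.prod, dS, Multiset.toFinset_val,
    Multiset.dedup_eq_self.mpr (nodup_dS hΔ hn)]

end roots

section val

variable {W : WeierstrassCurve K} [DecidableEq K] {Γ₀ : Type*}
  [LinearOrderedCommGroupWithZero Γ₀] {v : Valuation K Γ₀}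

open Classical in
/-- The product of the `x`-coordinates of the `n`-torsion points in the formal group. -/
theorem formal_prod [IsAlgClosed K] [CharZero K] (hΔ : W.Δ ≠ 0) (hI : IsInt v W) {n : ℕ}
    (hn : Odd n) {r' t' : K} (M' : TModel W r' t') (hr' : v r' ≤ 1) (hA' : v (tA4 W r' t') = 1) :
    v (n : K) * ∏ a ∈ (dS W n).filter (fun a => 1 < v a), v a = 1 := by
  have hnF : (n : K) ≠ 0 := Nat.cast_ne_zero.mpr hn.pos.ne'
  refine le_antisymm ?_ ?_
  · refine hI.prod_xc_le hn hnF (fun x hx => (Finset.mem_filter.mp hx).2.le) fun x hx => ?_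
    exact (mem_dS_iff hΔ hn).mp (Finset.mem_filter.mp hx).1
  · obtain ⟨k, hk⟩ := hn
    have h1 : v ((W.preΨ' n).eval r') = 1 := by
      have h2 := congrArg v (M'.eval_preΨ'_sq k)
      rw [map_pow, map_pow, hA', one_pow, ← hk] at h2
      exact (pow_eq_one_iff.mp h2).resolve_right two_ne_zero
    rw [eval_preΨ'_eq_prod hΔ ⟨k, hk⟩, map_mul, map_prod] at h1
    refine h1.ge.trans ?_
    rw [Finset.prod_filter]
    gcongr with a ha
    · exact fun _ _ => zero_le
    split_ifs with h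
    · exact v.map_sub_le (hr'.trans h.le) le_rfl
    · exact v.map_sub_le hr' (not_lt.mp h)

theorem exists_not_E0 [IsAlgClosed K] [CharZero K] (hΔ : W.Δ ≠ 0) (hI : IsInt v W) {n : ℕ}
    (hn : Odd n) (hn1 : 1 < n) {r' t' : K} (M' : TModel W r' t') (hr' : v r' ≤ 1)
    (hA' : v (tA4 W r' t') = 1) {r t : K} (M : IntT v W r t) (hm : v (tA4 W r t) < 1) :
    ∃ P : W.toAffine.Point, n • P = 0 ∧ P ∉ M.E0 hm := by
  classical
  by_contra hcon
  push Not at hcon
  have h0 := formal_prod hΔ hI hn M' hr' hA'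
  have h2 : ∀ a ∈ dS W n, v (r - a) = if 1 < v a then v a else 1 := by
    intro a ha
    obtain ⟨P, hP0, hnP, rfl⟩ := (mem_dS_iff hΔ hn).mp ha
    have h3 := hcon P hnP
    rcases P with _ | ⟨x, y, h⟩
    · exact absurd rfl hP0
    rw [xc_some]
    rw [M.mem_E0_some] at h3
    split_ifs with h4
    · exact Valuation.map_sub_eq_of_lt_right _ (M.vr.trans_lt h4)
    · refine le_antisymm (v.map_sub_le M.vr (not_lt.mp h4)) ?_
      rwa [Valuation.map_sub_swap]
  have h1 : v ((W.preΨ' n).eval r) = 1 := by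
    rw [eval_preΨ'_eq_prod hΔ hn, map_mul, map_prod, Finset.prod_congr rfl h2, ← Finset.prod_filter]
    exact h0
  obtain ⟨k, hk⟩ := hn
  have h3 := congrArg v (M.toTModel.eval_preΨ'_sq k)
  rw [map_pow, map_pow, ← hk, h1, one_pow] at h3
  have h4 : v (tA4 W r t) ^ (2 * k ^ 2 + 2 * k) < 1 := by
    refine pow_lt_one₀ zero_le hm ?_
    have : 0 < k := by omega
    positivity
  rw [← h3] at h4
  exact lt_irrefl _ h4

/-- The filtration of the formal group. -/
def IntT.Ec {r t : K} (M : IntT v W r t) {c : Γ₀} (hc : 1 < c) : AddSubgroup W.toAffine.Point where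
  carrier := {P | ∀ x y (h : W.toAffine.Nonsingular x y), P = Point.some x y h → c ≤ v (x - r)}
  zero_mem' := fun x y h he => absurd he.symm (Point.some_ne_zero h)
  neg_mem' := by
    intro P hP x y h he
    rcases P with _ | ⟨x', y', h'⟩
    · rw [← Point.zero_def, neg_zero] at he
      exact absurd he.symm (Point.some_ne_zero h)
    · rw [Point.neg_some, Point.some.injEq] at he
      rw [← he.1]
      exact hP x' y' h' rfl
  add_mem' := by
    intro P Q hP hQ x y h he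
    rcases P with _ | ⟨x₁, y₁, h₁⟩
    · rw [← Point.zero_def, zero_add] at he
      exact hQ x y h he
    rcases Q with _ | ⟨x₂, y₂, h₂⟩
    · rw [← Point.zero_def, add_zero] at he
      exact hP x y h he
    have g1 := hP x₁ y₁ h₁ rfl
    have g2 := hQ x₂ y₂ h₂ rfl
    by_cases hxy : x₁ = x₂ ∧ y₁ = W.toAffine.negY x₂ y₂
    · rw [Point.add_of_Y_eq hxy.1 hxy.2] at he
      exact absurd he.symm (Point.some_ne_zero h)
    · rw [Point.add_some hxy, Point.some.injEq] at he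
      rw [← he.1]
      have g1' := hc.trans_le g1
      have g2' := hc.trans_le g2
      refine (le_min g1 g2).trans (M.min_le_sum h₁.1 h₂.1 g1'.le g2'.le ?_ hxy)
      refine lt_of_le_of_lt M.vA4 ?_
      rw [map_mul]
      exact one_lt_mul_of_lt_of_le' g1' g2'.le

theorem mem_E1_iff' {r t : K} (M : IntT v W r t) {Q : W.toAffine.Point} (hQ : Q ≠ 0) :
    Q ∈ M.E1 ↔ 1 < v (xc Q) := by
  rcases Q with _ | ⟨x, y, h⟩
  · exact absurd rfl hQ
  · rw [M.mem_E1_some' h, xc_some]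

theorem v_xc_zsmul_ge {r t : K} (M : IntT v W r t) {Q : W.toAffine.Point} (hQ0 : Q ≠ 0)
    (hQ : Q ∈ M.E1) (n : ℤ) (hn : n • Q ≠ 0) : v (xc Q) ≤ v (xc (n • Q)) := by
  have hnQ : n • Q ∈ M.E1 := M.E1.zsmul_mem hQ n
  have h1 := (mem_E1_iff' M hQ0).1 hQ
  have h2 := (mem_E1_iff' M hn).1 hnQ
  have h3 : Q ∈ M.Ec h1 := by
    rcases Q with _ | ⟨x, y, h⟩
    · exact absurd rfl hQ0
    intro x' y' h' he
    rw [Point.some.injEq] at he
    rw [xc_some] at h1
    rw [← he.1, xc_some, Valuation.map_sub_eq_of_lt_left _ (M.vr.trans_lt h1)]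
  have h4 := (M.Ec h1).zsmul_mem h3 n
  rcases hnq : n • Q with _ | ⟨x, y, h⟩
  · exact absurd hnq hn
  rw [hnq, xc_some] at h2
  have h5 := h4 x y h hnq
  rwa [Valuation.map_sub_eq_of_lt_left _ (M.vr.trans_lt h2)] at h5

theorem ne_neg_of_odd {G : Type*} [AddCommGroup G] {p : ℕ} (hp : Odd p) {P : G} (hP0 : P ≠ 0)
    (hP : p • P = 0) : P ≠ -P := by
  intro h
  apply hP0
  obtain ⟨k, rfl⟩ := hp
  have h2 : (2 : ℕ) • P = 0 := by
    rw [two_nsmul]
    nth_rewrite 2 [h]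
    exact add_neg_cancel P
  rw [add_nsmul, mul_comm 2 k, mul_nsmul', h2, smul_zero, zero_add, one_nsmul] at hP
  exact hP

/-- **The line of `p`-torsion points in the formal group.** -/
theorem exists_formal_line [IsAlgClosed K] [CharZero K] (hΔ : W.Δ ≠ 0) (hI : IsInt v W) {p : ℕ}
    (hp : p.Prime) (hp2 : p ≠ 2) (hvp : v (p : K) < 1) {r' t' : K} (M' : TModel W r' t')
    (hr' : v r' ≤ 1) (hA' : v (tA4 W r' t') = 1) {r t : K} (M : IntT v W r t)
    (hm : v (tA4 W r t) < 1) :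
    ∃ Q0 : W.toAffine.Point, Q0 ≠ 0 ∧ p • Q0 = 0 ∧ Q0 ∈ M.E1 ∧
      (∀ Q, p • Q = 0 → Q ∈ M.E0 hm → ∃ n : ℤ, Q = n • Q0) ∧
      (∀ Q, Q ≠ 0 → p • Q = 0 → Q ∈ M.E1 → v (xc Q) = v (xc Q0)) ∧
      v (p : K) * v (xc Q0) ^ ((p - 1) / 2) = 1 ∧
      ∃ Q, p • Q = 0 ∧ Q ∉ M.E0 hm := by
  classical
  have hodd : Odd p := hp.odd_of_ne_two hp2
  have hprod := formal_prod hΔ hI hodd M' hr' hA'
  obtain ⟨Q1, hpQ1, hQ1⟩ := exists_not_E0 hΔ hI hodd hp.one_lt M' hr' hA' M hm
  obtain ⟨Q0, hQ00, hpQ0, hQ0E⟩ : ∃ Q0 : W.toAffine.Point, Q0 ≠ 0 ∧ p • Q0 = 0 ∧ Q0 ∈ M.E1 := by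
    by_contra hcon
    push Not at hcon
    have h1 : (dS W p).filter (fun a => 1 < v a) = ∅ := by
      rw [Finset.filter_eq_empty_iff]
      intro a ha hva
      obtain ⟨P, hP0, hpP, rfl⟩ := (mem_dS_iff hΔ hodd).mp ha
      exact hcon P hP0 hpP ((mem_E1_iff' M hP0).2 hva)
    rw [h1, Finset.prod_empty, mul_one] at hprod
    exact hvp.ne hprod
  -- the torsion subgroup
  let T : AddSubgroup W.toAffine.Point := (nsmulAddMonoidHom p).ker
  have hT : ∀ Q, Q ∈ T ↔ p • Q = 0 := fun Q => Iff.rfl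
  have hcT : Nat.card T = p ^ 2 := by
    rw [← ncard_torsion hΔ hodd]
    rfl
  have hfT : Finite T := Nat.finite_of_card_ne_zero (by rw [hcT]; exact pow_ne_zero 2 hp.ne_zero)
  have hN := card_line hp (N := M.E0 hm ⊓ T) (V := T) inf_le_right (fun x hx => hx) hfT hcT.le
    (by
      intro h
      have : Q0 ∈ M.E0 hm ⊓ T := ⟨M.E1_le_E0 hm hQ0E, hpQ0⟩
      rw [h, AddSubgroup.mem_bot] at this
      exact hQ00 this)
    (by
      intro h
      have : Q1 ∈ M.E0 hm ⊓ T := by rw [h]; exact hpQ1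
      exact hQ1 this.1)
  have hspan : ∀ P : W.toAffine.Point, P ≠ 0 → p • P = 0 → P ∈ M.E0 hm →
      ∀ Q, p • Q = 0 → Q ∈ M.E0 hm → ∃ n : ℤ, Q = n • P := by
    intro P hP0 hpP hP Q hpQ hQ
    have hd := line_dichotomy hp hN.1 (AddSubgroup.zmultiples P)
    rcases hd with hd | hd
    · exact absurd (hd P ⟨hP, hpP⟩ (AddSubgroup.mem_zmultiples P)) hP0
    · obtain ⟨n, hn⟩ := AddSubgroup.mem_zmultiples_iff.mp (hd ⟨hQ, hpQ⟩)
      exact ⟨n, hn.symm⟩
  have hval : ∀ P Q : W.toAffine.Point, P ≠ 0 → p • P = 0 → P ∈ M.E1 → Q ≠ 0 → p • Q = 0 →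
      Q ∈ M.E1 → v (xc P) ≤ v (xc Q) := by
    intro P Q hP0 hpP hP hQ0 hpQ hQ
    obtain ⟨n, rfl⟩ := hspan P hP0 hpP (M.E1_le_E0 hm hP) Q hpQ (M.E1_le_E0 hm hQ)
    exact v_xc_zsmul_ge M hP0 hP n hQ0
  refine ⟨Q0, hQ00, hpQ0, hQ0E, hspan Q0 hQ00 hpQ0 (M.E1_le_E0 hm hQ0E), ?_, ?_, Q1, hpQ1, hQ1⟩
  · intro Q hQ0 hpQ hQ
    exact le_antisymm (hval _ _ hQ0 hpQ hQ hQ00 hpQ0 hQ0E) (hval _ _ hQ00 hpQ0 hQ0E hQ0 hpQ hQ)
  · -- counting
    have hfin : ((M.E0 hm ⊓ T : AddSubgroup W.toAffine.Point) : Set W.toAffine.Point).Finite := by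
      have : Finite (M.E0 hm ⊓ T : AddSubgroup W.toAffine.Point) :=
        Nat.finite_of_card_ne_zero (by rw [hN.1]; exact hp.ne_zero)
      exact Set.toFinite _
    set s := hfin.toFinset.erase 0 with hs
    have hmem : ∀ P, P ∈ s ↔ P ≠ 0 ∧ P ∈ M.E0 hm ∧ p • P = 0 := by
      intro P
      rw [hs, Finset.mem_erase, Set.Finite.mem_toFinset]
      rfl
    have hE1 : ∀ P ∈ s, P ∈ M.E1 := by
      intro P hP
      obtain ⟨h1, h2, h3⟩ := (hmem P).1 hP
      obtain ⟨n, rfl⟩ := hspan Q0 hQ00 hpQ0 (M.E1_le_E0 hm hQ0E) P h3 h2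
      exact M.E1.zsmul_mem hQ0E n
    have hscard : s.card = p - 1 := by
      rw [hs, Finset.card_erase_of_mem, ← Set.ncard_eq_toFinset_card _ hfin]
      · congr 1
        exact hN.1
      · rw [Set.Finite.mem_toFinset]
        exact zero_mem _
    have himg : s.image xc = (dS W p).filter (fun a => 1 < v a) := by
      ext a
      rw [Finset.mem_image, Finset.mem_filter, mem_dS_iff hΔ hodd]
      constructor
      · rintro ⟨P, hP, rfl⟩
        obtain ⟨h1, h2, h3⟩ := (hmem P).1 hP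
        exact ⟨⟨P, h1, h3, rfl⟩, (mem_E1_iff' M h1).1 (hE1 P hP)⟩
      · rintro ⟨⟨P, h1, h3, rfl⟩, hva⟩
        exact ⟨P, (hmem P).2 ⟨h1, M.E1_le_E0 hm ((mem_E1_iff' M h1).2 hva), h3⟩, rfl⟩
    have hfib : ∀ a ∈ s.image xc, (s.filter fun P => xc P = a).card = 2 := by
      intro a ha
      obtain ⟨P, hP, rfl⟩ := Finset.mem_image.mp ha
      obtain ⟨h1, h2, h3⟩ := (hmem P).1 hP
      have : (s.filter fun Q => xc Q = xc P) = {P, -P} := by
        ext Q
        rw [Finset.mem_filter, Finset.mem_insert, Finset.mem_singleton]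
        constructor
        · rintro ⟨hQ, he⟩
          exact eq_or_eq_neg_of_xc_eq ((hmem Q).1 hQ).1 h1 he
        · rintro (rfl | rfl)
          · exact ⟨hP, rfl⟩
          · refine ⟨(hmem _).2 ⟨neg_ne_zero.2 h1, neg_mem h2, by rw [smul_neg, h3, neg_zero]⟩, ?_⟩
            rcases P with _ | ⟨x, y, h⟩
            · exact absurd rfl h1
            · rfl
      rw [this, Finset.card_pair (ne_neg_of_odd hodd h1 h3)]
    have h5 := Finset.card_eq_sum_card_image xc s
    rw [Finset.sum_congr rfl hfib, Finset.sum_const, smul_eq_mul, himg, hscard] at h5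
    have h6 : ((dS W p).filter (fun a => 1 < v a)).card = (p - 1) / 2 := by omega
    rw [← h6, ← Finset.prod_const]
    refine Eq.trans ?_ hprod
    congr 1
    refine Finset.prod_congr rfl fun a ha => ?_
    rw [← himg] at ha
    obtain ⟨P, hP, rfl⟩ := Finset.mem_image.mp ha
    obtain ⟨h1, h2, h3⟩ := (hmem P).1 hP
    exact le_antisymm (hval _ _ hQ00 hpQ0 hQ0E h1 h3 (hE1 P hP))
      (hval _ _ h1 h3 (hE1 P hP) hQ00 hpQ0 hQ0E)

end val

end Fermat.Agent.EC
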