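import Mathlib.NumberTheory.PythagoreanTriples
import Mathlib.Tactic

/-!
# Rational points on `Y² = Z (Z - 16) (Z + 9)` (the modular curve `X₀(15)`)
-/

set_option autoImplicit false

namespace Fermat.Agent.EC.X15

lemma sq_mod_eight {n : ℤ} (hn : n % 2 = 1) : n ^ 2 % 8 = 1 := by
  have h : n % 8 = 1 ∨ n % 8 = 3 ∨ n % 8 = 5 ∨ n % 8 = 7 := by omega
  rcases h with h | h | h | h <;> simp [pow_two, Int.mul_emod, h]

lemma three_dvd_of_sq_add_sq {x y : ℤ} (h : (3 : ℤ) ∣ x ^ 2 + y ^ 2) : 3 ∣ x ∧ 3 ∣ y := by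
  have hx : x % 3 = 0 ∨ x % 3 = 1 ∨ x % 3 = 2 := by omega
  have hy : y % 3 = 0 ∨ y % 3 = 1 ∨ y % 3 = 2 := by omega
  have h' : (x ^ 2 + y ^ 2) % 3 = 0 := Int.emod_eq_zero_of_dvd h
  rcases hx with hx | hx | hx <;> rcases hy with hy | hy | hy <;>
    (simp [pow_two, Int.add_emod, Int.mul_emod, hx, hy] at h'; try omega)

/-- From `γ² P = β² Q` with `γ, β` coprime. -/
lemma exists_kappa {γ β A B : ℤ} (hc : IsCoprime γ β) (hβ : β ≠ 0)
    (h : γ ^ 2 * A = β ^ 2 * B) : ∃ κ, A = κ * β ^ 2 ∧ B = κ * γ ^ 2 := by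
  have h1 : β ^ 2 ∣ γ ^ 2 * A := ⟨B, h⟩
  have h2 : β ^ 2 ∣ A := (hc.symm.pow).dvd_of_dvd_mul_left h1
  obtain ⟨κ, hκ⟩ := h2
  refine ⟨κ, by rw [hκ]; ring, ?_⟩
  have h3 : β ^ 2 * B = β ^ 2 * (κ * γ ^ 2) := by rw [← h, hκ]; ring
  exact mul_left_cancel₀ (pow_ne_zero 2 hβ) h3

/-- four number lemma -/
lemma four_number {P q u w : ℤ} (h : P * q = u * w) (hu : u ≠ 0) :
    ∃ α β γ δ : ℤ, P = α * β ∧ q = γ * δ ∧ u = α * γ ∧ w = β * δ := by
  obtain ⟨α, γ, ⟨β, hβ⟩, ⟨δ, hδ⟩, hu'⟩ := exists_dvd_and_dvd_of_dvd_mul (Dvd.intro w h.symm)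
  refine ⟨α, β, γ, δ, hβ, hδ, hu', ?_⟩
  have h1 : u * w = u * (β * δ) := by
    rw [← h, hβ, hδ, hu']; ring
  exact mul_left_cancel₀ hu h1

lemma dvd_fifteen {κ α δ x y : ℤ} (hc : IsCoprime α δ) (h1 : 15 * α ^ 2 = κ * x)
    (h2 : 15 * δ ^ 2 = κ * y) : κ ∣ 15 := by
  obtain ⟨a, b, hab⟩ := (hc.pow (m := 2) (n := 2))
  refine ⟨a * x + b * y, ?_⟩
  linear_combination (-15) * hab + a * h1 + b * h2

lemma pos_dvd_fifteen {κ : ℤ} (h : κ ∣ 15) (hκ : 0 < κ) : κ = 1 ∨ κ = 3 ∨ κ = 5 ∨ κ = 15 := by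
  have hle : κ ≤ 15 := Int.le_of_dvd (by norm_num) h
  interval_cases κ <;> simp_all

/-- The basic descent: `k² + n²` and `16 k² + n²` are not both squares for `n` odd, `k ≠ 0`. -/
theorem descent_aux : ∀ N : ℕ, ∀ k n a b : ℤ, k.natAbs ≤ N → n % 2 = 1 →
    k ^ 2 + n ^ 2 = a ^ 2 → 16 * k ^ 2 + n ^ 2 = b ^ 2 → k = 0 := by
  intro N
  induction N with
  | zero =>
    intro k n a b hk _ _ _
    exact Int.natAbs_eq_zero.mp (Nat.le_zero.mp hk)
  | succ N ih =>
    intro k n a b hk hn ha hb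
    by_contra hk0
    by_cases hg : IsCoprime k n
    swap
    · -- divide by the gcd
      have hgpos : 0 < (Int.gcd k n) := Int.gcd_pos_of_ne_zero_left n hk0
      have hg1 : (Int.gcd k n) ≠ 1 := fun h => hg (Int.isCoprime_iff_gcd_eq_one.mpr h)
      set g : ℤ := (Int.gcd k n : ℤ) with hgdef
      have hg2 : 2 ≤ g := by omega
      obtain ⟨k', hk'⟩ : g ∣ k := Int.gcd_dvd_left ..
      obtain ⟨n', hn'⟩ : g ∣ n := Int.gcd_dvd_right ..
      have hga : g ∣ a := by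
        rw [← Int.pow_dvd_pow_iff two_ne_zero]
        exact ⟨k' ^ 2 + n' ^ 2, by rw [← ha, hk', hn']; ring⟩
      have hgb : g ∣ b := by
        rw [← Int.pow_dvd_pow_iff two_ne_zero]
        exact ⟨16 * k' ^ 2 + n' ^ 2, by rw [← hb, hk', hn']; ring⟩
      obtain ⟨a', ha'⟩ := hga
      obtain ⟨b', hb'⟩ := hgb
      have hg0 : g ^ 2 ≠ 0 := by positivity
      have hk'0 : k' ≠ 0 := by rintro rfl; exact hk0 (by rw [hk', mul_zero])
      apply hk'0
      refine ih k' n' a' b' ?_ ?_ ?_ ?_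
      · have h1 : k.natAbs = g.natAbs * k'.natAbs := by rw [hk', Int.natAbs_mul]
        have h2 : 2 ≤ g.natAbs := by omega
        have h3 : 0 < k'.natAbs := Int.natAbs_pos.mpr hk'0
        nlinarith
      · rcases Int.emod_two_eq_zero_or_one n' with h | h
        · exfalso
          rw [hn', Int.mul_emod, h] at hn
          simp at hn
        · exact h
      · apply mul_left_cancel₀ hg0
        rw [ha', hk', hn'] at ha
        linear_combination ha
      · apply mul_left_cancel₀ hg0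
        rw [hb', hk', hn'] at hb
        linear_combination hb
    -- coprime case
    have hcop : IsCoprime n k := hg.symm
    have ha0 : a ≠ 0 := by
      rintro rfl
      have : k ^ 2 + n ^ 2 = 0 := by rw [ha]; ring
      have : 0 < k ^ 2 := by positivity
      nlinarith [sq_nonneg n]
    have hb0 : b ≠ 0 := by
      rintro rfl
      have : 16 * k ^ 2 + n ^ 2 = 0 := by rw [hb]; ring
      have : 0 < k ^ 2 := by positivity
      nlinarith [sq_nonneg n]
    have hcop4 : Int.gcd n (4 * k) = 1 := by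
      rw [← Int.isCoprime_iff_gcd_eq_one]
      refine IsCoprime.mul_right ?_ hcop
      have h2 : IsCoprime n 2 := by
        obtain ⟨m, hm⟩ : ∃ m, n = 2 * m + 1 := ⟨n / 2, by omega⟩
        exact ⟨1, -m, by rw [hm]; ring⟩
      have : (4 : ℤ) = 2 * 2 := by norm_num
      rw [this]
      exact h2.mul_right h2
    obtain ⟨u, w, hu1, hu2, -, huw, hpar, -⟩ := PythagoreanTriple.coprime_classification'
      (x := n) (y := k) (z := |a|) (by
        have : |a| * |a| = a ^ 2 := by rw [abs_mul_abs_self, sq]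
        rw [PythagoreanTriple, this, ← ha]; ring)
      (Int.isCoprime_iff_gcd_eq_one.mp hcop) hn (abs_pos.mpr ha0)
    obtain ⟨p, q, hp1, hp2, -, hpq, hpar', -⟩ := PythagoreanTriple.coprime_classification'
      (x := n) (y := 4 * k) (z := |b|) (by
        have : |b| * |b| = b ^ 2 := by rw [abs_mul_abs_self, sq]
        rw [PythagoreanTriple, this, ← hb]; ring)
      hcop4 hn (abs_pos.mpr hb0)
    rw [← Int.isCoprime_iff_gcd_eq_one] at huw hpq
    have hpq4 : p * q = 4 * (u * w) := by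
      have : 2 * (p * q) = 2 * (4 * (u * w)) := by
        calc 2 * (p * q) = 2 * p * q := by ring
          _ = 4 * k := hp2.symm
          _ = 2 * (4 * (u * w)) := by rw [hu2]; ring
      linarith
    have hu0 : u ≠ 0 := by rintro rfl; exact hk0 (by rw [hu2]; ring)
    have hw0 : w ≠ 0 := by rintro rfl; exact hk0 (by rw [hu2]; ring)
    rcases hpar' with ⟨hpe, hqo⟩ | ⟨hpo, hqe⟩
    · -- `p` even
      have h4 : (4 : ℤ) ∣ p := by
        have h1 : (4 : ℤ) ∣ p * q := ⟨u * w, hpq4⟩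
        have h2 : IsCoprime (4 : ℤ) q := by
          have h3 : IsCoprime (2 : ℤ) q := by
            obtain ⟨m, hm⟩ : ∃ m, q = 2 * m + 1 := ⟨q / 2, by omega⟩
            exact ⟨-m, 1, by rw [hm]; ring⟩
          have : (4 : ℤ) = 2 * 2 := by norm_num
          rw [this]
          exact h3.mul_left h3
        exact h2.dvd_of_dvd_mul_right h1
      obtain ⟨P, hP⟩ := h4
      have hPq : P * q = u * w := by
        rw [hP] at hpq4
        linarith
      obtain ⟨α, β, γ, δ, e1, e2, e3, e4⟩ := four_number hPq hu0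
      have hα : α ≠ 0 := by rintro rfl; exact hu0 (by rw [e3, zero_mul])
      have hβ : β ≠ 0 := by rintro rfl; exact hw0 (by rw [e4, zero_mul])
      have hγ : γ ≠ 0 := by rintro rfl; exact hu0 (by rw [e3, mul_zero])
      have hδ : δ ≠ 0 := by rintro rfl; exact hw0 (by rw [e4, mul_zero])
      have cγβ : IsCoprime γ β := by
        rw [e3, e4] at huw
        exact (huw.of_mul_left_right).of_mul_right_left
      have cαδ : IsCoprime α δ := by
        rw [e3, e4] at huw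
        exact (huw.of_mul_left_left).of_mul_right_right
      have hqo' : γ % 2 = 1 ∧ δ % 2 = 1 := by
        rw [e2] at hqo
        rcases Int.emod_two_eq_zero_or_one γ with h | h <;>
          rcases Int.emod_two_eq_zero_or_one δ with h' | h' <;>
          simp [Int.mul_emod, h, h'] at hqo ⊢
      have key : γ ^ 2 * (α ^ 2 + δ ^ 2) = β ^ 2 * (16 * α ^ 2 + δ ^ 2) := by
        have h1 : u ^ 2 - w ^ 2 = p ^ 2 - q ^ 2 := by rw [← hu1, ← hp1]
        rw [hP, e1, e2, e3, e4] at h1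
        linear_combination h1
      obtain ⟨κ, k1, k2⟩ := exists_kappa cγβ hβ key
      have hκpos : 0 < κ := by
        have h1 : 0 < κ * β ^ 2 := by rw [← k1]; positivity
        exact pos_of_mul_pos_left h1 (sq_nonneg β)
      have hκ15 : κ ∣ 15 := dvd_fifteen cαδ (x := γ ^ 2 - β ^ 2) (y := 16 * β ^ 2 - γ ^ 2)
        (by linear_combination k2 - k1) (by linear_combination 16 * k1 - k2)
      have h3κ : ¬ (3 : ℤ) ∣ κ := by
        intro h
        have h1 : (3 : ℤ) ∣ α ^ 2 + δ ^ 2 := by rw [k1]; exact h.mul_right _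
        obtain ⟨h2, h3⟩ := three_dvd_of_sq_add_sq h1
        exact Int.prime_three.not_isUnit (cαδ.isUnit_of_dvd' h2 h3)
      have g8 := sq_mod_eight hqo'.1
      have d8 := sq_mod_eight hqo'.2
      rcases pos_dvd_fifteen hκ15 hκpos with rfl | rfl | rfl | rfl
      · apply hα
        refine ih α δ β γ ?_ hqo'.2 (by rw [k1, one_mul]) (by rw [k2, one_mul])
        have h1 : k.natAbs = 2 * (α.natAbs * γ.natAbs) * (β.natAbs * δ.natAbs) := by
          rw [hu2, e3, e4]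
          simp only [Int.natAbs_mul]
          rfl
        have h2 : 0 < α.natAbs := Int.natAbs_pos.mpr hα
        have h3 : 0 < β.natAbs := Int.natAbs_pos.mpr hβ
        have h4 : 0 < γ.natAbs := Int.natAbs_pos.mpr hγ
        have h5 : 0 < δ.natAbs := Int.natAbs_pos.mpr hδ
        have h6 : α.natAbs ≤ α.natAbs * γ.natAbs := Nat.le_mul_of_pos_right _ h4
        have h7 : 1 ≤ β.natAbs * δ.natAbs := Nat.mul_pos h3 h5
        nlinarith
      · exact h3κ (dvd_refl 3)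
      · omega
      · exact h3κ (by norm_num)
    · -- `q` even
      have h4 : (4 : ℤ) ∣ q := by
        have h1 : (4 : ℤ) ∣ p * q := ⟨u * w, hpq4⟩
        have h2 : IsCoprime (4 : ℤ) p := by
          have h3 : IsCoprime (2 : ℤ) p := by
            obtain ⟨m, hm⟩ : ∃ m, p = 2 * m + 1 := ⟨p / 2, by omega⟩
            exact ⟨-m, 1, by rw [hm]; ring⟩
          have : (4 : ℤ) = 2 * 2 := by norm_num
          rw [this]
          exact h3.mul_left h3
        exact h2.dvd_of_dvd_mul_left h1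
      obtain ⟨Q, hQ⟩ := h4
      have hPq : Q * p = u * w := by
        rw [hQ] at hpq4
        linarith
      obtain ⟨α, β, γ, δ, e1, e2, e3, e4⟩ := four_number hPq hu0
      have hα : α ≠ 0 := by rintro rfl; exact hu0 (by rw [e3, zero_mul])
      have hβ : β ≠ 0 := by rintro rfl; exact hw0 (by rw [e4, zero_mul])
      have hγ : γ ≠ 0 := by rintro rfl; exact hu0 (by rw [e3, mul_zero])
      have hδ : δ ≠ 0 := by rintro rfl; exact hw0 (by rw [e4, mul_zero])
      have cγβ : IsCoprime γ β := by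
        rw [e3, e4] at huw
        exact (huw.of_mul_left_right).of_mul_right_left
      have cαδ : IsCoprime α δ := by
        rw [e3, e4] at huw
        exact (huw.of_mul_left_left).of_mul_right_right
      have hqo' : γ % 2 = 1 ∧ δ % 2 = 1 := by
        rw [e2] at hpo
        rcases Int.emod_two_eq_zero_or_one γ with h | h <;>
          rcases Int.emod_two_eq_zero_or_one δ with h' | h' <;>
          simp [Int.mul_emod, h, h'] at hpo ⊢
      have key : γ ^ 2 * (δ ^ 2 - α ^ 2) = β ^ 2 * (16 * α ^ 2 - δ ^ 2) := by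
        have h1 : u ^ 2 - w ^ 2 = p ^ 2 - q ^ 2 := by rw [← hu1, ← hp1]
        rw [hQ, e1, e2, e3, e4] at h1
        linear_combination (-1) * h1
      obtain ⟨κ, k1, k2⟩ := exists_kappa cγβ hβ key
      have hκpos : 0 < κ := by
        have h1 : 0 < κ * (β ^ 2 + γ ^ 2) := by
          have : κ * (β ^ 2 + γ ^ 2) = 15 * α ^ 2 := by linear_combination (-1) * k1 - k2
          rw [this]; positivity
        exact pos_of_mul_pos_left h1 (by positivity)
      have hκ15 : κ ∣ 15 := dvd_fifteen cαδ (x := β ^ 2 + γ ^ 2) (y := 16 * β ^ 2 + γ ^ 2)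
        (by linear_combination k1 + k2) (by linear_combination 16 * k1 + k2)
      have g8 := sq_mod_eight hqo'.1
      have d8 := sq_mod_eight hqo'.2
      rcases pos_dvd_fifteen hκ15 hκpos with rfl | rfl | rfl | rfl
      · have h1 : (3 : ℤ) ∣ γ ^ 2 + β ^ 2 := ⟨5 * α ^ 2, by linear_combination (-1) * k1 - k2⟩
        obtain ⟨h2, h3⟩ := three_dvd_of_sq_add_sq h1
        exact Int.prime_three.not_isUnit (cγβ.isUnit_of_dvd' h2 h3)
      · omega
      · omega
      · apply hβ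
        refine ih β γ α δ ?_ hqo'.1 (by linarith) (by linarith)
        have h1 : k.natAbs = 2 * (α.natAbs * γ.natAbs) * (β.natAbs * δ.natAbs) := by
          rw [hu2, e3, e4]
          simp only [Int.natAbs_mul]
          rfl
        have h2 : 0 < α.natAbs := Int.natAbs_pos.mpr hα
        have h3 : 0 < β.natAbs := Int.natAbs_pos.mpr hβ
        have h4 : 0 < γ.natAbs := Int.natAbs_pos.mpr hγ
        have h5 : 0 < δ.natAbs := Int.natAbs_pos.mpr hδ
        have h6 : β.natAbs ≤ β.natAbs * δ.natAbs := Nat.le_mul_of_pos_right _ h5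
        have h7 : 1 ≤ α.natAbs * γ.natAbs := Nat.mul_pos h2 h4
        nlinarith

theorem descent {k n a b : ℤ} (hn : n % 2 = 1) (ha : k ^ 2 + n ^ 2 = a ^ 2)
    (hb : 16 * k ^ 2 + n ^ 2 = b ^ 2) : k = 0 :=
  descent_aux _ k n a b le_rfl hn ha hb

lemma sq_of_coprime_pos {a b c : ℤ} (h : IsCoprime a b) (ha : 0 < a) (heq : a * b = c ^ 2) :
    ∃ r, a = r ^ 2 := by
  obtain ⟨r, hr | hr⟩ := Int.sq_of_isCoprime h heq
  · exact ⟨r, hr⟩
  · nlinarith [sq_nonneg r]

lemma quartic {k n t : ℤ} (hc : IsCoprime k n) (hn : n % 2 = 1)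
    (h : (k ^ 2 + n ^ 2) * (16 * k ^ 2 + n ^ 2) = t ^ 2) : k = 0 := by
  have hn0 : n ≠ 0 := by rintro rfl; norm_num at hn
  have hA : 0 < k ^ 2 + n ^ 2 := by positivity
  have hB : 0 < 16 * k ^ 2 + n ^ 2 := by positivity
  have n8 := sq_mod_eight hn
  set g : ℤ := (Int.gcd (k ^ 2 + n ^ 2) (16 * k ^ 2 + n ^ 2) : ℤ) with hg
  have hgpos : 0 < g := by
    have : 0 < Int.gcd (k ^ 2 + n ^ 2) (16 * k ^ 2 + n ^ 2) := Int.gcd_pos_of_ne_zero_left _ hA.ne'
    omega
  obtain ⟨A, hAe⟩ : g ∣ k ^ 2 + n ^ 2 := Int.gcd_dvd_left ..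
  obtain ⟨B, hBe⟩ : g ∣ 16 * k ^ 2 + n ^ 2 := Int.gcd_dvd_right ..
  have hg15 : g ∣ 15 := dvd_fifteen hc (x := B - A) (y := 16 * A - B)
    (by linear_combination hBe - hAe) (by linear_combination 16 * hAe - hBe)
  have h3g : ¬ (3 : ℤ) ∣ g := by
    intro h
    have h1 : (3 : ℤ) ∣ k ^ 2 + n ^ 2 := by rw [hAe]; exact h.mul_right _
    obtain ⟨h2, h3⟩ := three_dvd_of_sq_add_sq h1
    exact Int.prime_three.not_isUnit (hc.isUnit_of_dvd' h2 h3)
  have hcop : IsCoprime A B := by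
    rw [Int.isCoprime_iff_gcd_eq_one]
    have h1 : Int.gcd (k ^ 2 + n ^ 2) (16 * k ^ 2 + n ^ 2) = g.natAbs * Int.gcd A B := by
      rw [hAe, hBe, Int.gcd_mul_left]
    have h2 : Int.gcd (k ^ 2 + n ^ 2) (16 * k ^ 2 + n ^ 2) = g.natAbs := by omega
    rw [h2] at h1
    have h3 : 0 < g.natAbs := by omega
    have h4 : g.natAbs * Int.gcd A B = g.natAbs * 1 := by omega
    exact Nat.eq_of_mul_eq_mul_left h3 h4
  have hApos : 0 < A := by
    rw [hAe] at hA
    exact pos_of_mul_pos_right hA hgpos.le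
  have hBpos : 0 < B := by
    rw [hBe] at hB
    exact pos_of_mul_pos_right hB hgpos.le
  have hgt : g ∣ t := by
    rw [← Int.pow_dvd_pow_iff two_ne_zero]
    exact ⟨A * B, by rw [← h, hAe, hBe]; ring⟩
  obtain ⟨t', ht'⟩ := hgt
  have hAB : A * B = t' ^ 2 := by
    apply mul_left_cancel₀ (pow_ne_zero 2 hgpos.ne')
    rw [hAe, hBe, ht'] at h
    linear_combination h
  obtain ⟨a, ha⟩ := sq_of_coprime_pos hcop hApos hAB
  obtain ⟨b, hb⟩ := sq_of_coprime_pos hcop.symm hBpos (by rw [mul_comm]; exact hAB)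
  rcases pos_dvd_fifteen hg15 hgpos with h1 | h1 | h1 | h1
  · rw [h1, one_mul] at hAe hBe
    exact descent hn (hAe.trans ha) (hBe.trans hb)
  · rw [h1] at h3g; exact absurd (dvd_refl 3) h3g
  · exfalso
    rw [h1, hb] at hBe
    rcases Int.emod_two_eq_zero_or_one b with h2 | h2
    · obtain ⟨c, hc⟩ : ∃ c, b = 2 * c := ⟨b / 2, by omega⟩
      have : 16 * k ^ 2 + n ^ 2 = 2 * (10 * c ^ 2) := by rw [hBe, hc]; ring
      omega
    · have := sq_mod_eight h2
      omega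
  · rw [h1] at h3g; exact absurd (by norm_num : (3 : ℤ) ∣ 15) h3g

lemma isCoprime_two_of_odd {n : ℤ} (hn : n % 2 = 1) : IsCoprime n 2 := by
  obtain ⟨m, hm⟩ : ∃ m, n = 2 * m + 1 := ⟨n / 2, by omega⟩
  exact ⟨1, -m, by rw [hm]; ring⟩

/-- Class I, `r` odd, coprime. -/
lemma classI_odd_coprime {r s t w : ℤ} (hr : r % 2 = 1) (hc : IsCoprime r w)
    (h1 : r ^ 2 - 16 * w ^ 2 = s ^ 2) (h2 : r ^ 2 + 9 * w ^ 2 = t ^ 2) : w = 0 := by
  have r8 := sq_mod_eight hr
  have hs : s % 2 = 1 := by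
    rcases Int.emod_two_eq_zero_or_one s with h | h
    · exfalso
      obtain ⟨c, hc⟩ : ∃ c, s = 2 * c := ⟨s / 2, by omega⟩
      have : r ^ 2 = 2 * (8 * w ^ 2 + 2 * c ^ 2) := by rw [hc] at h1; linarith
      omega
    · exact h
  have hr0 : r ≠ 0 := by rintro rfl; norm_num at hr
  have hsw : IsCoprime s w := by
    have e1 : IsCoprime (r ^ 2) w := hc.pow_left
    have e2 : IsCoprime (s ^ 2 + w * (16 * w)) w := by
      have : s ^ 2 + w * (16 * w) = r ^ 2 := by linarith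
      rw [this]; exact e1
    have e3 : IsCoprime (s ^ 2) w := e2.of_add_mul_left_left
    exact (IsCoprime.pow_left_iff two_pos).mp e3
  have hcop : Int.gcd s (4 * w) = 1 := by
    rw [← Int.isCoprime_iff_gcd_eq_one]
    refine IsCoprime.mul_right ?_ hsw
    have : (4 : ℤ) = 2 * 2 := by norm_num
    rw [this]
    exact (isCoprime_two_of_odd hs).mul_right (isCoprime_two_of_odd hs)
  obtain ⟨m, n, e1, e2, e3, e4, e5, -⟩ := PythagoreanTriple.coprime_classification'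
    (x := s) (y := 4 * w) (z := |r|) (by
      have : |r| * |r| = r ^ 2 := by rw [abs_mul_abs_self, sq]
      rw [PythagoreanTriple, this]; linear_combination (-1) * h1) hcop hs (abs_pos.mpr hr0)
  rw [← Int.isCoprime_iff_gcd_eq_one] at e4
  have hr2 : r ^ 2 = (m ^ 2 + n ^ 2) ^ 2 := by rw [← e3, sq_abs]
  have hw : 2 * w = m * n := by linarith
  rcases e5 with ⟨hm, hn⟩ | ⟨hm, hn⟩
  · obtain ⟨k, hk⟩ : ∃ k, m = 2 * k := ⟨m / 2, by omega⟩
    have hwk : w = k * n := by rw [hk] at hw; linarith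
    have hkn : IsCoprime k n := by rw [hk] at e4; exact e4.of_mul_left_right
    have hk0 := quartic hkn hn (t := t) (by
      rw [← h2, hr2, hwk, hk]; ring)
    rw [hwk, hk0, zero_mul]
  · obtain ⟨k, hk⟩ : ∃ k, n = 2 * k := ⟨n / 2, by omega⟩
    have hwk : w = k * m := by rw [hk] at hw; linarith
    have hkn : IsCoprime k m := by rw [hk] at e4; exact e4.symm.of_mul_left_right
    have hk0 := quartic hkn hm (t := t) (by
      rw [← h2, hr2, hwk, hk]; ring)
    rw [hwk, hk0, zero_mul]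

/-- Class I, `r` odd. -/
lemma classI_odd {r s t w : ℤ} (hr : r % 2 = 1)
    (h1 : r ^ 2 - 16 * w ^ 2 = s ^ 2) (h2 : r ^ 2 + 9 * w ^ 2 = t ^ 2) : w = 0 := by
  have hr0 : r ≠ 0 := by rintro rfl; norm_num at hr
  set g : ℤ := (Int.gcd r w : ℤ) with hg
  have hgpos : 0 < g := by
    have : 0 < Int.gcd r w := Int.gcd_pos_of_ne_zero_left _ hr0
    omega
  obtain ⟨r', hr'⟩ : g ∣ r := Int.gcd_dvd_left ..
  obtain ⟨w', hw'⟩ : g ∣ w := Int.gcd_dvd_right ..
  have hcop : IsCoprime r' w' := by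
    rw [Int.isCoprime_iff_gcd_eq_one]
    have h1 : Int.gcd r w = g.natAbs * Int.gcd r' w' := by
      conv_lhs => rw [hr', hw', Int.gcd_mul_left]
    have h2 : Int.gcd r w = g.natAbs := by omega
    rw [h2] at h1
    have h3 : 0 < g.natAbs := by omega
    have h4 : g.natAbs * Int.gcd r' w' = g.natAbs * 1 := by omega
    exact Nat.eq_of_mul_eq_mul_left h3 h4
  have hgs : g ∣ s := by
    rw [← Int.pow_dvd_pow_iff two_ne_zero]
    exact ⟨r' ^ 2 - 16 * w' ^ 2, by rw [← h1, hr', hw']; ring⟩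
  have hgt : g ∣ t := by
    rw [← Int.pow_dvd_pow_iff two_ne_zero]
    exact ⟨r' ^ 2 + 9 * w' ^ 2, by rw [← h2, hr', hw']; ring⟩
  obtain ⟨s', hs'⟩ := hgs
  obtain ⟨t', ht'⟩ := hgt
  have hg0 : g ^ 2 ≠ 0 := by positivity
  have hr'odd : r' % 2 = 1 := by
    rcases Int.emod_two_eq_zero_or_one r' with h | h
    · exfalso
      rw [hr', Int.mul_emod, h] at hr
      simp at hr
    · exact h
  have := classI_odd_coprime hr'odd hcop (s := s') (t := t')
    (by
      apply mul_left_cancel₀ hg0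
      rw [hr', hw', hs'] at h1
      linear_combination h1)
    (by
      apply mul_left_cancel₀ hg0
      rw [hr', hw', ht'] at h2
      linear_combination h2)
  rw [hw', this, mul_zero]

/-- Class I. -/
lemma classI {r s t w : ℤ} 
    (h1 : r ^ 2 - 16 * w ^ 2 = s ^ 2) (h2 : r ^ 2 + 9 * w ^ 2 = t ^ 2) : w = 0 ∨ s = 0 := by
  by_cases hw0 : w = 0
  · exact Or.inl hw0
  set g : ℤ := (Int.gcd r w : ℤ) with hg
  have hgpos : 0 < g := by
    have : 0 < Int.gcd r w := Int.gcd_pos_of_ne_zero_right _ hw0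
    omega
  obtain ⟨r', hr'⟩ : g ∣ r := Int.gcd_dvd_left ..
  obtain ⟨w', hw'⟩ : g ∣ w := Int.gcd_dvd_right ..
  have hcop : IsCoprime r' w' := by
    rw [Int.isCoprime_iff_gcd_eq_one]
    have h1 : Int.gcd r w = g.natAbs * Int.gcd r' w' := by
      conv_lhs => rw [hr', hw', Int.gcd_mul_left]
    have h2 : Int.gcd r w = g.natAbs := by omega
    rw [h2] at h1
    have h3 : 0 < g.natAbs := by omega
    have h4 : g.natAbs * Int.gcd r' w' = g.natAbs * 1 := by omega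
    exact Nat.eq_of_mul_eq_mul_left h3 h4
  have hgs : g ∣ s := by
    rw [← Int.pow_dvd_pow_iff two_ne_zero]
    exact ⟨r' ^ 2 - 16 * w' ^ 2, by rw [← h1, hr', hw']; ring⟩
  have hgt : g ∣ t := by
    rw [← Int.pow_dvd_pow_iff two_ne_zero]
    exact ⟨r' ^ 2 + 9 * w' ^ 2, by rw [← h2, hr', hw']; ring⟩
  obtain ⟨s', hs'⟩ := hgs
  obtain ⟨t', ht'⟩ := hgt
  have hg0 : g ^ 2 ≠ 0 := by positivity
  have k1 : r' ^ 2 - 16 * w' ^ 2 = s' ^ 2 := by
    apply mul_left_cancel₀ hg0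
    rw [hr', hw', hs'] at h1
    linear_combination h1
  have k2 : r' ^ 2 + 9 * w' ^ 2 = t' ^ 2 := by
    apply mul_left_cancel₀ hg0
    rw [hr', hw', ht'] at h2
    linear_combination h2
  rcases Int.emod_two_eq_zero_or_one r' with hre | hro
  swap
  · left
    rw [hw', classI_odd hro k1 k2, mul_zero]
  right
  have hwo : w' % 2 = 1 := by
    rcases Int.emod_two_eq_zero_or_one w' with h | h
    · exfalso
      exact Int.prime_two.not_isUnit (hcop.isUnit_of_dvd' (Int.dvd_of_emod_eq_zero hre)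
        (Int.dvd_of_emod_eq_zero h))
    · exact h
  have w8 := sq_mod_eight hwo
  obtain ⟨r1, hr1⟩ : ∃ c, r' = 2 * c := ⟨r' / 2, by omega⟩
  have hse : s' % 2 = 0 := by
    rcases Int.emod_two_eq_zero_or_one s' with h | h
    · exact h
    · have := sq_mod_eight h
      have e : s' ^ 2 = 2 * (2 * r1 ^ 2 - 8 * w' ^ 2) := by rw [← k1, hr1]; ring
      omega
  obtain ⟨s1, hs1⟩ : ∃ c, s' = 2 * c := ⟨s' / 2, by omega⟩
  have k3 : r1 ^ 2 - s1 ^ 2 = 4 * w' ^ 2 := by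
    rw [hr1, hs1] at k1
    linarith
  have hboth : r1 % 2 = 0 ∧ s1 % 2 = 0 := by
    rcases Int.emod_two_eq_zero_or_one r1 with h | h <;>
      rcases Int.emod_two_eq_zero_or_one s1 with h' | h'
    · exact ⟨h, h'⟩
    · exfalso
      have := sq_mod_eight h'
      obtain ⟨c, hc⟩ : ∃ c, r1 = 2 * c := ⟨r1 / 2, by omega⟩
      have e : s1 ^ 2 = 2 * (2 * c ^ 2 - 2 * w' ^ 2) := by rw [hc] at k3; linarith
      omega
    · exfalso
      have := sq_mod_eight h
      obtain ⟨c, hc⟩ : ∃ c, s1 = 2 * c := ⟨s1 / 2, by omega⟩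
      have e : r1 ^ 2 = 2 * (2 * c ^ 2 + 2 * w' ^ 2) := by rw [hc] at k3; linarith
      omega
    · exfalso
      have := sq_mod_eight h
      have := sq_mod_eight h'
      omega
  obtain ⟨R, hR⟩ : ∃ c, r1 = 2 * c := ⟨r1 / 2, by omega⟩
  obtain ⟨S, hS⟩ : ∃ c, s1 = 2 * c := ⟨s1 / 2, by omega⟩
  have k4 : R ^ 2 - S ^ 2 = w' ^ 2 := by
    rw [hR, hS] at k3
    linarith
  have k5 : t' ^ 2 = 16 * R ^ 2 + 9 * w' ^ 2 := by
    rw [← k2, hr1, hR]; ring
  have hto : t' % 2 = 1 := by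
    rcases Int.emod_two_eq_zero_or_one t' with h | h
    · exfalso
      obtain ⟨c, hc⟩ : ∃ c, t' = 2 * c := ⟨t' / 2, by omega⟩
      have e : 9 * w' ^ 2 = 2 * (2 * c ^ 2 - 8 * R ^ 2) := by rw [hc] at k5; linarith
      omega
    · exact h
  have hS0 := classI_odd (r := t') (w := S) (s := 5 * w') (t := 5 * R) hto
    (by rw [k5]; linear_combination 16 * k4) (by rw [k5]; linear_combination (-9) * k4)
  rw [hs', hs1, hS, hS0]
  ring

/-- Class III. -/
lemma classIII {r s t w : ℤ} (h1 : r ^ 2 - 16 * w ^ 2 = 5 * s ^ 2)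
    (h2 : r ^ 2 + 9 * w ^ 2 = 5 * t ^ 2) : r ^ 2 = 36 * w ^ 2 := by
  rcases classI (r := 30 * (s * t - r * w)) (s := 10 * (r * t - 9 * s * w))
    (t := 15 * (r * s - 4 * t * w)) (w := 36 * w ^ 2 - r ^ 2)
    (by linear_combination (-36 * (r ^ 2 + 9 * w ^ 2) + 1620 * w ^ 2) * h1 +
        (-180 * s ^ 2 + 20 * r ^ 2) * h2)
    (by linear_combination (-36 * (r ^ 2 + 9 * w ^ 2) + 45 * r ^ 2) * h1 +
        (-180 * s ^ 2 + 720 * w ^ 2) * h2) with h | h
  · linarith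
  · have h3 : r * t = 9 * s * w := by linarith
    have h4 : (r ^ 2 - 36 * w ^ 2) ^ 2 = 0 := by
      have h5 : r ^ 2 * (5 * t ^ 2) = 81 * w ^ 2 * (5 * s ^ 2) := by
        linear_combination 5 * (r * t + 9 * s * w) * h3
      rw [← h1, ← h2] at h5
      linear_combination h5
    have h6 : r ^ 2 - 36 * w ^ 2 = 0 := by
      exact pow_eq_zero_iff two_ne_zero |>.mp h4
    linarith

/-- Common squarefree part. -/
lemma common_part {A B y : ℤ} (hA : 0 < A) (h : A * B = y ^ 2) :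
    ∃ d s t : ℤ, 0 < d ∧ Squarefree d ∧ A = d * s ^ 2 ∧ B = d * t ^ 2 := by
  obtain ⟨d, s, hds, hsq⟩ := Nat.sq_mul_squarefree A.toNat
  have hA' : A = (d : ℤ) * (s : ℤ) ^ 2 := by
    have h1 : (A.toNat : ℤ) = A := Int.toNat_of_nonneg hA.le
    rw [← h1, ← hds]; push_cast; ring
  have hs0 : (s : ℤ) ≠ 0 := by
    rintro h0; rw [hA', h0] at hA; norm_num at hA
  have hd0 : 0 < (d : ℤ) := by
    rcases Nat.eq_zero_or_pos d with h0 | h0
    · rw [hA', h0] at hA; norm_num at hA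
    · exact_mod_cast h0
  have hsqd : Squarefree (d : ℤ) := Int.squarefree_natCast.mpr hsq
  have hsy : (s : ℤ) ∣ y := by
    rw [← Int.pow_dvd_pow_iff two_ne_zero]
    exact ⟨d * B, by rw [← h, hA']; ring⟩
  obtain ⟨y', hy'⟩ := hsy
  have h1 : (d : ℤ) * B = y' ^ 2 := by
    apply mul_left_cancel₀ (pow_ne_zero 2 hs0)
    rw [hA', hy'] at h
    linear_combination h
  have hdy : (d : ℤ) ∣ y' := by
    have : (d : ℤ) ∣ y' ^ 2 := ⟨B, h1.symm⟩
    exact (hsqd.dvd_pow_iff_dvd two_ne_zero).mp this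
  obtain ⟨t, ht⟩ := hdy
  refine ⟨d, s, t, hd0, hsqd, hA', ?_⟩
  apply mul_left_cancel₀ hd0.ne'
  rw [h1, ht]; ring

lemma sq_mod_cases (n : ℤ) : n ^ 2 % 8 = 0 ∨ n ^ 2 % 8 = 1 ∨ n ^ 2 % 8 = 4 := by
  have h : n % 8 = 0 ∨ n % 8 = 1 ∨ n % 8 = 2 ∨ n % 8 = 3 ∨ n % 8 = 4 ∨ n % 8 = 5 ∨ n % 8 = 6 ∨
    n % 8 = 7 := by omega
  rcases h with h | h | h | h | h | h | h | h <;> simp [pow_two, Int.mul_emod, h]

/-- the prime 2 -/
lemma no_two {c r w z : ℤ} (hc : c = 1 ∨ c = 3) (hw : w % 2 = 1)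
    (h : 2 * c * ((2 * c * r ^ 2 - 16 * w ^ 2) * (2 * c * r ^ 2 + 9 * w ^ 2)) = z ^ 2) : False := by
  have w8 := sq_mod_eight hw
  have hz : z % 2 = 0 := by
    rcases Int.emod_two_eq_zero_or_one z with h' | h'
    · exact h'
    · have := sq_mod_eight h'
      have e : z ^ 2 = 2 * (c * ((2 * c * r ^ 2 - 16 * w ^ 2) * (2 * c * r ^ 2 + 9 * w ^ 2))) := by
        rw [← h]; ring
      omega
  obtain ⟨z1, hz1⟩ : ∃ k, z = 2 * k := ⟨z / 2, by omega⟩
  have h1 : c * (c * r ^ 2 - 8 * w ^ 2) * (2 * c * r ^ 2 + 9 * w ^ 2) = z1 ^ 2 := by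
    rw [hz1] at h
    linarith
  have hz1' := sq_mod_cases z1
  rcases Int.emod_two_eq_zero_or_one r with hr | hr
  swap
  · have r8 := sq_mod_eight hr
    have e : (c * (c * r ^ 2 - 8 * w ^ 2) * (2 * c * r ^ 2 + 9 * w ^ 2)) % 8 =
        (c * (c * 1 - 8 * 1) * (2 * c * 1 + 9 * 1)) % 8 := by
      have a1 : r ^ 2 ≡ 1 [ZMOD 8] := by rw [Int.ModEq, r8]; rfl
      have a2 : w ^ 2 ≡ 1 [ZMOD 8] := by rw [Int.ModEq, w8]; rfl
      have : c * (c * r ^ 2 - 8 * w ^ 2) * (2 * c * r ^ 2 + 9 * w ^ 2) ≡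
          c * (c * 1 - 8 * 1) * (2 * c * 1 + 9 * 1) [ZMOD 8] := by gcongr
      exact this
    rw [h1] at e
    rcases hc with rfl | rfl <;> norm_num at e <;> omega
  obtain ⟨r1, hr1⟩ : ∃ k, r = 2 * k := ⟨r / 2, by omega⟩
  have hz1e : z1 % 2 = 0 := by
    rcases Int.emod_two_eq_zero_or_one z1 with h' | h'
    · exact h'
    · have := sq_mod_eight h'
      have e : z1 ^ 2 = 2 * (2 * (c * (c * r1 ^ 2 - 2 * w ^ 2) *
        (8 * c * r1 ^ 2 + 9 * w ^ 2))) := by
        rw [← h1, hr1]; ring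
      omega
  obtain ⟨z2, hz2⟩ : ∃ k, z1 = 2 * k := ⟨z1 / 2, by omega⟩
  have h2 : c * (c * r1 ^ 2 - 2 * w ^ 2) * (8 * c * r1 ^ 2 + 9 * w ^ 2) = z2 ^ 2 := by
    rw [hz2, hr1] at h1
    linarith
  have hz2' := sq_mod_cases z2
  rcases Int.emod_two_eq_zero_or_one r1 with hr' | hr'
  swap
  · have r8 := sq_mod_eight hr'
    have e : (c * (c * r1 ^ 2 - 2 * w ^ 2) * (8 * c * r1 ^ 2 + 9 * w ^ 2)) % 8 =
        (c * (c * 1 - 2 * 1) * (8 * c * 1 + 9 * 1)) % 8 := by
      have a1 : r1 ^ 2 ≡ 1 [ZMOD 8] := by rw [Int.ModEq, r8]; rfl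
      have a2 : w ^ 2 ≡ 1 [ZMOD 8] := by rw [Int.ModEq, w8]; rfl
      have : c * (c * r1 ^ 2 - 2 * w ^ 2) * (8 * c * r1 ^ 2 + 9 * w ^ 2) ≡
          c * (c * 1 - 2 * 1) * (8 * c * 1 + 9 * 1) [ZMOD 8] := by gcongr
      exact this
    rw [h2] at e
    rcases hc with rfl | rfl <;> norm_num at e <;> omega
  obtain ⟨r2, hr2⟩ : ∃ k, r1 = 2 * k := ⟨r1 / 2, by omega⟩
  have h3 : 2 * (c * (2 * c * r2 ^ 2 - w ^ 2) * (32 * c * r2 ^ 2 + 9 * w ^ 2)) = z2 ^ 2 := by
    rw [← h2, hr2]; ring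
  have hodd : (c * (2 * c * r2 ^ 2 - w ^ 2) * (32 * c * r2 ^ 2 + 9 * w ^ 2)) % 2 = 1 := by
    have a2 : w ^ 2 ≡ 1 [ZMOD 2] := by rw [Int.ModEq]; omega
    have : c * (2 * c * r2 ^ 2 - w ^ 2) * (32 * c * r2 ^ 2 + 9 * w ^ 2) ≡
        c * (0 * c * r2 ^ 2 - 1) * (0 * c * r2 ^ 2 + 9 * 1) [ZMOD 2] := by
      have b1 : (2 : ℤ) ≡ 0 [ZMOD 2] := rfl
      have b2 : (32 : ℤ) ≡ 0 [ZMOD 2] := rfl
      gcongr
    rw [this]
    rcases hc with rfl | rfl <;> norm_num
  omega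

/-- the prime 3 -/
lemma no_three {r w z : ℤ} (hw : ¬ (3 : ℤ) ∣ w)
    (h : 3 * ((3 * r ^ 2 - 16 * w ^ 2) * (3 * r ^ 2 + 9 * w ^ 2)) = z ^ 2) : False := by
  have h3z : (3 : ℤ) ∣ z := by
    have : (3 : ℤ) ∣ z ^ 2 := ⟨_, h.symm⟩
    exact Int.prime_three.dvd_of_dvd_pow this
  obtain ⟨z1, hz1⟩ := h3z
  have h1 : (3 * r ^ 2 - 16 * w ^ 2) * (r ^ 2 + 3 * w ^ 2) = z1 ^ 2 := by
    rw [hz1] at h
    linarith
  by_cases hr : (3 : ℤ) ∣ r
  · obtain ⟨r1, hr1⟩ := hr
    have h3z1 : (3 : ℤ) ∣ z1 := by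
      have : (3 : ℤ) ∣ z1 ^ 2 :=
        ⟨(27 * r1 ^ 2 - 16 * w ^ 2) * (3 * r1 ^ 2 + w ^ 2), by rw [← h1, hr1]; ring⟩
      exact Int.prime_three.dvd_of_dvd_pow this
    obtain ⟨z2, hz2⟩ := h3z1
    have h2 : (27 * r1 ^ 2 - 16 * w ^ 2) * (3 * r1 ^ 2 + w ^ 2) = 3 * z2 ^ 2 := by
      rw [hz2, hr1] at h1
      linarith
    have h3 : (3 : ℤ) ∣ w ^ 4 := by
      refine ⟨-(z2 ^ 2) + 27 * r1 ^ 4 - 7 * r1 ^ 2 * w ^ 2 - 5 * w ^ 4, ?_⟩
      linear_combination (-1) * h2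
    exact hw (Int.prime_three.dvd_of_dvd_pow h3)
  · have hr' : r % 3 = 1 ∨ r % 3 = 2 := by omega
    have hw' : w % 3 = 1 ∨ w % 3 = 2 := by omega
    have hz' : z1 % 3 = 0 ∨ z1 % 3 = 1 ∨ z1 % 3 = 2 := by omega
    have h4 := congrArg (· % 3) h1
    rcases hr' with h5 | h5 <;> rcases hw' with h6 | h6 <;> rcases hz' with h7 | h7 | h7 <;>
      simp [pow_two, Int.mul_emod, Int.sub_emod, Int.add_emod, h5, h6, h7] at h4

/-- positive integral version -/
lemma pos_case_int {a w y : ℤ} (ha : 0 < a) (hw : w ≠ 0) (hc : IsCoprime a w)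
    (h : a * ((a - 16 * w ^ 2) * (a + 9 * w ^ 2)) = y ^ 2) : a = 16 * w ^ 2 ∨ a = 36 * w ^ 2 := by
  obtain ⟨d, r, t, hd, hsq, hA, hB⟩ := common_part ha h
  have hd144 : d ∣ 144 * w ^ 4 := by
    have h1 : d ∣ (a - 16 * w ^ 2) * (a + 9 * w ^ 2) := ⟨_, hB⟩
    have h2 : d ∣ a := ⟨_, hA⟩
    have h3 : 144 * w ^ 4 = a * (a - 7 * w ^ 2) - (a - 16 * w ^ 2) * (a + 9 * w ^ 2) := by ring
    rw [h3]
    exact dvd_sub (h2.mul_right _) h1
  have hdw : IsCoprime d w := hc.of_isCoprime_of_dvd_left ⟨_, hA⟩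
  have hd12 : d ∣ 12 := by
    have h1 : d ∣ 144 := (hdw.pow_right (n := 4)).dvd_of_dvd_mul_right hd144
    have h2 : d ∣ 12 ^ 2 := by norm_num; exact h1
    exact (hsq.dvd_pow_iff_dvd two_ne_zero).mp h2
  have hd4 : ¬ (4 : ℤ) ∣ d := by
    intro h4
    have h5 : (2 : ℤ) * 2 ∣ d := by norm_num; exact h4
    have := hsq 2 h5
    rw [Int.isUnit_iff] at this
    omega
  have hdle : d ≤ 12 := Int.le_of_dvd (by norm_num) hd12
  have hd' : d = 1 ∨ d = 2 ∨ d = 3 ∨ d = 6 := by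
    interval_cases d <;> omega
  have heven : ∀ c : ℤ, d = 2 * c → w % 2 = 1 := by
    intro c hc'
    rcases Int.emod_two_eq_zero_or_one w with h' | h'
    · exfalso
      have h1 : (2 : ℤ) ∣ d := ⟨c, hc'⟩
      have h2 : (2 : ℤ) ∣ w := Int.dvd_of_emod_eq_zero h'
      have := hdw.isUnit_of_dvd' h1 h2
      rw [Int.isUnit_iff] at this
      omega
    · exact h'
  rcases hd' with rfl | rfl | rfl | rfl
  · rw [one_mul] at hA hB
    rw [hA] at hB ⊢
    by_cases h0 : r ^ 2 - 16 * w ^ 2 = 0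
    · left; linarith
    right
    have hw2 : 0 < w ^ 2 := by positivity
    have hpos : 0 < r ^ 2 + 9 * w ^ 2 := by positivity
    have hpos2 : 0 < r ^ 2 - 16 * w ^ 2 := by
      rcases lt_or_gt_of_ne h0 with h1 | h1
      · exfalso
        have : (r ^ 2 - 16 * w ^ 2) * (r ^ 2 + 9 * w ^ 2) < 0 := mul_neg_of_neg_of_pos h1 hpos
        nlinarith [sq_nonneg t]
      · exact h1
    obtain ⟨d', s, t', hd', hsq', hA', hB'⟩ := common_part hpos2 hB
    have hrw : IsCoprime (r ^ 2) w := by rw [← hA]; exact hc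
    have h25 : d' ∣ 25 := by
      have h1 : d' ∣ 25 * w ^ 2 := by
        refine ⟨t' ^ 2 - s ^ 2, ?_⟩
        linear_combination hB' - hA'
      have h2 : d' ∣ 25 * r ^ 2 := by
        refine ⟨9 * s ^ 2 + 16 * t' ^ 2, ?_⟩
        linear_combination 9 * hA' + 16 * hB'
      obtain ⟨u, v, huv⟩ := hrw.pow_right (n := 2)
      have : (25 : ℤ) = u * (25 * r ^ 2) + v * (25 * w ^ 2) := by linear_combination -25 * huv
      rw [this]
      exact dvd_add (h2.mul_left _) (h1.mul_left _)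
    have h5 : d' ∣ 5 := by
      have h2 : d' ∣ 5 ^ 2 := by norm_num; exact h25
      exact (hsq'.dvd_pow_iff_dvd two_ne_zero).mp h2
    have hdle' : d' ≤ 5 := Int.le_of_dvd (by norm_num) h5
    have hd'' : d' = 1 ∨ d' = 5 := by
      interval_cases d' <;> omega
    rcases hd'' with rfl | rfl
    · exfalso
      rcases classI (r := r) (s := s) (t := t') (w := w) (by linarith) (by linarith) with h6 | h6
      · exact hw h6
      · rw [h6] at hA'; norm_num at hA'; exact h0 hA'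
    · exact classIII hA' hB'
  · exfalso
    refine no_two (c := 1) (r := r) (w := w) (z := 2 * t) (Or.inl rfl) (heven 1 (by norm_num)) ?_
    rw [hA] at hB
    linear_combination 2 * hB
  · exfalso
    refine no_three (r := r) (w := w) (z := 3 * t) ?_ ?_
    · intro h3
      have := hdw.isUnit_of_dvd' dvd_rfl h3
      rw [Int.isUnit_iff] at this
      omega
    · rw [hA] at hB
      linear_combination 3 * hB
  · exfalso
    refine no_two (c := 3) (r := r) (w := w) (z := 6 * t) (Or.inr rfl) (heven 3 (by norm_num)) ?_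
    rw [hA] at hB
    linear_combination 6 * hB

lemma pos_case {Y Z : ℚ} (hZ : 0 < Z) (h : Y ^ 2 = Z * (Z - 16) * (Z + 9)) :
    Z = 16 ∨ Z = 36 := by
  set a : ℤ := Z.num with ha
  set e : ℤ := (Z.den : ℤ) with he
  have hapos : 0 < a := Rat.num_pos.mpr hZ
  have hepos : 0 < e := by rw [he]; exact_mod_cast Z.den_pos
  have heQ : (e : ℚ) ≠ 0 := by exact_mod_cast hepos.ne'
  have hZae : Z = (a : ℚ) / (e : ℚ) := by
    rw [ha, he]; exact_mod_cast (Rat.num_div_den Z).symm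
  have hcop : IsCoprime a e := by
    rw [Int.isCoprime_iff_gcd_eq_one, ha, he, Int.gcd_eq_natAbs, Int.natAbs_natCast]
    exact Z.reduced
  have hsq : IsSquare (((e * (a * (a - 16 * e) * (a + 9 * e)) : ℤ)) : ℚ) := by
    refine ⟨Y * e ^ 2, ?_⟩
    push_cast
    have : Y * e ^ 2 * (Y * e ^ 2) = Y ^ 2 * e ^ 4 := by ring
    rw [this, h, hZae]
    field_simp
  rw [Rat.isSquare_intCast_iff] at hsq
  obtain ⟨y, hy⟩ := hsq
  rw [← pow_two] at hy
  have hcop2 : IsCoprime e (a * (a - 16 * e) * (a + 9 * e)) := by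
    refine IsCoprime.mul_right (IsCoprime.mul_right hcop.symm ?_) ?_
    · have : IsCoprime e (a + e * (-16)) := hcop.symm.add_mul_left_right _
      convert this using 1
      ring
    · have : IsCoprime e (a + e * 9) := hcop.symm.add_mul_left_right _
      convert this using 1
      ring
  obtain ⟨w, hw⟩ := sq_of_coprime_pos hcop2 hepos hy
  have hw0 : w ≠ 0 := by rintro rfl; rw [hw] at hepos; norm_num at hepos
  have hwy : w ∣ y := by
    have : w ^ 2 ∣ y ^ 2 := by rw [← hy, hw]; exact Dvd.intro _ rfl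
    exact (Int.pow_dvd_pow_iff two_ne_zero).mp this
  obtain ⟨y', rfl⟩ := hwy
  have hcw : IsCoprime a w := by
    rw [hw] at hcop
    exact (IsCoprime.pow_right_iff (by norm_num)).mp hcop
  have h2 : a * ((a - 16 * w ^ 2) * (a + 9 * w ^ 2)) = y' ^ 2 := by
    have hw2 : w ^ 2 ≠ 0 := pow_ne_zero 2 hw0
    apply mul_left_cancel₀ hw2
    rw [hw] at hy
    linear_combination hy
  rcases pos_case_int hapos hw0 hcw h2 with h3 | h3
  · left
    rw [hZae, h3, hw]
    have : (w : ℚ) ≠ 0 := by exact_mod_cast hw0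
    push_cast
    field_simp
  · right
    rw [hZae, h3, hw]
    have : (w : ℚ) ≠ 0 := by exact_mod_cast hw0
    push_cast
    field_simp

/-- the rational points of `X₀(15)` -/
theorem points {Y Z : ℚ} (h : Y ^ 2 = Z * (Z - 16) * (Z + 9)) :
    Z = 0 ∨ Z = 16 ∨ Z = -9 ∨ Z = 36 ∨ Z = -4 := by
  rcases lt_trichotomy Z 0 with hZ | hZ | hZ
  · have hZ0 : Z ≠ 0 := hZ.ne
    have h' : (144 * Y / Z ^ 2) ^ 2 = (-144 / Z) * (-144 / Z - 16) * (-144 / Z + 9) := by
      rw [div_pow, mul_pow, h]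
      field_simp
      ring
    have hpos : 0 < -144 / Z := div_pos_of_neg_of_neg (by norm_num) hZ
    rcases pos_case hpos h' with h1 | h1
    · right; right; left
      rw [div_eq_iff hZ0] at h1
      linarith
    · right; right; right; right
      rw [div_eq_iff hZ0] at h1
      linarith
  · left; exact hZ
  · rcases pos_case hZ h with h1 | h1
    · right; left; exact h1
    · right; right; right; left; exact h1

end Fermat.Agent.EC.X15
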