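import Fermat.Agent.EC.X15

/-!
# Algebra: an elliptic curve with a 3-isogeny and a 5-isogeny
-/

set_option autoImplicit false

namespace Fermat.Agent.EC.X15

section

variable {K : Type*} [Field K]

/-- `λ` as a function of `(μ, b)` -/
def lam (m b : K) : K := (m - 1) / (m + 1) * (3 + 2 * (m + 1) * b / m ^ 2)

variable {m b : K}

lemma lam_symm (hm : m ≠ 0) (hm1 : m + 1 ≠ 0) (hb : b ≠ 0)
    (hR : (m + 1) * (b ^ 2 - m ^ 3) + 3 * b * m ^ 2 = 0) :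
    lam (1 / m) (-1 / b) = lam m b := by
  have h1 : 1 + m ≠ 0 := by rw [add_comm]; exact hm1
  unfold lam
  field_simp
  linear_combination (-2 * (m + 1) * (m - 1)) * hR

lemma lam_rel (hm : m ≠ 0) (hm1 : m + 1 ≠ 0)
    (hR : (m + 1) * (b ^ 2 - m ^ 3) + 3 * b * m ^ 2 = 0) :
    lam m b ^ 2 * ((m + 1 / m) + 2) = (4 * (m + 1 / m) + 17) * ((m + 1 / m) - 2) := by
  unfold lam
  field_simp
  linear_combination (4 * (m - 1) ^ 2 * (m + 1) ^ 3) * hR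

lemma lam_c (hm : m ≠ 0) (hm1 : m + 1 ≠ 0) (hb : b ≠ 0)
    (hR : (m + 1) * (b ^ 2 - m ^ 3) + 3 * b * m ^ 2 = 0) :
    2 * (b - 1 / b) = lam m b * ((m + 1 / m) + 1) - 3 * ((m + 1 / m) - 1) := by
  unfold lam
  field_simp
  linear_combination (2) * hR

end

section

variable {K : Type*} [Field K] {b₂ b₄ b₆ b₈ x₀ x₁ x₂ : K}

/-- `ΨSq 2` -/
def ff (b₂ b₄ b₆ x : K) : K := 4 * x ^ 3 + b₂ * x ^ 2 + 2 * b₄ * x + b₆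

/-- `b` -/
def bb (b₂ b₄ b₆ x₁ x₂ : K) : K := (x₂ - x₁) ^ 3 / ff b₂ b₄ b₆ x₁

/-- the data of a 3-torsion and a 5-torsion point -/
structure Data (b₂ b₄ b₆ b₈ x₀ x₁ x₂ : K) : Prop where
  hb : 4 * b₈ = b₂ * b₆ - b₄ ^ 2
  h0 : 3 * x₀ ^ 4 + b₂ * x₀ ^ 3 + 3 * b₄ * x₀ ^ 2 + 3 * b₆ * x₀ + b₈ = 0
  h1 : x₂ * ff b₂ b₄ b₆ x₁ = x₁ ^ 4 - b₄ * x₁ ^ 2 - 2 * b₆ * x₁ - b₈
  h2 : x₁ * ff b₂ b₄ b₆ x₂ = x₂ ^ 4 - b₄ * x₂ ^ 2 - 2 * b₆ * x₂ - b₈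
  hd : x₁ ≠ x₂
  hf1 : ff b₂ b₄ b₆ x₁ ≠ 0
  hf2 : ff b₂ b₄ b₆ x₂ ≠ 0

namespace Data

lemma swap (D : Data b₂ b₄ b₆ b₈ x₀ x₁ x₂) : Data b₂ b₄ b₆ b₈ x₀ x₂ x₁ :=
  ⟨D.hb, D.h0, D.h2, D.h1, D.hd.symm, D.hf2, D.hf1⟩

lemma x₀_ne_x₁ (D : Data b₂ b₄ b₆ b₈ x₀ x₁ x₂) : x₀ ≠ x₁ := by
  rintro rfl
  have h : (x₂ - x₀) * ff b₂ b₄ b₆ x₀ = 0 := by
    have h1 := D.h1
    have h0 := D.h0
    rw [ff] at *
    linear_combination h1 - h0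
  rcases mul_eq_zero.mp h with h | h
  · exact D.hd (sub_eq_zero.mp h).symm
  · exact D.hf1 h

lemma x₀_ne_x₂ (D : Data b₂ b₄ b₆ b₈ x₀ x₁ x₂) : x₀ ≠ x₂ := D.swap.x₀_ne_x₁

/-- parametrisation -/
lemma param (D : Data b₂ b₄ b₆ b₈ x₀ x₁ x₂) : ∃ b u : K, b ≠ 0 ∧ u ≠ 0 ∧
    x₂ = x₁ + u * b ∧ ff b₂ b₄ b₆ x₁ = u ^ 3 * b ^ 2 ∧ ff b₂ b₄ b₆ x₂ = u ^ 3 * b ^ 4 ∧
    b₂ = u * (b ^ 2 - 6 * b + 1) - 12 * x₁ ∧
    b₄ = u ^ 2 * (b ^ 2 - b) - x₁ * b₂ - 6 * x₁ ^ 2 ∧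
    b₆ = u ^ 3 * b ^ 2 - 4 * x₁ ^ 3 - b₂ * x₁ ^ 2 - 2 * b₄ * x₁ ∧
    b₈ = - u ^ 4 * b ^ 3 - 3 * x₁ ^ 4 - b₂ * x₁ ^ 3 - 3 * b₄ * x₁ ^ 2 - 3 * b₆ * x₁ := by
  obtain ⟨hb, -, h1, h2, hd, hf1, hf2⟩ := D
  obtain ⟨d, rfl⟩ : ∃ d, x₂ = x₁ + d := ⟨x₂ - x₁, by ring⟩
  have hd0 : d ≠ 0 := by
    rintro rfl
    exact hd (add_zero _).symm
  obtain ⟨B, hB⟩ : ∃ B, B = ff b₂ b₄ b₆ x₁ := ⟨_, rfl⟩
  rw [← hB] at h1 hf1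
  -- first relation
  have hB8 : 3 * x₁ ^ 4 + b₂ * x₁ ^ 3 + 3 * b₄ * x₁ ^ 2 + 3 * b₆ * x₁ + b₈ = - d * B := by
    rw [ff] at hB
    linear_combination h1 - x₁ * hB
  -- second relation
  have hB4 : d ^ 2 - B / d = b₄ + x₁ * b₂ + 6 * x₁ ^ 2 := by
    have : d * (d ^ 3 - (b₄ + x₁ * b₂ + 6 * x₁ ^ 2) * d - B) = 0 := by
      rw [ff] at h2 hB
      linear_combination -h2 + hB8 - 2 * d * hB
    rcases mul_eq_zero.mp this with h | h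
    · exact absurd h hd0
    · field_simp
      linear_combination h
  have hB2 : (b₂ + 12 * x₁) * B = - 4 * d * B + (d ^ 2 - B / d) ^ 2 := by
    rw [hB4]
    rw [ff] at hB
    linear_combination (b₂ + 12 * x₁) * hB - hb + 4 * hB8
  have e2 : b₂ = B / d ^ 2 * ((d ^ 3 / B) ^ 2 - 6 * (d ^ 3 / B) + 1) - 12 * x₁ := by
    have : b₂ + 12 * x₁ = (- 4 * d * B + (d ^ 2 - B / d) ^ 2) / B := by
      rw [eq_div_iff hf1]; exact hB2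
    have h' : b₂ = (- 4 * d * B + (d ^ 2 - B / d) ^ 2) / B - 12 * x₁ := by
      rw [← this]; ring
    rw [h']
    field_simp
    ring
  have e4 : b₄ = (B / d ^ 2) ^ 2 * ((d ^ 3 / B) ^ 2 - d ^ 3 / B) - x₁ * b₂ - 6 * x₁ ^ 2 := by
    have h' : b₄ = d ^ 2 - B / d - x₁ * b₂ - 6 * x₁ ^ 2 := by rw [hB4]; ring
    have h'' : (B / d ^ 2) ^ 2 * ((d ^ 3 / B) ^ 2 - d ^ 3 / B) = d ^ 2 - B / d := by
      field_simp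
    rw [h'']
    exact h'
  have e6 : b₆ = (B / d ^ 2) ^ 3 * (d ^ 3 / B) ^ 2 - 4 * x₁ ^ 3 - b₂ * x₁ ^ 2 - 2 * b₄ * x₁ := by
    have h'' : (B / d ^ 2) ^ 3 * (d ^ 3 / B) ^ 2 = B := by
      field_simp
    rw [h'', hB, ff]
    ring
  have e8 : b₈ = - (B / d ^ 2) ^ 4 * (d ^ 3 / B) ^ 3 - 3 * x₁ ^ 4 - b₂ * x₁ ^ 3 -
      3 * b₄ * x₁ ^ 2 - 3 * b₆ * x₁ := by
    have h'' : (B / d ^ 2) ^ 4 * (d ^ 3 / B) ^ 3 = d * B := by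
      field_simp
    rw [neg_mul, h'']
    linear_combination hB8
  have hf1' : ff b₂ b₄ b₆ x₁ = (B / d ^ 2) ^ 3 * (d ^ 3 / B) ^ 2 := by
    rw [← hB]
    field_simp
  refine ⟨d ^ 3 / B, B / d ^ 2, ?_, ?_, ?_, hf1', ?_, e2, e4, e6, e8⟩
  · exact div_ne_zero (pow_ne_zero 3 hd0) hf1
  · exact div_ne_zero hf1 (pow_ne_zero 2 hd0)
  · field_simp
  · have hdu : d = B / d ^ 2 * (d ^ 3 / B) := by field_simp
    generalize d ^ 3 / B = b at *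
    generalize B / d ^ 2 = u at *
    subst hdu
    rw [ff]
    linear_combination e6 + 2 * (u * b) * e4 + (u * b) ^ 2 * e2

/-- `μ` -/
def _root_.Fermat.Agent.EC.X15.mm (x₀ x₁ x₂ : K) : K := -(x₀ - x₂) / (x₀ - x₁)

lemma bb_swap (D : Data b₂ b₄ b₆ b₈ x₀ x₁ x₂) : bb b₂ b₄ b₆ x₂ x₁ = -1 / bb b₂ b₄ b₆ x₁ x₂ := by
  obtain ⟨b, u, hb, hu, hx, hf1, hf2, -⟩ := D.param
  have hf1' := D.hf1
  have hf2' := D.hf2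
  have hd : x₂ - x₁ = u * b := by rw [hx]; ring
  have hd' : x₁ - x₂ = - (u * b) := by rw [hx]; ring
  rw [bb, bb, hf1, hf2, hd, hd']
  field_simp

lemma bb_ne_zero (D : Data b₂ b₄ b₆ b₈ x₀ x₁ x₂) : bb b₂ b₄ b₆ x₁ x₂ ≠ 0 :=
  div_ne_zero (pow_ne_zero 3 (sub_ne_zero.mpr D.hd.symm)) D.hf1

lemma mm_ne_zero (D : Data b₂ b₄ b₆ b₈ x₀ x₁ x₂) : mm x₀ x₁ x₂ ≠ 0 :=
  div_ne_zero (neg_ne_zero.mpr (sub_ne_zero.mpr D.x₀_ne_x₂)) (sub_ne_zero.mpr D.x₀_ne_x₁)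

lemma mm_add_one_ne_zero (D : Data b₂ b₄ b₆ b₈ x₀ x₁ x₂) : mm x₀ x₁ x₂ + 1 ≠ 0 := by
  have h1 := sub_ne_zero.mpr D.x₀_ne_x₁
  have h2 := sub_ne_zero.mpr D.hd
  rw [mm]
  intro h
  field_simp at h
  apply h2
  linear_combination -h

lemma mm_swap (D : Data b₂ b₄ b₆ b₈ x₀ x₁ x₂) : mm x₀ x₂ x₁ = 1 / mm x₀ x₁ x₂ := by
  have h1 := sub_ne_zero.mpr D.x₀_ne_x₁
  have h2 := sub_ne_zero.mpr D.x₀_ne_x₂
  rw [mm, mm]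
  field_simp

lemma rel (D : Data b₂ b₄ b₆ b₈ x₀ x₁ x₂) :
    (mm x₀ x₁ x₂ + 1) * (bb b₂ b₄ b₆ x₁ x₂ ^ 2 - mm x₀ x₁ x₂ ^ 3) +
      3 * bb b₂ b₄ b₆ x₁ x₂ * mm x₀ x₁ x₂ ^ 2 = 0 := by
  obtain ⟨b, u, hb, hu, hx, hf1, hf2, e2, e4, e6, e8⟩ := D.param
  have hxi := sub_ne_zero.mpr D.x₀_ne_x₁
  have h0 := D.h0
  have hbb : bb b₂ b₄ b₆ x₁ x₂ = b := by
    have hd : x₂ - x₁ = u * b := by rw [hx]; ring
    rw [bb, hf1, hd]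
    field_simp
  obtain ⟨ξ, hξ⟩ : ∃ ξ, x₀ = x₁ + ξ := ⟨x₀ - x₁, by ring⟩
  have hξ0 : ξ ≠ 0 := by rintro rfl; exact D.x₀_ne_x₁ (by rw [hξ, add_zero])
  have hmm : mm x₀ x₁ x₂ = (u * b - ξ) / ξ := by
    rw [mm, hx, hξ]
    congr 1 <;> ring
  rw [hbb, hmm]
  field_simp
  rw [hξ] at h0
  have key : 3 * ξ ^ 4 + (u * (b ^ 2 - 6 * b + 1)) * ξ ^ 3 + 3 * (u ^ 2 * (b ^ 2 - b)) * ξ ^ 2 +
      3 * (u ^ 3 * b ^ 2) * ξ - u ^ 4 * b ^ 3 = 0 := by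
    linear_combination h0 - (ξ ^ 3) * e2 - 3 * ξ ^ 2 * e4 - 3 * ξ * e6 - e8
  linear_combination b * key

lemma c_symm (D : Data b₂ b₄ b₆ b₈ x₀ x₁ x₂) :
    bb b₂ b₄ b₆ x₂ x₁ - 1 / bb b₂ b₄ b₆ x₂ x₁ = bb b₂ b₄ b₆ x₁ x₂ - 1 / bb b₂ b₄ b₆ x₁ x₂ := by
  have h := D.bb_ne_zero
  rw [D.bb_swap]
  field_simp
  ring

lemma theta_symm (D : Data b₂ b₄ b₆ b₈ x₀ x₁ x₂) :
    mm x₀ x₂ x₁ + 1 / mm x₀ x₂ x₁ = mm x₀ x₁ x₂ + 1 / mm x₀ x₁ x₂ := by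
  have h := D.mm_ne_zero
  rw [D.mm_swap]
  field_simp
  ring

lemma lam_symm (D : Data b₂ b₄ b₆ b₈ x₀ x₁ x₂) :
    lam (mm x₀ x₂ x₁) (bb b₂ b₄ b₆ x₂ x₁) = lam (mm x₀ x₁ x₂) (bb b₂ b₄ b₆ x₁ x₂) := by
  rw [D.mm_swap, D.bb_swap]
  exact X15.lam_symm D.mm_ne_zero D.mm_add_one_ne_zero D.bb_ne_zero D.rel

lemma theta_ne (D : Data b₂ b₄ b₆ b₈ x₀ x₁ x₂) :
    mm x₀ x₁ x₂ + 1 / mm x₀ x₁ x₂ + 2 ≠ 0 := by
  have h := D.mm_ne_zero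
  have h1 := D.mm_add_one_ne_zero
  have : mm x₀ x₁ x₂ + 1 / mm x₀ x₁ x₂ + 2 = (mm x₀ x₁ x₂ + 1) ^ 2 / mm x₀ x₁ x₂ := by
    field_simp
    ring
  rw [this]
  exact div_ne_zero (pow_ne_zero 2 h1) h

/-- the relation with `c₄` and `Δ` -/
lemma c4_delta (D : Data b₂ b₄ b₆ b₈ x₀ x₁ x₂) {s : K}
    (hs : s = bb b₂ b₄ b₆ x₁ x₂ - 1 / bb b₂ b₄ b₆ x₁ x₂ - 11) :
    (b₂ ^ 2 - 24 * b₄) ^ 3 * s = (s ^ 2 + 10 * s + 5) ^ 3 *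
      (-b₂ ^ 2 * b₈ - 8 * b₄ ^ 3 - 27 * b₆ ^ 2 + 9 * b₂ * b₄ * b₆) ∧
    (-b₂ ^ 2 * b₈ - 8 * b₄ ^ 3 - 27 * b₆ ^ 2 + 9 * b₂ * b₄ * b₆ ≠ 0 → s ≠ 0) := by
  obtain ⟨b, u, hb, hu, hx, hf1, hf2, e2, e4, e6, e8⟩ := D.param
  have hbb : bb b₂ b₄ b₆ x₁ x₂ = b := by
    have hd : x₂ - x₁ = u * b := by rw [hx]; ring
    rw [bb, hf1, hd]
    field_simp
  rw [hbb] at hs
  have hc : b₂ ^ 2 - 24 * b₄ = u ^ 2 * b ^ 2 * (s ^ 2 + 10 * s + 5) := by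
    rw [hs, e4, e2]
    field_simp
    ring
  have hΔ : -b₂ ^ 2 * b₈ - 8 * b₄ ^ 3 - 27 * b₆ ^ 2 + 9 * b₂ * b₄ * b₆ = u ^ 6 * b ^ 6 * s := by
    rw [hs, e8, e6, e4, e2]
    field_simp
    ring
  rw [hc, hΔ]
  refine ⟨by ring, ?_⟩
  rintro h rfl
  exact h (by rw [mul_zero])

end Data

end

/-- the noncuspidal rational points -/
lemma final {θ l c : ℚ} (h1 : l ^ 2 * (θ + 2) = (4 * θ + 17) * (θ - 2))
    (h2 : 2 * c = l * (θ + 1) - 3 * (θ - 1)) (hθ : θ + 2 ≠ 0) (hs : c - 11 ≠ 0) :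
    c - 11 = -25 / 2 ∨ c - 11 = -25 / 8 ∨ c - 11 = -40 ∨ c - 11 = -10 := by
  have hY : (4 * (θ + 2) * l) ^ 2 = (4 * (θ + 2)) * (4 * (θ + 2) - 16) * (4 * (θ + 2) + 9) := by
    linear_combination 16 * (θ + 2) * h1
  rcases points hY with h | h | h | h | h
  · exfalso; apply hθ; linarith
  · have hθ2 : θ = 2 := by linarith
    subst hθ2
    have hl : l = 0 := by
      have : l ^ 2 = 0 := by linarith
      exact pow_eq_zero_iff (two_ne_zero) |>.mp this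
    left; rw [hl] at h2; linarith
  · have hθ2 : θ = -17 / 4 := by linarith
    subst hθ2
    have hl : l = 0 := by
      have : l ^ 2 = 0 := by linarith
      exact pow_eq_zero_iff (two_ne_zero) |>.mp this
    right; left; rw [hl] at h2; linarith
  · have hθ2 : θ = 7 := by linarith
    subst hθ2
    have hl : (l - 5) * (l + 5) = 0 := by linarith
    rcases mul_eq_zero.mp hl with h3 | h3
    · exfalso; apply hs; linarith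
    · right; right; left; linarith
  · have hθ2 : θ = -3 := by linarith
    subst hθ2
    have hl : (l - 5) * (l + 5) = 0 := by linarith
    rcases mul_eq_zero.mp hl with h3 | h3
    · right; right; right; linarith
    · exfalso; apply hs; linarith

/-- the four rational points have additive reduction at 5 -/
lemma not_semistable {c4 D : ℤ} {s : ℚ} (h : (c4 : ℚ) ^ 3 * s = (s ^ 2 + 10 * s + 5) ^ 3 * D)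
    (hs : s = -25 / 2 ∨ s = -25 / 8 ∨ s = -40 ∨ s = -10) : (5 : ℤ) ∣ D ∧ (5 : ℤ) ∣ c4 := by
  have aux : ∀ m n : ℤ, m * c4 ^ 3 = 5 * (n * D) → ¬ (5 : ℤ) ∣ m → (5 : ℤ) ∣ c4 := by
    intro m n hmn hm
    have h5 : (5 : ℤ) ∣ m * c4 ^ 3 := ⟨_, hmn⟩
    have hp : Prime (5 : ℤ) := by norm_num
    rcases hp.dvd_or_dvd h5 with h6 | h6
    · exact absurd h6 hm
    · exact hp.dvd_of_dvd_pow h6
  have hp : Prime (5 : ℤ) := by norm_num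
  rcases hs with rfl | rfl | rfl | rfl
  · have h1 : (-32) * c4 ^ 3 = 5 * (24389 * D) := by
      have : (-32 : ℚ) * (c4 : ℚ) ^ 3 = 5 * (24389 * D) := by linarith
      exact_mod_cast this
    have h2 := aux _ _ h1 (by norm_num)
    refine ⟨?_, h2⟩
    obtain ⟨k, hk⟩ := h2
    have h3 : (5 : ℤ) ∣ 24389 * D := ⟨-32 * 5 * k ^ 3, by rw [hk] at h1; linarith⟩
    exact (hp.dvd_or_dvd h3).resolve_left (by norm_num)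
  · have h1 : (32768) * c4 ^ 3 = 5 * (9393931 * D) := by
      have : (32768 : ℚ) * (c4 : ℚ) ^ 3 = 5 * (9393931 * D) := by linarith
      exact_mod_cast this
    have h2 := aux _ _ h1 (by norm_num)
    refine ⟨?_, h2⟩
    obtain ⟨k, hk⟩ := h2
    have h3 : (5 : ℤ) ∣ 9393931 * D := ⟨32768 * 5 * k ^ 3, by rw [hk] at h1; linarith⟩
    exact (hp.dvd_or_dvd h3).resolve_left (by norm_num)
  · have h1 : (-8) * c4 ^ 3 = 5 * (69987605 * D) := by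
      have : (-8 : ℚ) * (c4 : ℚ) ^ 3 = 5 * (69987605 * D) := by linarith
      exact_mod_cast this
    have h2 := aux _ _ h1 (by norm_num)
    refine ⟨?_, h2⟩
    obtain ⟨k, hk⟩ := h2
    have h3 : (5 : ℤ) ∣ 13997521 * D := ⟨-8 * k ^ 3, by rw [hk] at h1; linarith⟩
    exact (hp.dvd_or_dvd h3).resolve_left (by norm_num)
  · have h1 : (-2) * c4 ^ 3 = 5 * (5 * D) := by
      have : (-2 : ℚ) * (c4 : ℚ) ^ 3 = 5 * (5 * D) := by linarith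
      exact_mod_cast this
    have h2 := aux _ _ h1 (by norm_num)
    refine ⟨?_, h2⟩
    obtain ⟨k, hk⟩ := h2
    exact ⟨-2 * k ^ 3, by rw [hk] at h1; linarith⟩

end Fermat.Agent.EC.X15
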