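import Fermat.Agent.EC.StableEx
import Fermat.Agent.EC.X15Alg

/-!
# Curves with a rational 3-isogeny and a rational 5-isogeny
-/

set_option autoImplicit false
set_option linter.unusedSectionVars false

namespace Fermat.Agent.EC

open WeierstrassCurve WeierstrassCurve.Affine WeierstrassCurve.Affine.Point Polynomial

lemma five_facts {G : Type*} [AddCommGroup G] {Q : G} (h5 : 5 • Q = 0) (hQ : Q ≠ 0) :
    2 • Q ≠ 0 ∧ 2 • (2 • Q) = -Q ∧ (3 : ℕ) • Q = -((2 : ℕ) • Q) ∧ 4 • Q = -Q ∧ Q ≠ 2 • Q ∧ Q ≠ -(2 • Q) := by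
  refine ⟨fun h => hQ ?_, ?_, ?_, ?_, fun h => hQ ?_, fun h => hQ ?_⟩
  · have : Q = 5 • Q - 2 • (2 • Q) := by module
    rw [this, h5, h, smul_zero, sub_zero]
  · have : 2 • (2 • Q) = 5 • Q - Q := by module
    rw [this, h5, zero_sub]
  · have : 3 • Q = 5 • Q - 2 • Q := by module
    rw [this, h5, zero_sub]
  · have : 4 • Q = 5 • Q - Q := by module
    rw [this, h5, zero_sub]
  · have : Q = 2 • Q - Q := by module
    rw [this, ← h, sub_self]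
  · have : Q = 2 • (Q - -(2 • Q)) - 5 • Q := by module
    rw [this, h5, ← h, sub_self, smul_zero, sub_zero]

section

variable {K : Type*} [Field K] [CharZero K] [DecidableEq K] {W : Affine K}

lemma eval_ΨSq_two (x : K) : (W.ΨSq (2 : ℕ)).eval x = X15.ff W.b₂ W.b₄ W.b₆ x := by
  have : W.ΨSq ((2 : ℕ) : ℤ) = W.Ψ₂Sq := by
    rw [Nat.cast_ofNat, WeierstrassCurve.ΨSq_two]
  rw [this, X15.ff, WeierstrassCurve.Ψ₂Sq]
  simp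

lemma eval_Φ_two (x : K) : (W.Φ (2 : ℕ)).eval x =
    x ^ 4 - W.b₄ * x ^ 2 - 2 * W.b₆ * x - W.b₈ := by
  have : W.Φ ((2 : ℕ) : ℤ) = X ^ 4 - C W.b₄ * X ^ 2 - C (2 * W.b₆) * X - C W.b₈ := by
    rw [Nat.cast_ofNat, WeierstrassCurve.Φ_two]
  rw [this]
  simp

lemma eval_preΨ'_three (x : K) : (W.preΨ' 3).eval x =
    3 * x ^ 4 + W.b₂ * x ^ 3 + 3 * W.b₄ * x ^ 2 + 3 * W.b₆ * x + W.b₈ := by
  rw [WeierstrassCurve.preΨ'_three, WeierstrassCurve.Ψ₃]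
  simp

lemma xc_neg (Q : W.Point) : xc (-Q) = xc Q := by
  rcases Q with _ | ⟨x, y, h⟩
  · rfl
  · rfl

/-- relation for doubling -/
lemma double_rel {Q : W.Point} (hQ : Q ≠ 0) (h2 : 2 • Q ≠ 0) :
    xc (2 • Q) * X15.ff W.b₂ W.b₄ W.b₆ (xc Q) =
      xc Q ^ 4 - W.b₄ * xc Q ^ 2 - 2 * W.b₆ * xc Q - W.b₈ ∧
    X15.ff W.b₂ W.b₄ W.b₆ (xc Q) ≠ 0 := by
  rcases Q with _ | ⟨x, y, h⟩
  · exact absurd rfl hQ
  have hf : X15.ff W.b₂ W.b₄ W.b₆ x ≠ 0 := by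
    rw [← eval_ΨSq_two]
    intro h0
    exact h2 ((smul_some_eq_zero_iff h 2).mpr h0)
  refine ⟨?_, hf⟩
  rcases h2' : 2 • (Point.some x y h : W.Point) with _ | ⟨x', y', h'⟩
  · exact absurd h2' h2
  have := x_smul h 2 h' h2'
  rw [eval_ΨSq_two, eval_Φ_two] at this
  exact this

end

section

variable {F K : Type*} [Field F] [Field K] [CharZero K] [Algebra F K] [DecidableEq K]
  [IsGalois F K] {W : Affine F}

lemma exists_x3 {N : AddSubgroup (W⁄K).Point} (hN : N ≤ tors (W⁄K) 3) (hcard : Nat.card N = 3)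
    (hstab : ∀ σ : K ≃ₐ[F] K, ∀ x ∈ N, σ • x ∈ N) :
    ∃ x₀ : K, (∀ σ : K ≃ₐ[F] K, σ x₀ = x₀) ∧
      3 * x₀ ^ 4 + (W⁄K).b₂ * x₀ ^ 3 + 3 * (W⁄K).b₄ * x₀ ^ 2 + 3 * (W⁄K).b₆ * x₀ + (W⁄K).b₈ = 0 := by
  have hne : ∃ Q ∈ N, Q ≠ 0 := by
    by_contra hcon
    push Not at hcon
    have : N = ⊥ := by
      rw [eq_bot_iff]; intro x hx; rw [AddSubgroup.mem_bot]; exact hcon x hx
    rw [this] at hcard
    simp at hcard
  obtain ⟨Q, hQ, hQ0⟩ := hne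
  refine ⟨xc Q, ?_, ?_⟩
  · intro σ
    rw [← xc_smul σ hQ0]
    obtain ⟨k, hk, hk2⟩ := exists_nsmul_eq Nat.prime_three hcard hQ hQ0 (hstab σ Q hQ)
    rw [← hk2]
    have h3 : 3 • Q = 0 := hN hQ
    have hσ0 : σ • Q ≠ 0 := (smul_ne_zero_iff_ne σ).mpr hQ0
    interval_cases k
    · rw [zero_smul] at hk2; exact absurd hk2.symm hσ0
    · rw [one_smul]
    · have : 2 • Q = -Q := by
        rw [eq_neg_iff_add_eq_zero, ← succ_nsmul]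
        exact h3
      rw [this, xc_neg]
  · have h3 : 3 • Q = 0 := hN hQ
    rcases Q with _ | ⟨x, y, h⟩
    · exact absurd rfl hQ0
    rw [← eval_preΨ'_three]
    exact (smul_some_eq_zero_iff_of_odd h (by decide)).mp h3

lemma exists_x5 {N : AddSubgroup (W⁄K).Point} (hN : N ≤ tors (W⁄K) 5) (hcard : Nat.card N = 5)
    (hstab : ∀ σ : K ≃ₐ[F] K, ∀ x ∈ N, σ • x ∈ N) :
    ∃ x₁ x₂ : K, x₁ ≠ x₂ ∧
      (∀ σ : K ≃ₐ[F] K, (σ x₁ = x₁ ∧ σ x₂ = x₂) ∨ (σ x₁ = x₂ ∧ σ x₂ = x₁)) ∧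
      x₂ * X15.ff (W⁄K).b₂ (W⁄K).b₄ (W⁄K).b₆ x₁ =
        x₁ ^ 4 - (W⁄K).b₄ * x₁ ^ 2 - 2 * (W⁄K).b₆ * x₁ - (W⁄K).b₈ ∧
      x₁ * X15.ff (W⁄K).b₂ (W⁄K).b₄ (W⁄K).b₆ x₂ =
        x₂ ^ 4 - (W⁄K).b₄ * x₂ ^ 2 - 2 * (W⁄K).b₆ * x₂ - (W⁄K).b₈ ∧
      X15.ff (W⁄K).b₂ (W⁄K).b₄ (W⁄K).b₆ x₁ ≠ 0 ∧ X15.ff (W⁄K).b₂ (W⁄K).b₄ (W⁄K).b₆ x₂ ≠ 0 := by
  have hne : ∃ Q ∈ N, Q ≠ 0 := by
    by_contra hcon
    push Not at hcon
    have : N = ⊥ := by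
      rw [eq_bot_iff]; intro x hx; rw [AddSubgroup.mem_bot]; exact hcon x hx
    rw [this] at hcard
    simp at hcard
  obtain ⟨Q, hQ, hQ0⟩ := hne
  have h5 : 5 • Q = 0 := hN hQ
  obtain ⟨h2Q0, h4Q, h3Q, h4Q', hne1, hne2⟩ := five_facts h5 hQ0
  obtain ⟨r1, f1⟩ := double_rel hQ0 h2Q0
  obtain ⟨r2, f2⟩ := double_rel h2Q0 (by rw [h4Q]; exact neg_ne_zero.mpr hQ0)
  rw [h4Q, xc_neg] at r2
  refine ⟨xc Q, xc (2 • Q), ?_, ?_, r1, r2, f1, f2⟩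
  · intro h
    rcases eq_or_eq_neg_of_xc_eq hQ0 h2Q0 h with h' | h'
    · exact hne1 h'
    · exact hne2 h'
  · intro σ
    have hσ0 : σ • Q ≠ 0 := (smul_ne_zero_iff_ne σ).mpr hQ0
    rw [← xc_smul σ hQ0, ← xc_smul σ h2Q0]
    have hσ2 : σ • (2 • Q) = 2 • (σ • Q) := by
      have := algEquiv_smul_zsmul σ ((2 : ℕ) : ℤ) Q
      rw [natCast_zsmul, natCast_zsmul] at this
      exact this
    rw [hσ2]
    obtain ⟨k, hk, hk2⟩ := exists_nsmul_eq Nat.prime_five hcard hQ hQ0 (hstab σ Q hQ)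
    rw [← hk2]
    interval_cases k
    · rw [zero_smul] at hk2; exact absurd hk2.symm hσ0
    · left
      rw [one_smul]
      exact ⟨rfl, rfl⟩
    · right
      rw [h4Q, xc_neg]
      exact ⟨rfl, rfl⟩
    · right
      rw [h3Q, smul_neg, h4Q, xc_neg, neg_neg]
      exact ⟨rfl, rfl⟩
    · left
      rw [h4Q', smul_neg, xc_neg, xc_neg]
      exact ⟨rfl, rfl⟩

lemma map_b2 (σ : K ≃ₐ[F] K) : σ (W⁄K).b₂ = (W⁄K).b₂ := by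
  have h : (W⁄K).b₂ = algebraMap F K W.b₂ := WeierstrassCurve.map_b₂ W (algebraMap F K)
  rw [h]; exact σ.commutes _

lemma map_b4 (σ : K ≃ₐ[F] K) : σ (W⁄K).b₄ = (W⁄K).b₄ := by
  have h : (W⁄K).b₄ = algebraMap F K W.b₄ := WeierstrassCurve.map_b₄ W (algebraMap F K)
  rw [h]; exact σ.commutes _

lemma map_b6 (σ : K ≃ₐ[F] K) : σ (W⁄K).b₆ = (W⁄K).b₆ := by
  have h : (W⁄K).b₆ = algebraMap F K W.b₆ := WeierstrassCurve.map_b₆ W (algebraMap F K)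
  rw [h]; exact σ.commutes _

lemma map_bb (σ : K ≃ₐ[F] K) (x₁ x₂ : K) :
    σ (X15.bb (W⁄K).b₂ (W⁄K).b₄ (W⁄K).b₆ x₁ x₂) =
      X15.bb (W⁄K).b₂ (W⁄K).b₄ (W⁄K).b₆ (σ x₁) (σ x₂) := by
  simp only [X15.bb, X15.ff, map_div₀, map_pow, map_sub, map_add, map_mul, map_ofNat,
    map_b2, map_b4, map_b6]

lemma map_mm (σ : K ≃ₐ[F] K) (x₀ x₁ x₂ : K) :
    σ (X15.mm x₀ x₁ x₂) = X15.mm (σ x₀) (σ x₁) (σ x₂) := by
  simp only [X15.mm, map_div₀, map_sub, map_neg]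

lemma map_lam (σ : K ≃ₐ[F] K) (m b : K) :
    σ (X15.lam m b) = X15.lam (σ m) (σ b) := by
  simp only [X15.lam, map_div₀, map_sub, map_add, map_mul, map_pow, map_ofNat, map_one]

theorem exists_rational {N3 N5 : AddSubgroup (W⁄K).Point} (hN3 : N3 ≤ tors (W⁄K) 3)
    (hcard3 : Nat.card N3 = 3) (hstab3 : ∀ σ : K ≃ₐ[F] K, ∀ x ∈ N3, σ • x ∈ N3)
    (hN5 : N5 ≤ tors (W⁄K) 5) (hcard5 : Nat.card N5 = 5)
    (hstab5 : ∀ σ : K ≃ₐ[F] K, ∀ x ∈ N5, σ • x ∈ N5) :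
    ∃ θ l c : F, l ^ 2 * (θ + 2) = (4 * θ + 17) * (θ - 2) ∧
      2 * c = l * (θ + 1) - 3 * (θ - 1) ∧ θ + 2 ≠ 0 ∧
      W.c₄ ^ 3 * (c - 11) = ((c - 11) ^ 2 + 10 * (c - 11) + 5) ^ 3 * W.Δ ∧
      (W.Δ ≠ 0 → c - 11 ≠ 0) := by
  obtain ⟨x₀, hx₀, h0⟩ := exists_x3 hN3 hcard3 hstab3
  obtain ⟨x₁, x₂, hd, hσ, h1, h2, f1, f2⟩ := exists_x5 hN5 hcard5 hstab5
  have D : X15.Data (W⁄K).b₂ (W⁄K).b₄ (W⁄K).b₆ (W⁄K).b₈ x₀ x₁ x₂ :=
    ⟨(W⁄K).b_relation, h0, h1, h2, hd, f1, f2⟩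
  have inj : Function.Injective (algebraMap F K) := (algebraMap F K).injective
  obtain ⟨c, hc⟩ : X15.bb (W⁄K).b₂ (W⁄K).b₄ (W⁄K).b₆ x₁ x₂ -
      1 / X15.bb (W⁄K).b₂ (W⁄K).b₄ (W⁄K).b₆ x₁ x₂ ∈ Set.range (algebraMap F K) := by
    rw [InfiniteGalois.mem_range_algebraMap_iff_fixed]
    intro σ
    rw [map_sub, map_div₀, map_one, map_bb]
    rcases hσ σ with ⟨e1, e2⟩ | ⟨e1, e2⟩
    · rw [e1, e2]
    · rw [e1, e2, D.c_symm]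
  obtain ⟨θ, hθ⟩ : X15.mm x₀ x₁ x₂ + 1 / X15.mm x₀ x₁ x₂ ∈ Set.range (algebraMap F K) := by
    rw [InfiniteGalois.mem_range_algebraMap_iff_fixed]
    intro σ
    rw [map_add, map_div₀, map_one, map_mm, hx₀]
    rcases hσ σ with ⟨e1, e2⟩ | ⟨e1, e2⟩
    · rw [e1, e2]
    · rw [e1, e2, D.theta_symm]
  obtain ⟨l, hl⟩ : X15.lam (X15.mm x₀ x₁ x₂) (X15.bb (W⁄K).b₂ (W⁄K).b₄ (W⁄K).b₆ x₁ x₂) ∈
      Set.range (algebraMap F K) := by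
    rw [InfiniteGalois.mem_range_algebraMap_iff_fixed]
    intro σ
    rw [map_lam, map_mm, map_bb, hx₀]
    rcases hσ σ with ⟨e1, e2⟩ | ⟨e1, e2⟩
    · rw [e1, e2]
    · rw [e1, e2, D.lam_symm]
  refine ⟨θ, l, c, ?_, ?_, ?_, ?_, ?_⟩
  · apply inj
    have := X15.lam_rel D.mm_ne_zero D.mm_add_one_ne_zero D.rel
    rw [← hl, ← hθ] at this
    simpa [map_ofNat] using this
  · apply inj
    have := X15.lam_c D.mm_ne_zero D.mm_add_one_ne_zero D.bb_ne_zero D.rel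
    rw [← hl, ← hθ, ← hc] at this
    simpa [map_ofNat] using this
  · intro h
    apply D.theta_ne
    rw [← hθ]
    have := congrArg (algebraMap F K) h
    simpa [map_ofNat] using this
  · apply inj
    have := (D.c4_delta (s := algebraMap F K (c - 11)) (by rw [← hc]; simp [map_ofNat])).1
    have e1 : (W⁄K).c₄ = algebraMap F K W.c₄ := WeierstrassCurve.map_c₄ W (algebraMap F K)
    have e2 : (W⁄K).Δ = algebraMap F K W.Δ := WeierstrassCurve.map_Δ W (algebraMap F K)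
    rw [WeierstrassCurve.c₄] at e1
    rw [WeierstrassCurve.Δ] at e2
    rw [e1, e2] at this
    simpa [map_ofNat] using this
  · intro hΔ h
    have := (D.c4_delta (s := algebraMap F K (c - 11)) (by rw [← hc]; simp [map_ofNat])).2
    have e2 : (W⁄K).Δ = algebraMap F K W.Δ := WeierstrassCurve.map_Δ W (algebraMap F K)
    rw [WeierstrassCurve.Δ] at e2
    rw [e2, h] at this
    refine this ?_ (map_zero _)
    rw [Ne, map_eq_zero]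
    exact hΔ

end

end Fermat.Agent.EC
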